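import Fermat.Agent.Root.Defs
import Fermat.Agent.DihedralTwo.Weierstrass
import Fermat.Agent.Gal.Frobenius
import Fermat.Prelude.Def_GaloisRep_ComplexConjugation
import Mathlib.LinearAlgebra.Vandermonde

/-!
# The roots of the 2-division cubic

A frame lists the roots with one fixed by complex conjugation; the Galois group permutes them and
the cubic character is trivial exactly on the elements fixing all.
-/

set_option autoImplicit false

noncomputable section

namespace Fermat.Agent.Root.Selmer

open WeierstrassCurve WeierstrassCurve.Affine.Point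
open scoped WeierstrassCurve.Affine

local notation "ℚbar" => AlgebraicClosure ℚ
local notation "Γ" => AlgebraicClosure ℚ ≃ₐ[ℚ] AlgebraicClosure ℚ

/-- Complex conjugation negates the square root of a negative discriminant. -/
theorem complexConjugation_sqrtDisc {W : WeierstrassCurve ℤ} (h : W.Δ < 0) :
    complexConjugation (sqrtDisc W) = -sqrtDisc W := by
  refine complexEmbedding.toRingHom.injective ?_
  show complexEmbedding _ = complexEmbedding _
  rw [complexEmbedding_complexConjugation, map_neg]
  have hz : complexEmbedding (sqrtDisc W) ^ 2 = (W.Δ : ℂ) := by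
    rw [← map_pow, sqrtDisc_sq, map_intCast]
  generalize complexEmbedding (sqrtDisc W) = z at hz ⊢
  have him := congrArg Complex.im hz
  have hre := congrArg Complex.re hz
  simp only [sq, Complex.mul_im, Complex.mul_re, Complex.intCast_im, Complex.intCast_re] at him hre
  have hzre : z.re = 0 := by
    rcases mul_eq_zero.mp (show z.re * z.im = 0 by linarith) with e | e
    · exact e
    · exfalso
      have : (W.Δ : ℝ) < 0 := by exact_mod_cast h
      rw [e] at hre
      nlinarith [mul_self_nonneg z.re]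
  apply Complex.ext <;> simp [hzre]

/-- Complex conjugation inverts roots of unity. -/
theorem complexConjugation_rootOfUnity {ζ : ℚbar} {k : ℕ} (hk : k ≠ 0) (hζ : ζ ^ k = 1) :
    complexConjugation ζ = ζ⁻¹ := by
  refine complexEmbedding.toRingHom.injective ?_
  show complexEmbedding _ = complexEmbedding _
  rw [complexEmbedding_complexConjugation, map_inv₀]
  exact (Complex.inv_eq_conj (Complex.norm_eq_one_of_pow_eq_one
    (by rw [← map_pow, hζ, map_one]) hk)).symm

/-- The roots of the 2-division cubic in the variable `4X`, the one with index `0` fixed by complex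
conjugation. -/
structure Frame (W : WeierstrassCurve ℤ) where
  /-- The roots. -/
  e : Fin 3 → ℚbar
  neg : W.Δ < 0
  sum_eq : e 0 + e 1 + e 2 = -(W.b₂ : ℚbar)
  pair_eq : e 0 * e 1 + e 0 * e 2 + e 1 * e 2 = 8 * (W.b₄ : ℚbar)
  prod_eq : e 0 * e 1 * e 2 = -(16 * (W.b₆ : ℚbar))
  conj_fix : complexConjugation (e 0) = e 0

/-- Equation of the 2-division cubic. -/
def IsRootOf (W : WeierstrassCurve ℤ) (z : ℚbar) : Prop :=
  z ^ 3 + (W.b₂ : ℚbar) * z ^ 2 + 8 * (W.b₄ : ℚbar) * z + 16 * (W.b₆ : ℚbar) = 0

theorem isRootOf_apply {W : WeierstrassCurve ℤ} {z : ℚbar} (h : IsRootOf W z) (g : Γ) :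
    IsRootOf W (g z) := by
  have := congrArg g h
  simp only [map_add, map_mul, map_pow, map_intCast, map_ofNat, _root_.map_zero] at this
  exact this

theorem exists_frame (W : WeierstrassCurve ℤ) (hneg : W.Δ < 0) : Nonempty (Frame W) := by
  obtain ⟨r, hr⟩ : ∃ r : ℚbar, IsRootOf W r := by
    obtain ⟨r, hr⟩ := IsAlgClosed.exists_root
      (Cubic.toPoly (⟨1, (W.b₂ : ℚbar), 8 * (W.b₄ : ℚbar), 16 * (W.b₆ : ℚbar)⟩))
      (by rw [Cubic.degree_of_a_ne_zero one_ne_zero]; decide)
    refine ⟨r, ?_⟩
    simp only [Polynomial.IsRoot, Cubic.toPoly, Polynomial.eval_add, Polynomial.eval_mul,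
      Polynomial.eval_C, Polynomial.eval_pow, Polynomial.eval_X, one_mul] at hr
    exact hr
  obtain ⟨t, ht⟩ := IsAlgClosed.exists_pow_nat_eq
    ((((W.b₂ : ℚbar) + r)) ^ 2 - 4 * (8 * (W.b₄ : ℚbar) + r * ((W.b₂ : ℚbar) + r))) (n := 2)
    two_pos
  set s := (-((W.b₂ : ℚbar) + r) + t) / 2 with hs
  set u := (-((W.b₂ : ℚbar) + r) - t) / 2 with hu
  have h1 : r + s + u = -(W.b₂ : ℚbar) := by rw [hs, hu]; ring
  have h2 : r * s + r * u + s * u = 8 * (W.b₄ : ℚbar) := by
    rw [hs, hu]; linear_combination (-1 / 4 : ℚbar) * ht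
  have h3 : r * s * u = -(16 * (W.b₆ : ℚbar)) := by
    unfold IsRootOf at hr
    linear_combination hr - r ^ 2 * h1 + r * h2
  have hcases : ∀ z, IsRootOf W z → z = r ∨ z = s ∨ z = u := by
    intro z hz
    have : (z - r) * ((z - s) * (z - u)) = 0 := by
      unfold IsRootOf at hz
      linear_combination hz - z ^ 2 * h1 + z * h2 - h3
    simpa [mul_eq_zero, sub_eq_zero] using this
  have hroot : ∀ z, z = r ∨ z = s ∨ z = u → IsRootOf W z := by
    intro z hz
    have : (z - r) * ((z - s) * (z - u)) = 0 := by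
      rcases hz with rfl | rfl | rfl <;> ring
    unfold IsRootOf
    linear_combination this + z ^ 2 * h1 - z * h2 + h3
  set c := complexConjugation
  have hcc : ∀ z, c (c z) = z := fun z => by
    rw [← AlgEquiv.mul_apply, complexConjugation_mul_self]; rfl
  have key : c r = r ∨ c s = s ∨ c u = u := by
    rcases hcases _ (isRootOf_apply (hroot r (Or.inl rfl)) c) with e | e | e
    · exact Or.inl e
    · refine Or.inr (Or.inr ?_)
      have h := congrArg c h1
      have e' : c s = r := by rw [← e, hcc]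
      rw [map_add, map_add, map_neg, map_intCast, e, e'] at h
      linear_combination h - h1
    · refine Or.inr (Or.inl ?_)
      have h := congrArg c h1
      have e' : c u = r := by rw [← e, hcc]
      rw [map_add, map_add, map_neg, map_intCast, e, e'] at h
      linear_combination h - h1
  rcases key with e | e | e
  · exact ⟨⟨![r, s, u], hneg, by simpa using h1, by simpa using h2, by simpa using h3, e⟩⟩
  · exact ⟨⟨![s, r, u], hneg, by simpa [add_comm s r] using h1,
      by simp; linear_combination h2, by simp; linear_combination h3, e⟩⟩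
  · exact ⟨⟨![u, r, s], hneg, by simp; linear_combination h1,
      by simp; linear_combination h2, by simp; linear_combination h3, e⟩⟩

namespace Frame

variable {W : WeierstrassCurve ℤ} (R : Frame W)

include R in
theorem ne : W.Δ ≠ 0 := R.neg.ne

theorem prod_sub (z : ℚbar) : (z - R.e 0) * ((z - R.e 1) * (z - R.e 2)) =
    z ^ 3 + (W.b₂ : ℚbar) * z ^ 2 + 8 * (W.b₄ : ℚbar) * z + 16 * (W.b₆ : ℚbar) := by
  linear_combination (-z ^ 2) * R.sum_eq + z * R.pair_eq - R.prod_eq

theorem isRootOf_iff (z : ℚbar) : IsRootOf W z ↔ ∃ i, z = R.e i := by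
  rw [IsRootOf, ← R.prod_sub]
  simp [mul_eq_zero, sub_eq_zero, Fin.exists_fin_succ]

theorem isRootOf_e (i : Fin 3) : IsRootOf W (R.e i) := (R.isRootOf_iff _).mpr ⟨i, rfl⟩

/-- The product of the differences. -/
def diffProd : ℚbar := (Matrix.vandermonde R.e).det

theorem diffProd_sq : R.diffProd ^ 2 = 256 * (W.Δ : ℚbar) := by
  have h := congrArg (fun z : ℤ => (z : ℚbar)) (DihedralTwo.weierCubic_disc W)
  simp only [DihedralTwo.weierCubic, DihedralTwo.Cubic.disc, Int.cast_sub, Int.cast_add,
    Int.cast_mul,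
    Int.cast_pow, Int.cast_ofNat, Int.cast_one] at h
  rw [← h, diffProd, Matrix.det_fin_three]
  simp only [Matrix.vandermonde_apply, Fin.val_zero, Fin.val_one, Fin.val_two, pow_zero, pow_one]
  rw [show (W.b₂ : ℚbar) = -(R.e 0 + R.e 1 + R.e 2) by rw [R.sum_eq, neg_neg],
    ← R.pair_eq, show 16 * (W.b₆ : ℚbar) = -(R.e 0 * R.e 1 * R.e 2) by rw [R.prod_eq, neg_neg]]
  ring

theorem diffProd_ne : R.diffProd ≠ 0 := fun h => R.ne (by
  have := R.diffProd_sq
  rw [h, zero_pow two_ne_zero, eq_comm, mul_eq_zero] at this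
  simpa using this)

theorem e_injective : Function.Injective R.e := fun i j h => by
  by_contra hne
  exact R.diffProd_ne (Matrix.det_vandermonde_eq_zero_iff.mpr ⟨i, j, h, hne⟩)

theorem exists_apply (g : Γ) (i : Fin 3) : ∃ j, g (R.e i) = R.e j :=
  (R.isRootOf_iff _).mp (isRootOf_apply (R.isRootOf_e i) g)

/-- The action on the roots. -/
def perm : Γ →* Equiv.Perm (Fin 3) where
  toFun g := Equiv.ofBijective (fun i => (R.exists_apply g i).choose) <| by
    refine Finite.injective_iff_bijective.mp fun i j h => R.e_injective (g.injective ?_)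
    rw [(R.exists_apply g i).choose_spec, (R.exists_apply g j).choose_spec]
    exact congrArg R.e h
  map_one' := Equiv.ext fun i => R.e_injective (by
    rw [Equiv.ofBijective_apply, ← (R.exists_apply 1 i).choose_spec]; rfl)
  map_mul' g h := Equiv.ext fun i => R.e_injective (by
    rw [Equiv.ofBijective_apply, ← (R.exists_apply (g * h) i).choose_spec, Equiv.Perm.mul_apply,
      Equiv.ofBijective_apply, Equiv.ofBijective_apply, ← (R.exists_apply g _).choose_spec,
      ← (R.exists_apply h i).choose_spec]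
    rfl)

theorem apply_e (g : Γ) (i : Fin 3) : g (R.e i) = R.e (R.perm g i) :=
  (R.exists_apply g i).choose_spec

theorem perm_eq_iff {g : Γ} {i j : Fin 3} : R.perm g i = j ↔ g (R.e i) = R.e j :=
  ⟨fun h => by rw [apply_e, h], fun h => R.e_injective (by rw [← apply_e, h])⟩

theorem apply_diffProd (g : Γ) :
    g R.diffProd = ((Equiv.Perm.sign (R.perm g) : ℤ) : ℚbar) * R.diffProd := by
  rw [diffProd, AlgEquiv.map_det, ← Matrix.det_permute]
  congr 1
  ext i j
  simp [Matrix.vandermonde_apply, apply_e]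

theorem sign_eq_one_iff (g : Γ) : Equiv.Perm.sign (R.perm g) = 1 ↔ g R.diffProd = R.diffProd := by
  rw [R.apply_diffProd]
  rcases Int.units_eq_one_or (Equiv.Perm.sign (R.perm g)) with e | e <;> rw [e]
  · simp
  · simp only [Units.val_neg, Units.val_one, Int.cast_neg, Int.cast_one, neg_one_mul]
    exact ⟨fun h => absurd h (by decide),
      fun h => absurd (CharZero.neg_eq_self_iff.mp h) R.diffProd_ne⟩

include R in
theorem sqrtDisc_ne : sqrtDisc W ≠ 0 := fun h => R.ne (by
  have := sqrtDisc_sq W
  rw [h, zero_pow two_ne_zero, eq_comm] at this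
  exact_mod_cast this)

theorem mem_disc_iff_apply (g : Γ) : g ∈ discGroup W ↔ g (sqrtDisc W) = sqrtDisc W := by
  constructor
  · exact fun h => (IntermediateField.mem_fixingSubgroup_iff _ _).mp h _
      (IntermediateField.subset_adjoin ℚ _ rfl)
  · intro h
    rw [discGroup, IntermediateField.mem_fixingSubgroup_iff]
    intro x hx
    induction hx using IntermediateField.adjoin_induction with
    | mem y hy => rw [Set.mem_singleton_iff] at hy; rw [hy]; exact h
    | algebraMap r => exact g.commutes r
    | add a b _ _ ha hb => rw [map_add, ha, hb]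
    | inv a _ ha => rw [map_inv₀, ha]
    | mul a b _ _ ha hb => rw [map_mul, ha, hb]

theorem mem_disc_iff (g : Γ) : g ∈ discGroup W ↔ Equiv.Perm.sign (R.perm g) = 1 := by
  rw [mem_disc_iff_apply, R.sign_eq_one_iff]
  have h16 : R.diffProd = 16 * sqrtDisc W ∨ R.diffProd = -(16 * sqrtDisc W) :=
    sq_eq_sq_iff_eq_or_eq_neg.mp (by rw [R.diffProd_sq, mul_pow, sqrtDisc_sq]; norm_num)
  rcases h16 with e | e <;> rw [e] <;> simp [map_ofNat]

include R in
theorem conj_notMem : complexConjugation ∉ discGroup W := by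
  rw [mem_disc_iff_apply, complexConjugation_sqrtDisc R.neg]
  intro h
  exact R.sqrtDisc_ne (CharZero.eq_neg_self_iff.mp h.symm)

theorem perm_conj : R.perm complexConjugation = Equiv.swap 1 2 := by
  have h0 : R.perm complexConjugation 0 = 0 := R.perm_eq_iff.mpr R.conj_fix
  have hs : Equiv.Perm.sign (R.perm complexConjugation) ≠ 1 :=
    fun h => R.conj_notMem ((R.mem_disc_iff _).mpr h)
  revert h0 hs
  generalize R.perm complexConjugation = p
  revert p
  decide

/-! ### Elementary facts about permutations of three roots -/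

theorem eq_one_of_fix {p : Equiv.Perm (Fin 3)} {i : Fin 3} (hs : Equiv.Perm.sign p = 1)
    (hi : p i = i) : p = 1 := by revert p i; decide

theorem existsUnique_fix {p : Equiv.Perm (Fin 3)} (hs : Equiv.Perm.sign p ≠ 1) :
    ∃ i, p i = i ∧ ∀ j, p j = j → j = i := by revert p; decide

theorem perm_eq_one_of_fix {g : Γ} (hg : g ∈ discGroup W) {i : Fin 3} (hi : g (R.e i) = R.e i) :
    R.perm g = 1 :=
  eq_one_of_fix ((R.mem_disc_iff g).mp hg) (R.perm_eq_iff.mpr hi)

theorem mem_disc_of_perm_eq_one {g : Γ} (h : R.perm g = 1) : g ∈ discGroup W :=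
  (R.mem_disc_iff g).mpr (by rw [h, map_one])

/-! ### The points of order two -/

theorem nonsingular (i : Fin 3) :
    (((W.map (Int.castRingHom ℚ))⁄ℚbar)).toAffine.Nonsingular (R.e i / 4)
      (-((W.a₁ : ℚbar) * (R.e i / 4) + W.a₃) / 2) := by
  have := EC.Torsion.isElliptic_baseChange_map W R.ne ℚbar
  set x := R.e i / 4 with hx
  set y := -((W.a₁ : ℚbar) * x + W.a₃) / 2 with hy
  have hy2 : 2 * y = -((W.a₁ : ℚbar) * x + W.a₃) := by rw [hy]; field_simp
  have hr := R.isRootOf_e i
  rw [IsRootOf, show R.e i = 4 * x by rw [hx]; field_simp] at hr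
  rw [← Affine.equation_iff_nonsingular, Affine.equation_iff]
  simp only [WeierstrassCurve.baseChange, map_a₁, map_a₂, map_a₃, map_a₄, map_a₆, eq_intCast,
    map_intCast]
  simp only [WeierstrassCurve.b₂, WeierstrassCurve.b₄, WeierstrassCurve.b₆] at hr
  push_cast at hr
  refine mul_left_cancel₀ (show (64 : ℚbar) ≠ 0 by norm_num) ?_
  linear_combination (16 * (2 * y + (W.a₁ : ℚbar) * x + W.a₃)) * hy2 - hr

/-- The point of order two attached to a root. -/
def point (i : Fin 3) : ((W.map (Int.castRingHom ℚ))⁄ℚbar).Point :=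
  .some _ _ (R.nonsingular i)

theorem point_ne (i : Fin 3) : R.point i ≠ 0 := fun h => by simp [point] at h

theorem point_injective : Function.Injective R.point := fun i j h => by
  simp only [point, Affine.Point.some.injEq] at h
  exact R.e_injective (by linear_combination 4 * h.1)

theorem two_nsmul_point (i : Fin 3) : 2 • R.point i = 0 := by
  rw [two_nsmul, add_eq_zero_iff_eq_neg, point, Affine.Point.neg_some, Affine.Point.some.injEq]
  refine ⟨rfl, ?_⟩
  simp only [Affine.negY, WeierstrassCurve.baseChange, map_a₁, map_a₃, eq_intCast, map_intCast]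
  field_simp
  ring

theorem eq_point {P : ((W.map (Int.castRingHom ℚ))⁄ℚbar).Point} (h2 : 2 • P = 0) (h0 : P ≠ 0) :
    ∃ i, P = R.point i := by
  rcases P with _ | ⟨x, y, h⟩
  · exact absurd rfl h0
  rw [two_nsmul, add_eq_zero_iff_eq_neg, Affine.Point.neg_some, Affine.Point.some.injEq] at h2
  have hy := h2.2
  simp only [Affine.negY, WeierstrassCurve.baseChange, map_a₁, map_a₃, eq_intCast, map_intCast]
    at hy
  have he := (Affine.equation_iff x y).mp h.1
  simp only [WeierstrassCurve.baseChange, map_a₁, map_a₂, map_a₃, map_a₄, map_a₆, eq_intCast,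
    map_intCast] at he
  obtain ⟨i, hi⟩ := (R.isRootOf_iff (4 * x)).mp (by
    rw [IsRootOf]
    simp only [WeierstrassCurve.b₂, WeierstrassCurve.b₄, WeierstrassCurve.b₆]
    push_cast
    linear_combination (16 * (2 * y + (W.a₁ : ℚbar) * x + W.a₃)) * hy - 64 * he)
  refine ⟨i, ?_⟩
  have hx : x = R.e i / 4 := by rw [← hi]; field_simp
  rw [point, Affine.Point.some.injEq]
  refine ⟨hx, ?_⟩
  rw [← hx]
  field_simp
  linear_combination hy

theorem smul_point (g : Γ) (i : Fin 3) : g • R.point i = R.point (R.perm g i) := by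
  rw [point, algEquiv_smul_def, Affine.Point.map_some, point, Affine.Point.some.injEq]
  simp [map_ofNat, R.apply_e]

theorem point_add {i j k : Fin 3} (hij : i ≠ j) (hik : i ≠ k) (hjk : j ≠ k) :
    R.point i + R.point j = R.point k := by
  have hne : R.point i + R.point j ≠ 0 := fun h => hij (R.point_injective (by
    rw [eq_neg_of_add_eq_zero_left h, eq_comm, eq_neg_iff_add_eq_zero, ← two_nsmul]
    exact R.two_nsmul_point j))
  obtain ⟨l, hl⟩ := R.eq_point
    (by rw [nsmul_add, R.two_nsmul_point, R.two_nsmul_point, add_zero]) hne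
  have hli : l ≠ i := fun h => R.point_ne j (add_left_cancel (a := R.point i)
    (by rw [add_zero, hl, h]))
  have hlj : l ≠ j := fun h => R.point_ne i (add_right_cancel (b := R.point j)
    (by rw [zero_add, hl, h]))
  have : l = k := by
    clear hl hne
    revert l; revert hij hik hjk; revert i j k; decide
  rw [hl, this]

/-! ### The character -/

theorem trace_eq_one_of_no_fixed : ∀ A : Matrix (Fin 2) (Fin 2) (ZMod 2),
    (∀ w : Fin 2 → ZMod 2, w ≠ 0 → A.mulVec w ≠ w ∧ A.mulVec w ≠ 0) → A.trace = 1 := by decide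

/-- **The cubic character is trivial exactly on the elements fixing all roots.** -/
theorem chi_eq_one_iff {k : Type} [Field k] [CharP k 2] (C : DiscChar W k) (h : discGroup W) :
    C.χ h = 1 ↔ R.perm (h : Γ) = 1 := by
  have := Fact.mk Nat.prime_two
  set E := (W.map (Int.castRingHom ℚ)).toAffine
  have : (E⁄ℚbar).IsElliptic := EC.Torsion.isElliptic_baseChange_map W R.ne ℚbar
  set T := Submodule.torsionBy ℤ (E⁄ℚbar).Point ((2 : ℕ) : ℤ)
  have hfr : Module.finrank (ZMod 2) T = 2 :=
    EC.Torsion.finrank_torsionBy E ℚbar (p := 2) two_ne_zero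
  set φ := galoisRepModuleEnd (K := ℚbar) ℚ E 2 (h : Γ)
  have htr : ((LinearMap.trace (ZMod 2) T φ).val : k) = C.χ h + C.χ h⁻¹ := C.trace_eq h
  have hχ0 : C.χ h ≠ 0 := fun h0 => by
    have := map_mul C.χ h h⁻¹
    rw [mul_inv_cancel, map_one, h0, zero_mul] at this
    exact one_ne_zero this
  have hinv : C.χ h⁻¹ = (C.χ h)⁻¹ := by
    refine eq_inv_of_mul_eq_one_left ?_
    rw [← map_mul, inv_mul_cancel, map_one]
  rw [hinv] at htr
  constructor
  · intro h1
    rw [h1, inv_one, CharTwo.add_self_eq_zero] at htr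
    by_contra hp
    have hs := (R.mem_disc_iff (h : Γ)).mp h.2
    have hnofix : ∀ i, R.perm (h : Γ) i ≠ i := fun i hi => hp (eq_one_of_fix hs hi)
    have hv : ∀ v : T, v ≠ 0 → φ v ≠ v := by
      intro v hv hfix
      obtain ⟨i, hi⟩ := R.eq_point (P := (v : (E⁄ℚbar).Point))
        ((EC.Torsion.mem_torsionBy_iff_nsmul E ℚbar _).mp v.2) fun e => hv (Subtype.ext e)
      have h2 : (h : Γ) • (v : (E⁄ℚbar).Point) = v := congrArg Subtype.val hfix
      rw [hi, R.smul_point] at h2
      exact hnofix i (R.point_injective h2)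
    have : Module.Finite (ZMod 2) T := Module.finite_of_finrank_eq_succ hfr
    set b := Module.finBasisOfFinrankEq (ZMod 2) T hfr
    have hA : ∀ w : Fin 2 → ZMod 2, w ≠ 0 → (LinearMap.toMatrix b b φ).mulVec w ≠ w ∧
        (LinearMap.toMatrix b b φ).mulVec w ≠ 0 := by
      intro w hw
      obtain ⟨v, rfl⟩ := b.equivFun.surjective w
      have hv0 : v ≠ 0 := fun e => hw (by rw [e, _root_.map_zero])
      have he : (LinearMap.toMatrix b b φ).mulVec (b.equivFun v) = b.equivFun (φ v) := by
        rw [Module.Basis.equivFun_apply, Module.Basis.equivFun_apply,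
          LinearMap.toMatrix_mulVec_repr]
      rw [he]
      refine ⟨fun e => hv v hv0 (b.equivFun.injective e), fun e => hv0 ?_⟩
      have h0 : (h : Γ) • v = 0 := b.equivFun.map_eq_zero_iff.mp e
      exact (smul_eq_zero_iff_eq (h : Γ)).mp h0
    rw [LinearMap.trace_eq_matrix_trace (ZMod 2) b] at htr
    rw [trace_eq_one_of_no_fixed _ hA] at htr
    simp [ZMod.val_one] at htr
  · intro hp
    have hφ : φ = 1 := LinearMap.ext fun v => Subtype.ext (by
      show (h : Γ) • (v : (E⁄ℚbar).Point) = v
      by_cases hv : (v : (E⁄ℚbar).Point) = 0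
      · rw [hv, smul_zero]
      obtain ⟨i, hi⟩ := R.eq_point ((EC.Torsion.mem_torsionBy_iff_nsmul E ℚbar _).mp v.2) hv
      rw [hi, R.smul_point, hp, Equiv.Perm.one_apply])
    have : Module.Finite (ZMod 2) T := Module.finite_of_finrank_eq_succ hfr
    rw [hφ, LinearMap.trace_one, hfr] at htr
    have htr' : C.χ h + (C.χ h)⁻¹ = 0 := by
      rw [← htr, show ((2 : ℕ) : ZMod 2) = 0 from rfl]; simp
    rw [CharTwo.add_eq_zero, ← mul_right_inj' hχ0, mul_inv_cancel₀ hχ0] at htr'
    have : (C.χ h - 1) ^ 2 = 0 := by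
      rw [CharTwo.sub_eq_add, CharTwo.add_sq, one_pow, sq, htr', CharTwo.add_self_eq_zero]
    exact sub_eq_zero.mp (pow_eq_zero_iff two_ne_zero |>.mp this)

end Frame

end Fermat.Agent.Root.Selmer
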