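import Fermat.Agent.Root.Defs

/-!
# Auxiliary primes and cocycles with local conditions

Auxiliary primes of level `2ⁿ` and residual cocycles with the local conditions of the genus
theory `R = T`.
-/

set_option autoImplicit false

noncomputable section

namespace Fermat.Agent.Root

local notation "ℚbar" => AlgebraicClosure ℚ
local notation "Γ" => AlgebraicClosure ℚ ≃ₐ[ℚ] AlgebraicClosure ℚ

open scoped WeierstrassCurve.Affine

/-- An auxiliary prime at level `2 ^ n`: Frobenius acts on `E[2ⁿ]` like a complex conjugation and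
does not fix `√Δ`. -/
structure AuxPrime (W : WeierstrassCurve ℤ) (n q : ℕ) : Prop where
  prime : q.Prime
  good : ¬ (q : ℤ) ∣ 2 * W.Δ
  dvd_succ : 2 ^ n ∣ q + 1
  dvd_ap : ((2 ^ n : ℕ) : ℤ) ∣ W.apOfModel q
  frob : ∀ A : ValuationSubring ℚbar, A.LiesOverPrime q → ∀ σ : Γ, A.IsFrobeniusAt σ q →
    σ ∉ discGroup W ∧ ∃ c : Γ, c * c = 1 ∧ c ≠ 1 ∧
      ∀ P : ((W.map (Int.castRingHom ℚ))⁄ℚbar).Point, 2 ^ n • P = 0 → σ • P = c • P

/-- A residual cocycle with the local conditions of the genus-theory `R = T`. -/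
structure SelmerCocycle {W : WeierstrassCurve ℤ} {k : Type} [Field k] [CharP k 2]
    (C : DiscChar W k) (Q : Finset ℕ) (f : discGroup W → k) : Prop where
  cocycle : ∀ g h, f (g * h) = f g + C.χ g ^ 2 * f h
  locConst : ∃ L : IntermediateField ℚ ℚbar, FiniteDimensional ℚ L ∧
    ∀ h x : discGroup W, (∀ y ∈ L, (x : Γ) y = y) → f (h * x) = f h
  unramified : ∀ ℓ : ℕ, ℓ.Prime → ℓ ∉ Q → ¬ (ℓ : ℤ) ∣ W.Δ →
    ∀ A : ValuationSubring ℚbar, A.LiesOverPrime ℓ →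
      ∀ x : discGroup W, (x : Γ) ∈ A.inertiaSubgroupIn ℚ → f x = 0
  transfer_sq : ∀ ℓ : ℕ, ℓ.Prime → (ℓ ∈ Q ∨ (ℓ : ℤ) ∣ W.Δ) →
    ∀ A : ValuationSubring ℚbar, A.LiesOverPrime ℓ →
      ∀ g ∈ A.decompositionSubgroup ℚ, g ∉ discGroup W →
        ∀ x : discGroup W, (x : Γ) = g * g → f x = 0
  transfer_mul : ∀ ℓ : ℕ, ℓ.Prime → (ℓ ∈ Q ∨ (ℓ : ℤ) ∣ W.Δ) →
    ∀ A : ValuationSubring ℚbar, A.LiesOverPrime ℓ →
      ∀ g ∈ A.decompositionSubgroup ℚ, g ∉ discGroup W →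
        ∀ h x : discGroup W, (h : Γ) ∈ A.decompositionSubgroup ℚ →
          (x : Γ) = h * (g * h * g⁻¹) → f x = 0

end Fermat.Agent.Root
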