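import Fermat.Agent.Root.Selmer.Inflate
import Fermat.Agent.Root.Selmer.Cocycle
import Fermat.Agent.Density.Places
import Fermat.Agent.Conductor.Quadratic

/-!
# Auxiliary primes

A nontrivial class with the local conditions fails to be a local square at infinitely many
auxiliary primes (`exists_aux`).
-/

set_option autoImplicit false

noncomputable section

namespace Fermat.Agent.Root.Selmer

open WeierstrassCurve WeierstrassCurve.Affine.Point
open scoped WeierstrassCurve.Affine Pointwise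

local notation "ℚbar" => AlgebraicClosure ℚ
local notation "Γ" => AlgebraicClosure ℚ ≃ₐ[ℚ] AlgebraicClosure ℚ
local notation "c₀" => complexConjugation

theorem pow_two_mul_apply {g : Γ} {y : ℚbar} (h : g (g y) = y) (i : ℕ) : (g ^ (2 * i)) y = y := by
  induction i with
  | zero => rfl
  | succ i ih =>
    rw [mul_add, mul_one, pow_add, AlgEquiv.mul_apply, pow_two, AlgEquiv.mul_apply, h, ih]

theorem pow_odd_apply {g : Γ} {y : ℚbar} (h : g (g y) = y) (i : ℕ) :
    (g ^ (2 * i + 1)) y = g y := by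
  rw [pow_succ', AlgEquiv.mul_apply, pow_two_mul_apply h]

namespace Frame

variable {W : WeierstrassCurve ℤ} {R : Frame W}

variable (R) in
theorem splits_of_aux {n q : ℕ} (hq : AuxPrime W n q) : R.Splits q := by
  constructor
  · intro A hA
    obtain ⟨σ, hσ⟩ := Gal.exists_isFrobeniusAt hq.prime hA
    exact ⟨σ, hσ.mem_decompositionSubgroup, (hq.frob A hA σ hσ).1⟩
  · intro A hA
    obtain ⟨σ, hσ⟩ := Gal.exists_isFrobeniusAt hq.prime hA
    obtain ⟨i, hi, -⟩ := existsUnique_fix (p := R.perm σ) fun h =>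
      (hq.frob A hA σ hσ).1 ((R.mem_disc_iff σ).mpr h)
    refine ⟨i, fun d hd => ?_⟩
    have : FiniteDimensional ℚ (IntermediateField.adjoin ℚ ({R.e i} : Set ℚbar)) :=
      IntermediateField.adjoin.finiteDimensional (Algebra.IsAlgebraic.isAlgebraic _).isIntegral
    obtain ⟨j, u, hu, he⟩ := Gal.exists_pow_mul_inertia_eqOn hq.prime
      (IntermediateField.adjoin ℚ ({R.e i} : Set ℚbar)) hA hσ hd
    rw [he _ (IntermediateField.subset_adjoin ℚ _ rfl), AlgEquiv.mul_apply,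
      R.inertia_apply_e hq.prime hq.good hA hu]
    exact MulAction.mem_stabilizer_iff.mp
      (pow_mem (show σ ∈ MulAction.stabilizer Γ (R.e i) from R.perm_eq_iff.mp hi) j)

/-- **Auxiliary primes detect every nontrivial class.** -/
theorem exists_aux (hW : GenusCurve W) (T : R.Rot) {Q : Finset ℕ} {x : R.fldˣ}
    (hx : x ∈ sel T Q) (hx' : x ∉ R.squares) {n : ℕ} (hn : 3 ≤ n) (S : Finset ℕ) :
    ∃ q, q ∉ S ∧ AuxPrime W n q ∧ ¬ LocSq R q (x : R.fld) := by
  have hne := hW.neg.ne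
  obtain ⟨s, hs⟩ := IsAlgClosed.exists_pow_nat_eq ((x : R.fld) : ℚbar) (n := 2) two_pos
  obtain ⟨m, hmT, hmμ, hms⟩ := exists_moving hW T hx hx' (n := n) (by omega) hs
  set E := (W.map (Int.castRingHom ℚ)).toAffine
  set ρ := galoisRepModuleEnd (K := ℚbar) ℚ E (2 ^ n)
  have hρfix : ∀ g h : Γ, ρ g = ρ h → ∀ P : (E⁄ℚbar).Point, 2 ^ n • P = 0 → g • P = h • P :=
    fun g h e P hP => congrArg Subtype.val (LinearMap.congr_fun e
      ⟨P, (EC.Torsion.mem_torsionBy_iff_nsmul E ℚbar P).mpr hP⟩)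
  have hρm : ρ m = 1 := LinearMap.ext fun P => Subtype.ext
    (hmT _ ((EC.Torsion.mem_torsionBy_iff_nsmul E ℚbar P.1).mp P.2))
  have hm1 : R.perm m = 1 := Equiv.ext fun i => by
    have h := hmT (R.point i) (by
      obtain ⟨m', rfl⟩ : ∃ m', n = m' + 1 := ⟨n - 1, by omega⟩
      rw [pow_succ', mul_nsmul, R.two_nsmul_point, nsmul_zero])
    rw [R.smul_point] at h
    exact R.point_injective h
  obtain ⟨L₀, hL₀, hfac⟩ :=
    EC.Torsion.galoisFactorsThroughFiniteLevel_int W hne (n := 2 ^ n) (pow_ne_zero n two_ne_zero)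
  have : NeZero (2 ^ n) := ⟨pow_ne_zero n two_ne_zero⟩
  have : NeZero ((2 ^ n : ℕ) : ℚbar) := ⟨Nat.cast_ne_zero.mpr (pow_ne_zero n two_ne_zero)⟩
  obtain ⟨z, hz⟩ := HasEnoughRootsOfUnity.exists_primitiveRoot ℚbar (2 ^ n)
  set gens : Set ℚbar := ({s, z, sqrtDisc W} : Set ℚbar) ∪ Set.range R.e
  let L : IntermediateField ℚ ℚbar := L₀ ⊔ IntermediateField.adjoin ℚ gens
  have : Finite gens := (((Set.finite_singleton _).insert _).insert _ |>.union
    (Set.finite_range _)).to_subtype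
  have : FiniteDimensional ℚ (IntermediateField.adjoin ℚ gens) :=
    IntermediateField.finiteDimensional_adjoin fun y _ =>
      (Algebra.IsAlgebraic.isAlgebraic y).isIntegral
  have : FiniteDimensional ℚ L := inferInstance
  let N := IntermediateField.normalClosure ℚ L ℚbar
  have : Normal ℚ N := normalClosure.normal ℚ _ _
  have hgen : ∀ y ∈ gens, y ∈ N := fun y hy =>
    L.le_normalClosure (le_sup_right (a := L₀) (IntermediateField.subset_adjoin ℚ _ hy))
  have hzN : z ∈ N := hgen z (Or.inl (Or.inr (Or.inl rfl)))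
  have hsN : s ∈ N := hgen s (Or.inl (Or.inl rfl))
  have hdN : sqrtDisc W ∈ N := hgen _ (Or.inl (Or.inr (Or.inr rfl)))
  have heN : ∀ i, R.e i ∈ N := fun i => hgen _ (Or.inr ⟨i, rfl⟩)
  have hρN : ∀ g h : Γ, (∀ y ∈ N, g y = h y) → ρ g = ρ h := by
    intro g h hgh
    have h1 : ρ (h⁻¹ * g) = 1 := hfac _ fun y hy => by
      rw [AlgEquiv.mul_apply, hgh y (L.le_normalClosure (le_sup_left (a := L₀) hy)),
        AlgEquiv.aut_inv, AlgEquiv.symm_apply_apply]
    rw [show g = h * (h⁻¹ * g) by rw [mul_inv_cancel_left], map_mul, h1, mul_one]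
  have hres : ∀ g h : Γ, AlgEquiv.restrictNormalHom N g = AlgEquiv.restrictNormalHom N h →
      ∀ y ∈ N, g y = h y := by
    intro g h e y hy
    have h1 := AlgEquiv.restrictNormal_commutes g N ⟨y, hy⟩
    have h2 := AlgEquiv.restrictNormal_commutes h N ⟨y, hy⟩
    rw [show g.restrictNormal N = h.restrictNormal N from e] at h1
    exact h1.symm.trans h2
  set σ : Γ := c₀ * m
  have hcs : c₀ s = s :=
    hx.real c₀ complexConjugation_mul_self R.conj_notMem R.conj_mem_stab s hs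
  have hσs : σ s = -s := by
    show c₀ (m s) = -s
    rw [hms, map_neg, hcs]
  have hσss : σ (σ s) = s := by rw [hσs, map_neg, hσs, neg_neg]
  have h2n : 2 ^ n ≠ 0 := pow_ne_zero n two_ne_zero
  have hσz : σ z = z⁻¹ := by
    show c₀ (m z) = z⁻¹
    rw [hmμ z hz.pow_eq_one]
    exact complexConjugation_rootOfUnity h2n hz.pow_eq_one
  have hσzz : σ (σ z) = z := by rw [hσz, map_inv₀, hσz, inv_inv]
  have hσe : σ (R.e 0) = R.e 0 := by
    show c₀ (m (R.e 0)) = R.e 0
    rw [R.perm_eq_iff.mp (show R.perm m 0 = 0 by rw [hm1]; rfl), R.conj_fix]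
  have hσd : σ (sqrtDisc W) = -sqrtDisc W := by
    show c₀ (m (sqrtDisc W)) = _
    rw [(mem_disc_iff_apply m).mp (R.mem_disc_of_perm_eq_one hm1),
      complexConjugation_sqrtDisc hW.neg]
  have hσdd : σ (σ (sqrtDisc W)) = sqrtDisc W := by rw [hσd, map_neg, hσd, neg_neg]
  have hρσ : ρ σ = ρ c₀ := by rw [map_mul, hρm, mul_one]
  -- the prime
  obtain ⟨q, hq, hqS, hqA⟩ := Density.exists_prime_zpowers_restrict_eq N σ
    (S ∪ (2 * W.Δ).natAbs.primeFactors)
  rw [Finset.mem_union, not_or] at hqS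
  have hgood : ¬ (q : ℤ) ∣ 2 * W.Δ := fun h => hqS.2 (Nat.mem_primeFactors.mpr
    ⟨hq, Int.natCast_dvd.mp h, Int.natAbs_ne_zero.mpr (mul_ne_zero two_ne_zero hne)⟩)
  have hq2 : q ≠ 2 := fun h => hgood (by subst h; exact dvd_mul_right _ _)
  have hqn : ¬ q ∣ 2 ^ n := fun h =>
    hq2 ((Nat.prime_dvd_prime_iff_eq hq Nat.prime_two).1 (hq.dvd_of_dvd_pow h))
  obtain ⟨A, hA⟩ := Gal.exists_liesOverPrime (L := ℚbar) hq
  obtain ⟨τ, hτ⟩ := Gal.exists_isFrobeniusAt hq hA
  obtain ⟨hinA, hfrobA⟩ := hqA A hA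
  obtain ⟨g, hg⟩ := hfrobA τ hτ
  set A' := g • A
  have hA' : A'.LiesOverPrime q := Gal.liesOverPrime_smul g hA
  set τ' := g * τ * g⁻¹
  have hτ' : A'.IsFrobeniusAt τ' q := (Gal.isFrobeniusAt_smul_iff g τ A q).mpr hτ
  obtain ⟨a, ha⟩ := mem_powers_iff_mem_zpowers.2 (hg ▸ Subgroup.mem_zpowers _ :
    AlgEquiv.restrictNormalHom N τ' ∈ Subgroup.zpowers (AlgEquiv.restrictNormalHom N σ))
  obtain ⟨b, hb⟩ := mem_powers_iff_mem_zpowers.2 (hg.symm ▸ Subgroup.mem_zpowers _ :
    AlgEquiv.restrictNormalHom N σ ∈ Subgroup.zpowers (AlgEquiv.restrictNormalHom N τ'))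
  have hτσ : ∀ y ∈ N, τ' y = (σ ^ a) y := hres _ _ (by rw [map_pow]; exact ha.symm)
  have hστ : ∀ y ∈ N, σ y = (τ' ^ b) y := hres _ _ (by rw [map_pow]; exact hb.symm)
  obtain ⟨i, rfl⟩ : ∃ i, a = 2 * i + 1 := by
    rcases Nat.even_or_odd' a with ⟨i, rfl | rfl⟩
    · exfalso
      have h1 : τ' z = z := (hτσ z hzN).trans (pow_two_mul_apply hσzz i)
      have h2 : σ z = z := (hστ z hzN).trans (MulAction.mem_stabilizer_iff.mp
        (pow_mem (show τ' ∈ MulAction.stabilizer Γ z from h1) b))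
      rw [hσz] at h2
      have h3 : z ^ 2 = 1 := by
        rw [pow_two]
        nth_rewrite 1 [← h2]
        exact inv_mul_cancel₀ (hz.ne_zero h2n)
      have h4 := Nat.le_of_dvd two_pos ((hz.pow_eq_one_iff_dvd 2).mp h3)
      have h5 : 2 ^ 3 ≤ 2 ^ n := Nat.pow_le_pow_right two_pos hn
      omega
    · exact ⟨i, rfl⟩
  have hτs : τ' s = -s := (hτσ s hsN).trans ((pow_odd_apply hσss i).trans hσs)
  have hτz : τ' z = z⁻¹ := (hτσ z hzN).trans ((pow_odd_apply hσzz i).trans hσz)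
  have hτd : τ' (sqrtDisc W) = -sqrtDisc W :=
    (hτσ _ hdN).trans ((pow_odd_apply hσdd i).trans hσd)
  have hτe : τ' (R.e 0) = R.e 0 :=
    (hτσ _ (heN 0)).trans ((pow_odd_apply (by rw [hσe, hσe]) i).trans hσe)
  have hρτ : ρ τ' = ρ c₀ := by
    rw [hρN τ' (σ ^ (2 * i + 1)) hτσ, map_pow, hρσ, pow_succ, pow_mul, ← map_pow,
      complexConjugation_sq, map_one, one_pow, one_mul]
  refine ⟨q, hqS.1, ⟨hq, hgood, ?_, ?_, fun B hB σ' hσ' => ?_⟩, fun hloc => ?_⟩
  · rw [Gal.apply_rootOfUnity_of_isFrobeniusAt hτ' hq hA' hqn hz.pow_eq_one] at hτz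
    refine (hz.pow_eq_one_iff_dvd _).mp ?_
    rw [pow_succ, hτz, inv_mul_cancel₀ (hz.ne_zero h2n)]
  · obtain ⟨P, hP, hPord⟩ := Conductor.exists_exact_order (W := W) hne Nat.prime_two (n := n)
    have e := Conductor.frobenius_quadratic hq (fun h => hgood (dvd_mul_of_dvd_right h 2))
      hqn hA' hτ'
      hP
    have hs0 : (c₀ : Γ) • (0 : (E⁄ℚbar).Point) = 0 :=
      _root_.map_zero (Affine.Point.map (c₀ : Γ).toAlgHom)
    have hcP : 2 ^ n • (c₀ • P) = 0 := by rw [smul_nsmul_point, hP, hs0]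
    rw [hρfix τ' c₀ hρτ P hP, hρfix τ' c₀ hρτ _ hcP, ← mul_smul, complexConjugation_mul_self,
      one_smul] at e
    have hq1 : ((q : ℤ) + 1) • P = 0 := by
      rw [Gal.apply_rootOfUnity_of_isFrobeniusAt hτ' hq hA' hqn hz.pow_eq_one] at hτz
      obtain ⟨d, hd⟩ := (hz.pow_eq_one_iff_dvd (q + 1)).mp
        (by rw [pow_succ, hτz, inv_mul_cancel₀ (hz.ne_zero h2n)])
      rw [show (q : ℤ) + 1 = ((q + 1 : ℕ) : ℤ) by push_cast; rfl, natCast_zsmul, hd, mul_comm,
        mul_nsmul', hP, nsmul_zero]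
    have h2 : W.apOfModel q • (c₀ • P) = 0 := by
      calc W.apOfModel q • (c₀ • P)
          = ((q : ℤ) + 1) • P - (P - W.apOfModel q • (c₀ • P) + (q : ℤ) • P) := by
            rw [add_zsmul, one_zsmul]; abel
        _ = 0 := by rw [hq1, e, sub_zero]
    have h3 := congrArg (c₀ • ·) h2
    beta_reduce at h3
    rw [hs0] at h3
    rw [Affine.Point.algEquiv_smul_zsmul, ← mul_smul, complexConjugation_mul_self, one_smul] at h3
    have := hPord _ h3
    exact_mod_cast this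
  · obtain ⟨h, rfl⟩ := Gal.exists_smul_eq_of_liesOverPrime hq hA' hB
    have hF : (h • A').IsFrobeniusAt (h * τ' * h⁻¹) q :=
      (Gal.isFrobeniusAt_smul_iff h τ' A' q).mpr hτ'
    have hu := Gal.inv_mul_mem_inertia hF hσ'
    have hagree : ∀ y ∈ N, σ' y = (h * τ' * h⁻¹) y := fun y hy => by
      have h1 := (hqA (h • A') hB).1 _ hu y hy
      rw [AlgEquiv.mul_apply] at h1
      have h2 := congrArg (h * τ' * h⁻¹) h1
      rwa [AlgEquiv.aut_inv (h * τ' * h⁻¹), AlgEquiv.apply_symm_apply] at h2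
    refine ⟨?_, h * c₀ * h⁻¹, ?_, ?_, fun P hP => hρfix σ' (h * c₀ * h⁻¹) ?_ P hP⟩
    · rw [mem_disc_iff_apply, hagree _ hdN, AlgEquiv.mul_apply, AlgEquiv.mul_apply]
      have hsq : h⁻¹ (sqrtDisc W) ^ 2 = sqrtDisc W ^ 2 := by
        rw [← map_pow, sqrtDisc_sq, map_intCast]
      have hd0 := R.sqrtDisc_ne
      rcases sq_eq_sq_iff_eq_or_eq_neg.mp hsq with e | e
      · rw [e, hτd, map_neg]
        have hh : h (sqrtDisc W) = sqrtDisc W := by
          conv_lhs => rw [← e, AlgEquiv.aut_inv, AlgEquiv.apply_symm_apply]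
        rw [hh]
        exact fun e' => hd0 (CharZero.neg_eq_self_iff.mp e')
      · rw [e, map_neg, hτd, neg_neg]
        have hh : h (sqrtDisc W) = -sqrtDisc W := by
          have := congrArg h e
          rw [AlgEquiv.aut_inv, AlgEquiv.apply_symm_apply, map_neg] at this
          linear_combination this
        rw [hh]
        exact fun e' => hd0 (CharZero.neg_eq_self_iff.mp e')
    · rw [show h * c₀ * h⁻¹ * (h * c₀ * h⁻¹) = h * (c₀ * c₀) * h⁻¹ by group,
        complexConjugation_mul_self, mul_one, mul_inv_cancel]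
    · intro e
      rw [conj_eq_one_iff] at e
      refine R.conj_notMem ?_
      rw [e]; exact one_mem _
    · rw [hρN σ' (h * τ' * h⁻¹) hagree, map_mul, map_mul, hρτ, ← map_mul, ← map_mul]
  · have hD : A'.decompositionSubgroup ℚ ≤ R.stab := by
      intro d hd
      obtain ⟨j, u, hu, he⟩ := Gal.exists_pow_mul_inertia_eqOn hq L hA' hτ' hd
      refine R.mem_stab.mpr ?_
      rw [he _ (le_sup_right (a := L₀) (IntermediateField.subset_adjoin ℚ _ (Or.inr ⟨0, rfl⟩))),
        AlgEquiv.mul_apply, R.inertia_apply_e hq hgood hA' hu]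
      exact MulAction.mem_stabilizer_iff.mp
        (pow_mem (show τ' ∈ MulAction.stabilizer Γ (R.e 0) from hτe) j)
    have := hloc A' hA' hD s hs τ' hτ'.mem_decompositionSubgroup
    rw [hτs, CharZero.neg_eq_self_iff] at this
    exact x.ne_zero (Subtype.ext (by rw [← hs, this]; simp))

end Frame

end Fermat.Agent.Root.Selmer
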