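import Fermat.Agent.Root.Selmer.Isotropy

/-!
# An auxiliary prime halves the group; finiteness

Adding a prime cuts out the local squares there, which halves the group; without auxiliary primes
it is finite of two-power order modulo squares.
-/

set_option autoImplicit false

noncomputable section

namespace Fermat.Agent.Root.Selmer

open IsDedekindDomain NumberField WithZero IntermediateField
open Fermat.Agent.Duality Fermat.Agent.Duality.Places
open Fermat.Agent.Duality.Global (localPow sUnit)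
open Fermat.Agent.Duality.Global.Two (hil hilb ordPar)
open scoped Pointwise

local notation "ℚbar" => AlgebraicClosure ℚ
local notation "Γ" => AlgebraicClosure ℚ ≃ₐ[ℚ] AlgebraicClosure ℚ

theorem finite_valuation_ne_one {F : Type} [Field F] [NumberField F] (x : Fˣ) :
    {v : HeightOneSpectrum (𝓞 F) | v.valuation F (x : F) ≠ 1}.Finite := by
  refine ((HeightOneSpectrum.Support.finite (𝓞 F) (x : F)).union
    (HeightOneSpectrum.Support.finite (𝓞 F) ((x : F)⁻¹))).subset fun v hv => ?_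
  rcases lt_or_gt_of_ne hv with h | h
  · refine Or.inr ?_
    show 1 < v.valuation F ((x : F)⁻¹)
    rw [map_inv₀, one_lt_inv₀ (zero_lt_iff.2 (by simp))]
    exact h
  · exact Or.inl h

namespace Frame

variable {W : WeierstrassCurve ℤ} {R : Frame W}

theorem ne_two (hW : GenusCurve W) {ℓ : ℕ} (h : ¬ (ℓ : ℤ) ∣ W.Δ) : ℓ ≠ 2 := by
  rintro rfl
  exact h (by exact_mod_cast hW.two_dvd)

/-- `sel (insert q Q)` is the part of `sel Q` that is a square at `q`. -/
theorem relIndex_insert (hW : GenusCurve W) (T : R.Rot) {Q : Finset ℕ}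
    (hS : ∀ ℓ : ℕ, ℓ.Prime → (ℓ ∈ Q ∨ (ℓ : ℤ) ∣ W.Δ) → R.Splits ℓ) {q : ℕ} (hq : q.Prime)
    (hqQ : q ∉ Q) (hqΔ : ¬ (q : ℤ) ∣ W.Δ) (hqS : R.Splits q) {ψ : R.fldˣ} (hψ : ψ ∈ sel T Q)
    (hψq : ¬ LocSq R q (ψ : R.fld)) :
    sel T (insert q Q) ≤ sel T Q ∧ (sel T (insert q Q)).relIndex (sel T Q) = 2 := by
  classical
  have : Fact q.Prime := ⟨hq⟩
  have hq2 : ∀ v : HeightOneSpectrum (𝓞 R.fld), (q : 𝓞 R.fld) ∈ v.asIdeal →
      v.valuation R.fld (2 : R.fld) = 1 := fun v hv =>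
    valuation_two_eq_one hq (ne_two hW hqΔ) v hv
  set D₀ := (padicPlace q).decompositionSubgroup ℚ
  obtain ⟨j, hj⟩ := hqS.fixedRoot _ (liesOverPrime_padicPlace q)
  obtain ⟨g₁, -, hg₁⟩ := R.exists_move T j
  have hfix₁ : ∀ d ∈ D₀, d (g₁ (R.e 0)) = g₁ (R.e 0) := by rw [hg₁]; exact hj
  set v₁ := placeOf q (R.embAt (ℓ := q) g₁)
  have hloc : ∀ {x : R.fldˣ}, x ∈ localPow v₁ 2 ↔ LocSq R q (x : R.fld) := by
    intro x
    rw [mem_localPow_placeOf_iff q Nat.prime_two]
    exact ⟨fun ⟨z, hz, h⟩ => locSq_of_sq (hqS.notMem _ (liesOverPrime_padicPlace q)) hfix₁ hz h,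
      exists_sq_of_locSq T hfix₁⟩
  have hψ₁ : ψ ∉ localPow v₁ 2 := fun h => hψq (hloc.mp h)
  have heven : ∀ v : HeightOneSpectrum (𝓞 R.fld), (q : 𝓞 R.fld) ∈ v.asIdeal → ordPar v ψ = 0 :=
    fun v hv => hψ.even q hq hqQ hqΔ v hv
  -- even valuations over `q`
  have hrel : ∀ y ∈ sel T (insert q Q), y ∈ sel T Q := by
    intro y hy
    refine ⟨hy.norm, hy.real, fun ℓ hℓ hℓQ hℓΔ v hv => ?_, fun ℓ hℓ h => hy.loc ℓ hℓ
      (h.imp_left (Finset.mem_insert_of_mem))⟩
    by_cases hℓq : ℓ = q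
    swap
    · exact hy.even ℓ hℓ (by simp [hℓq, hℓQ]) hℓΔ v hv
    subst hℓq
    obtain ⟨g, rfl⟩ := R.exists_embAt_of_mem T v hv
    have hyloc := hy.loc ℓ hℓ (Or.inl (Finset.mem_insert_self _ _))
    by_cases hfix : ∀ d ∈ D₀, d (g (R.e 0)) = g (R.e 0)
    · exact ordPar_eq_zero_of_localPow
        ((mem_localPow_placeOf_iff ℓ Nat.prime_two _ y).mpr (exists_sq_of_locSq T hfix hyloc))
    obtain ⟨P⟩ := exists_quadPlace hqS hfix
    set vb := placeOf ℓ (R.embAt (ℓ := ℓ) g)
    have hψb : ψ ∉ localPow vb 2 := by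
      intro h
      obtain ⟨z, hz, hzx⟩ := (mem_localPow_placeOf_iff ℓ Nat.prime_two _ ψ).mp h
      obtain ⟨τ, hτι, w, hw⟩ := P.mul_conj_mem_range T hz
      obtain ⟨r, hr⟩ := hψ.norm
      have key : ∀ (j a b : Fin 3), j ≠ a → j ≠ b → a ≠ b →
          (Finset.univ : Finset (Fin 3)) = {j, a, b} := by decide
      rw [key _ _ _ P.hja P.hjb P.hab, Finset.prod_insert (by simp [P.hja, P.hjb]),
        Finset.prod_pair P.hab] at hr
      have hjeq : P.j = j := unique_fixed (hqS.notMem _ (liesOverPrime_padicPlace ℓ)) P.hj hj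
      rw [hjeq] at hr
      rw [embAt_eq_cel T P.ha] at hzx
      have hb : padicEmbedding ℓ (cel T P.b (ψ : R.fld)) = τ z ^ 2 := by
        rw [← map_pow, hzx, hτι, apply_cel, P.hswap, Equiv.swap_apply_left]
      have hne : algebraMap ℚ_[ℓ] (PadicAlgCl ℓ) w ≠ 0 := by
        intro h0
        rw [h0, eq_comm, mul_eq_zero] at hw
        rcases hw with e | e
        · exact cel_ne_zero T P.a ψ.ne_zero ((map_eq_zero (padicEmbedding ℓ)).mp
            (by rw [← hzx, e, zero_pow two_ne_zero]))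
        · exact cel_ne_zero T P.b ψ.ne_zero ((map_eq_zero (padicEmbedding ℓ)).mp
            (by rw [hb, e, zero_pow two_ne_zero]))
      refine hψ₁ ((mem_localPow_placeOf_iff ℓ Nat.prime_two _ ψ).mpr
        ⟨algebraMap ℚ_[ℓ] (PadicAlgCl ℓ) ((r : ℚ_[ℓ]) / w),
          IntermediateField.algebraMap_mem _ _, ?_⟩)
      rw [embAt_eq_cel T hg₁, map_div₀, div_pow, div_eq_iff (pow_ne_zero 2 hne),
        algebraMap_rat_eq, ← map_pow, show ((r : ℚbar)) = algebraMap ℚ ℚbar r from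
          (eq_ratCast (algebraMap ℚ ℚbar) r).symm, ← hr, map_mul, map_mul, ← hzx, hb, hw]
      ring
    -- reciprocity
    set two : R.fldˣ := Units.mk0 2 two_ne_zero
    set Sset := ((finite_valuation_ne_one ψ).union
      ((finite_valuation_ne_one y).union (finite_valuation_ne_one two))).toFinset ∪ {vb}
    have hout : ∀ u ∉ Sset, u.valuation R.fld (ψ : R.fld) = 1 ∧ u.valuation R.fld (y : R.fld) = 1 ∧
        u.valuation R.fld (2 : R.fld) = 1 := by
      intro u hu
      simp only [Sset, Finset.mem_union, Set.Finite.mem_toFinset, Set.mem_union,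
        Set.mem_ofPred_eq, not_or, not_not, two, Units.val_mk0] at hu
      exact ⟨hu.1.1, hu.1.2.1, hu.1.2.2⟩
    have hrec := Global.Two.hilbert_reciprocity Sset (fun u hu => (hout u hu).2.2) ψ y
      (fun u hu => (hout u hu).1) (fun u hu => (hout u hu).2.1)
    rw [Finset.sum_eq_zero (s := Finset.univ)
      (fun w _ => hilbInf_eq_zero hW T ψ hy.real w), add_zero,
      Finset.sum_eq_single_of_mem vb
        (Finset.mem_union_right _ (Finset.mem_singleton_self _))] at hrec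
    · change hil (.inl vb) ψ y = 0 at hrec
      rw [Global.Two.hil_comm, hil_of_even (hq2 vb hv) y (heven vb hv), if_neg hψb] at hrec
      exact hrec
    intro u _ hu
    show hil (.inl u) ψ y = 0
    obtain ⟨m, hm, hum⟩ := exists_prime_natCast_mem (K := R.fld) u
    have : Fact m.Prime := ⟨hm⟩
    by_cases hmT : m ∈ Q ∨ (m : ℤ) ∣ W.Δ
    · obtain ⟨g', rfl⟩ := R.exists_embAt_of_mem T u hum
      exact hil_eq_zero_of_locSq T (hS m hm hmT) (hψ.loc m hm hmT) hψ.norm
        (hy.loc m hm (hmT.imp_left Finset.mem_insert_of_mem)) hy.norm g'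
    rw [not_or] at hmT
    by_cases hmq : m = ℓ
    · subst hmq
      obtain ⟨g', rfl⟩ := R.exists_embAt_of_mem T u hum
      by_cases hfix' : ∀ d ∈ D₀, d (g' (R.e 0)) = g' (R.e 0)
      · exact Global.Two.hil_eq_zero_of_right (p := .inl _) ψ
          ((mem_localPow_placeOf_iff m Nat.prime_two _ y).mpr (exists_sq_of_locSq T hfix' hyloc))
      · obtain ⟨P'⟩ := exists_quadPlace hqS hfix'
        exact absurd (placeOf_eq_of_quad P' P hqS) hu
    exact hil_even_even (valuation_two_eq_one hm (ne_two hW hmT.2) u hum)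
      (hψ.even m hm hmT.1 hmT.2 u hum) (hy.even m hm (by simp [hmq, hmT.1]) hmT.2 u hum)
  have hker : ∀ y, y ∈ sel T (insert q Q) ↔ y ∈ sel T Q ∧ y ∈ localPow v₁ 2 := by
    intro y
    refine ⟨fun hy => ⟨hrel y hy, hloc.mpr (hy.loc q hq (Or.inl (Finset.mem_insert_self _ _)))⟩,
      fun ⟨hy, h1⟩ => ⟨hy.norm, hy.real, fun ℓ hℓ hℓQ hℓΔ =>
        hy.even ℓ hℓ (fun h => hℓQ (Finset.mem_insert_of_mem h)) hℓΔ, fun ℓ hℓ h => ?_⟩⟩
    by_cases hℓq : ℓ = q
    · subst hℓq; exact hloc.mp h1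
    · exact hy.loc ℓ hℓ (h.imp_left fun h => (Finset.mem_insert.mp h).resolve_left hℓq)
  refine ⟨hrel, ?_⟩
  have hv₁ : (q : 𝓞 R.fld) ∈ v₁.asIdeal := natCast_mem_placeOf q _
  obtain ⟨π, hπ⟩ := v₁.valuation_exists_uniformizer R.fld
  have hπ0 : π ≠ 0 := fun h => by rw [h, map_zero] at hπ; exact exp_ne_zero hπ.symm
  set π' : R.fldˣ := Units.mk0 π hπ0
  have hφ : ∀ y ∈ sel T Q, hil (.inl v₁) π' y = if y ∈ localPow v₁ 2 then 0 else 1 := by
    intro y hy
    rw [hil_of_even (hq2 v₁ hv₁) π' (hy.even q hq hqQ hqΔ v₁ hv₁),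
      Global.Two.ordPar_uniformizer (π := π') hπ]
  rw [Subgroup.relIndex, Subgroup.index_eq_two_iff]
  refine ⟨⟨ψ, hψ⟩, fun b => ?_⟩
  simp only [Subgroup.mem_subgroupOf, Subgroup.coe_mul, hker]
  have h1 := hφ _ b.2
  have h2 := hφ _ (mul_mem b.2 hψ)
  have h3 := hφ _ hψ
  rw [Global.Two.hil_mul_right, h1, h3, if_neg hψ₁] at h2
  by_cases hb : (b : R.fldˣ) ∈ localPow v₁ 2
  · rw [if_pos hb] at h2
    refine Or.inr ⟨⟨b.2, hb⟩, fun hbψ => ?_⟩
    rw [if_pos hbψ.2] at h2
    exact absurd h2 (by decide)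
  · rw [if_neg hb] at h2
    refine Or.inl ⟨⟨mul_mem b.2 hψ, ?_⟩, fun h => hb h.2⟩
    by_contra hbψ
    rw [if_neg hbψ] at h2
    exact absurd h2 (by decide)

/-- The group without auxiliary primes is finite modulo squares, of two-power order. -/
theorem exists_relIndex_empty (hW : GenusCurve W) (T : R.Rot) :
    ∃ r : ℕ, R.squares.relIndex (sel T ∅) = 2 ^ r := by
  classical
  obtain ⟨S₁, hS₁⟩ := Global.exists_sPrincipal (F := R.fld)
  set bad : R.fldˣ := Units.mk0 ((W.Δ : ℤ) : R.fld) (Int.cast_ne_zero.mpr hW.neg.ne)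
  set S := S₁ ∪ (finite_valuation_ne_one bad).toFinset
  have hle : sel T ∅ ≤ sUnit R.fld S ⊔ R.squares := by
    intro x hx
    have hev : ∀ v ∉ S, ordPar v x = 0 := by
      intro v hv
      obtain ⟨m, hm, hvm⟩ := exists_prime_natCast_mem (K := R.fld) v
      refine hx.even m hm (Finset.notMem_empty m) (fun hdvd =>
        hv (Finset.mem_union_right _ ?_)) v hvm
      rw [Set.Finite.mem_toFinset]
      show v.valuation R.fld ((W.Δ : ℤ) : R.fld) ≠ 1
      obtain ⟨d, hd⟩ := hdvd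
      refine ne_of_lt ?_
      rw [← map_intCast (algebraMap (𝓞 R.fld) R.fld), v.valuation_lt_one_iff_mem, hd,
        Int.cast_mul, Int.cast_natCast]
      exact v.asIdeal.mul_mem_right _ hvm
    set Tset := ((finite_valuation_ne_one x).subset
      (Set.inter_subset_left (t := {v | v ∉ S}))).toFinset
    obtain ⟨y, -, hy, hyv⟩ := Global.exists_prod_valuation S Tset ⊤
      (fun v hv => ((Set.Finite.mem_toFinset _).mp hv).2)
      (fun v hv => by
        obtain ⟨π, h1, h2⟩ := (hS₁.mono R.fld (Finset.subset_union_left : S₁ ⊆ S)) v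
          ((Set.Finite.mem_toFinset _).mp hv).2
        exact ⟨π, Subgroup.mem_top _, h1, h2⟩)
      (fun v => log (v.valuation R.fld (x : R.fld)) / 2)
    refine Subgroup.mem_sup.mpr ⟨x / y ^ 2, fun v hv => ?_, y ^ 2, ⟨y, rfl⟩, div_mul_cancel _ _⟩
    rw [Units.val_div_eq_div_val, Units.val_pow_eq_pow_val, map_div₀, map_pow]
    by_cases hvT : v ∈ Tset
    · have he := hev v hv
      rw [Global.Two.ordPar, ZMod.intCast_zmod_eq_zero_iff_dvd] at he
      obtain ⟨k, hk⟩ := he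
      have hk2 : log (v.valuation R.fld (x : R.fld)) / 2 = k := by rw [hk]; simp
      rw [hyv v hvT, hk2, ← exp_nsmul,
        ← exp_log (show v.valuation R.fld (x : R.fld) ≠ 0 by simp), hk,
          div_eq_one_iff_eq exp_ne_zero]
      congr 1
    · have hxv : v.valuation R.fld (x : R.fld) = 1 := by
        by_contra h
        exact hvT ((Set.Finite.mem_toFinset _).mpr ⟨h, hv⟩)
      rw [hxv, show v.valuation R.fld (y : R.fld) = 1 from
        hy v fun h => (Finset.mem_union.mp h).elim hv hvT, one_pow, div_one]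
  have hfin : R.squares.relIndex (sUnit R.fld S) ≠ 0 := by
    let f : sUnit R.fld S →* R.fldˣ ⧸ R.squares := (QuotientGroup.mk' _).comp (Subgroup.subtype _)
    have hfg : Group.FG (sUnit R.fld S) :=
      GroupFG.iff_add_fg.mpr (Module.Finite.iff_addGroup_fg.mp inferInstance)
    have : Group.FG f.range := Group.fg_range f
    have : Finite f.range := CommGroup.finite_of_fg_isMulTorsion _ fun g => by
      refine isOfFinOrder_iff_pow_eq_one.mpr ⟨2, two_pos, ?_⟩
      obtain ⟨_, u, rfl⟩ := g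
      refine Subtype.ext ?_
      rw [Subgroup.coe_pow, Subgroup.coe_one, ← map_pow]
      exact (QuotientGroup.eq_one_iff _).mpr ⟨(u : R.fldˣ), by simp⟩
    have hker : f.ker = R.squares.subgroupOf (sUnit R.fld S) := by
      rw [← MonoidHom.comap_ker, QuotientGroup.ker_mk']
      rfl
    rw [Subgroup.relIndex, ← hker, Subgroup.index_ker]
    exact Nat.card_pos.ne'
  have h0 : R.squares.relIndex (sel T ∅) ≠ 0 := fun h => hfin (by
    rw [← Subgroup.relIndex_sup_right]
    exact Subgroup.relIndex_eq_zero_of_le_right hle h)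
  have : Finite (sel T ∅ ⧸ R.squares.subgroupOf (sel T ∅)) := Nat.finite_of_card_ne_zero h0
  obtain ⟨r, hr⟩ := (IsPGroup.iff_card (p := 2)).mp (fun g => ⟨1, by
    obtain ⟨a, rfl⟩ := QuotientGroup.mk_surjective g
    rw [pow_one, ← QuotientGroup.mk_pow]
    exact (QuotientGroup.eq_one_iff _).mpr ⟨(a : R.fldˣ), by simp⟩⟩ :
      IsPGroup 2 (sel T ∅ ⧸ R.squares.subgroupOf (sel T ∅)))
  exact ⟨r, hr⟩

end Frame

end Fermat.Agent.Root.Selmer
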