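import Fermat.Agent.Root.Selmer.Cubic
import Fermat.Agent.Duality.Places.Unramified
import Fermat.Agent.Gal.Residue
import Fermat.Agent.Gal.Decomposition
import Fermat.Agent.Conductor.Quadratic

/-!
# Decomposition groups at the bad and auxiliary primes

Elements fixed by a decomposition group lie in `ℚ_ℓ`, the splitting of the cubic at the primes
with local conditions, and inertia at good primes.
-/

set_option autoImplicit false

noncomputable section

namespace Fermat.Agent.Root.Selmer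

open Polynomial
open Fermat.Agent.Duality Fermat.Agent.Duality.Places
open scoped Pointwise

local notation "ℚbar" => AlgebraicClosure ℚ
local notation "Γ" => AlgebraicClosure ℚ ≃ₐ[ℚ] AlgebraicClosure ℚ

theorem mem_decomposition_iff {A : ValuationSubring ℚbar} {g : Γ} :
    g ∈ A.decompositionSubgroup ℚ ↔ g • A = A := Iff.rfl

theorem conj_mem_decomposition {A : ValuationSubring ℚbar} {g : Γ}
    (hg : g ∈ A.decompositionSubgroup ℚ) (h : Γ) :
    h * g * h⁻¹ ∈ (h • A).decompositionSubgroup ℚ := by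
  rw [mem_decomposition_iff] at *
  rw [mul_smul, mul_smul, inv_smul_smul, hg]

theorem mem_decomposition_smul_iff {A : ValuationSubring ℚbar} {g h : Γ} :
    g ∈ (h • A).decompositionSubgroup ℚ ↔ h⁻¹ * g * h ∈ A.decompositionSubgroup ℚ := by
  constructor
  · intro hg
    have := conj_mem_decomposition hg h⁻¹
    rwa [inv_inv, inv_smul_smul] at this
  · intro hg
    have := conj_mem_decomposition hg h
    rwa [← mul_assoc, ← mul_assoc, mul_inv_cancel, one_mul, mul_inv_cancel_right] at this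

section padic

variable (ℓ : ℕ) [Fact ℓ.Prime]

local notation "Ω" => PadicAlgCl ℓ
local notation "ι" => padicEmbedding ℓ

theorem mem_range_of_local_fixed {z : Ω} (h : ∀ τ : Ω ≃ₐ[ℚ_[ℓ]] Ω, τ z = z) :
    z ∈ Set.range (algebraMap ℚ_[ℓ] Ω) :=
  (InfiniteGalois.mem_range_algebraMap_iff_fixed z).mpr h

/-- An algebraic number is fixed by the decomposition group at `padicPlace` iff its image is in
`ℚ_ℓ`. -/
theorem fixed_iff_mem_range (y : ℚbar) :
    (∀ g ∈ (padicPlace ℓ).decompositionSubgroup ℚ, g y = y) ↔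
      ι y ∈ Set.range (algebraMap ℚ_[ℓ] Ω) := by
  constructor
  · intro h
    refine mem_range_of_local_fixed ℓ fun τ => ?_
    rw [← padicEmbedding_localGaloisToGlobal,
      h _ (localGaloisToGlobal_mem_decompositionSubgroup ℓ τ)]
  · rintro ⟨z, hz⟩ g hg
    rw [← range_localGaloisToGlobal] at hg
    obtain ⟨τ, rfl⟩ := hg
    refine (padicEmbedding ℓ).toRingHom.injective ?_
    show ι _ = ι _
    rw [padicEmbedding_localGaloisToGlobal, ← hz, AlgEquiv.commutes]

end padic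

variable {W : WeierstrassCurve ℤ}

theorem exists_padic_notMem {ℓ : ℕ} [Fact ℓ.Prime]
    (hodd : Odd (padicValInt ℓ W.Δ)) :
    ∃ g ∈ (padicPlace ℓ).decompositionSubgroup ℚ, g ∉ discGroup W := by
  by_contra h
  push Not at h
  have hfix : ∀ g ∈ (padicPlace ℓ).decompositionSubgroup ℚ, g (sqrtDisc W) = sqrtDisc W :=
    fun g hg => (IntermediateField.mem_fixingSubgroup_iff _ _).mp (h g hg) _
      (IntermediateField.subset_adjoin ℚ _ rfl)
  obtain ⟨z, hz⟩ := (fixed_iff_mem_range ℓ _).mp hfix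
  have h2 : z ^ 2 = (W.Δ : ℚ_[ℓ]) := (algebraMap ℚ_[ℓ] (PadicAlgCl ℓ)).injective (by
    rw [map_pow, hz, ← map_pow, sqrtDisc_sq, map_intCast, map_intCast])
  have hv := congrArg Padic.valuation h2
  rw [Padic.valuation_pow, Padic.valuation_intCast] at hv
  obtain ⟨j, hj⟩ := hodd
  omega

namespace Frame

variable (R : Frame W)

/-- What is used about the primes with local conditions. -/
structure Splits (ℓ : ℕ) : Prop where
  notMem : ∀ A : ValuationSubring ℚbar, A.LiesOverPrime ℓ →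
    ∃ g ∈ A.decompositionSubgroup ℚ, g ∉ discGroup W
  fixedRoot : ∀ A : ValuationSubring ℚbar, A.LiesOverPrime ℓ →
    ∃ i, ∀ g ∈ A.decompositionSubgroup ℚ, g (R.e i) = R.e i

theorem exists_padic_root (hss : W.IsSemistableModel) {ℓ : ℕ} [Fact ℓ.Prime]
    (hℓ : (ℓ : ℤ) ∣ W.Δ) :
    ∃ i, ∀ g ∈ (padicPlace ℓ).decompositionSubgroup ℚ, g (R.e i) = R.e i := by
  set F := DihedralTwo.weierCubic W with hF
  obtain ⟨x, y, hxy, hv, hd⟩ := DihedralTwo.exists_simpleRoot_monic F rfl (q := ℓ)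
    (by rw [hF, DihedralTwo.weierCubic_disc, Int.cast_mul,
      (ZMod.intCast_zmod_eq_zero_iff_dvd _ _).2 hℓ, mul_zero])
    (by
      rw [Ne, ZMod.intCast_zmod_eq_zero_iff_dvd, show F.hA = W.c₄ by
        simp only [hF, DihedralTwo.weierCubic, DihedralTwo.Cubic.hA, WeierstrassCurve.c₄]; ring]
      exact hss ℓ Fact.out hℓ)
  simp only [hF, DihedralTwo.weierCubic, DihedralTwo.Cubic.val, DihedralTwo.Cubic.valX,
    DihedralTwo.Cubic.valY] at hv hd
  push_cast at hv hd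
  have hy : y ≠ 0 := fun e => by
    subst e
    exact hxy.elim (fun h => h (eq_zero_of_pow_eq_zero (n := 3) (by linear_combination hv)))
      (fun h => h rfl)
  obtain ⟨r, hr⟩ := ZMod.intCast_surjective (x / y)
  set f : ℤ[X] := X ^ 3 + C W.b₂ * X ^ 2 + C (8 * W.b₄) * X + C (16 * W.b₆) with hf
  have hx : x = (r : ZMod ℓ) * y := by rw [hr, div_mul_cancel₀ _ hy]
  subst hx
  have h0 : (r : ZMod ℓ) ^ 3 + (W.b₂ : ZMod ℓ) * (r : ZMod ℓ) ^ 2 +
      8 * (W.b₄ : ZMod ℓ) * r + 16 * (W.b₆ : ZMod ℓ) = 0 := by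
    refine mul_left_cancel₀ (pow_ne_zero 3 hy) ?_
    linear_combination hv
  have h1 : 3 * (r : ZMod ℓ) ^ 2 + 2 * (W.b₂ : ZMod ℓ) * r + 8 * (W.b₄ : ZMod ℓ) ≠ 0 := by
    intro e
    rcases hd with hd | hd
    · exact hd (by linear_combination y ^ 2 * e)
    · exact hd (by linear_combination y ^ 2 * (-(r : ZMod ℓ) * e + 3 * h0))
  have hsmall : ‖f.aeval ((r : ℤ) : ℤ_[ℓ])‖ < ‖f.derivative.aeval ((r : ℤ) : ℤ_[ℓ])‖ ^ 2 := by
    rw [show f.aeval ((r : ℤ) : ℤ_[ℓ]) =
        ((r ^ 3 + W.b₂ * r ^ 2 + 8 * W.b₄ * r + 16 * W.b₆ : ℤ) : ℤ_[ℓ]) by simp [hf, map_ofNat],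
      show f.derivative.aeval ((r : ℤ) : ℤ_[ℓ]) =
        ((3 * r ^ 2 + 2 * W.b₂ * r + 8 * W.b₄ : ℤ) : ℤ_[ℓ]) by simp [hf, map_ofNat]; ring]
    have e1 : ‖((3 * r ^ 2 + 2 * W.b₂ * r + 8 * W.b₄ : ℤ) : ℤ_[ℓ])‖ = 1 := by
      refine le_antisymm (PadicInt.norm_le_one _) (not_lt.mp fun hlt => h1 ?_)
      rw [PadicInt.norm_intCast_lt_one_iff, ← ZMod.intCast_zmod_eq_zero_iff_dvd] at hlt
      exact_mod_cast hlt
    rw [e1, one_pow, PadicInt.norm_intCast_lt_one_iff, ← ZMod.intCast_zmod_eq_zero_iff_dvd]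
    exact_mod_cast h0
  obtain ⟨z, hz, -⟩ := hensels_lemma hsmall
  set w : PadicAlgCl ℓ := algebraMap ℚ_[ℓ] (PadicAlgCl ℓ) (z : ℚ_[ℓ])
  have hzw : (w - padicEmbedding ℓ (R.e 0)) * ((w - padicEmbedding ℓ (R.e 1)) *
      (w - padicEmbedding ℓ (R.e 2))) = 0 := by
    have h1 := congrArg (padicEmbedding ℓ) R.sum_eq
    have h2 := congrArg (padicEmbedding ℓ) R.pair_eq
    have h3 := congrArg (padicEmbedding ℓ) R.prod_eq
    simp only [map_add, map_mul, map_neg, map_intCast, map_ofNat] at h1 h2 h3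
    have hz' : f.aeval w = 0 := by
      have h := Polynomial.aeval_algHom_apply
        ((algebraMap ℚ_[ℓ] (PadicAlgCl ℓ)).comp PadicInt.Coe.ringHom).toIntAlgHom z f
      rw [hz, map_zero] at h
      exact h
    simp [hf, map_ofNat] at hz'
    linear_combination hz' - w ^ 2 * h1 + w * h2 - h3
  obtain ⟨i, hi⟩ : ∃ i, w = padicEmbedding ℓ (R.e i) := by
    simpa [mul_eq_zero, sub_eq_zero, Fin.exists_fin_succ] using hzw
  exact ⟨i, (fixed_iff_mem_range ℓ _).mpr ⟨_, hi⟩⟩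

theorem splits_of_dvd (hss : W.IsSemistableModel) {ℓ : ℕ} (hℓp : ℓ.Prime) (hℓ : (ℓ : ℤ) ∣ W.Δ)
    (hodd : Odd (padicValInt ℓ W.Δ)) : R.Splits ℓ := by
  have : Fact ℓ.Prime := ⟨hℓp⟩
  constructor
  · intro A hA
    obtain ⟨h, rfl⟩ := exists_smul_padicPlace_eq ℓ hA
    obtain ⟨g, hg, hgn⟩ := exists_padic_notMem hodd
    refine ⟨h * g * h⁻¹, conj_mem_decomposition hg h, fun hm => hgn ?_⟩
    rw [R.mem_disc_iff] at hm ⊢
    rwa [map_mul, map_mul, map_mul, map_mul, map_inv, map_inv, mul_inv_cancel_comm] at hm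
  · intro A hA
    obtain ⟨h, rfl⟩ := exists_smul_padicPlace_eq ℓ hA
    obtain ⟨i, hi⟩ := R.exists_padic_root hss hℓ
    refine ⟨R.perm h i, fun g hg => ?_⟩
    have := congrArg h (hi _ (mem_decomposition_smul_iff.mp hg))
    rw [AlgEquiv.mul_apply, AlgEquiv.mul_apply, AlgEquiv.aut_inv, AlgEquiv.apply_symm_apply,
      R.apply_e] at this
    exact this

/-- Inertia at a good prime fixes the roots. -/
theorem inertia_apply_e {ℓ : ℕ} (hℓp : ℓ.Prime) (hgood : ¬ (ℓ : ℤ) ∣ 2 * W.Δ)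
    {A : ValuationSubring ℚbar} (hA : A.LiesOverPrime ℓ) {u : Γ}
    (hu : u ∈ A.inertiaSubgroupIn ℚ) (i : Fin 3) : u (R.e i) = R.e i := by
  set P : ℚbar[X] := (X - C (R.e 0)) * ((X - C (R.e 1)) * (X - C (R.e 2))) with hP
  have hint : ∀ j, R.e j ∈ A := fun j => by
    refine Gal.mem_of_isIntegral A ⟨X ^ 3 + C W.b₂ * X ^ 2 + C (8 * W.b₄) * X + C (16 * W.b₆),
      by monicity!, ?_⟩
    rw [← aeval_def]
    simpa [IsRootOf, map_ofNat] using R.isRootOf_e j
  have hcoef : P = X ^ 3 + C (W.b₂ : ℚbar) * X ^ 2 + C (((8 * W.b₄ : ℤ)) : ℚbar) * X +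
      C (((16 * W.b₆ : ℤ)) : ℚbar) := by
    refine Polynomial.funext fun z => ?_
    simp only [hP, eval_mul, eval_sub, eval_add, eval_pow, eval_X, eval_C]
    push_cast
    exact R.prod_sub z
  have hmap : P = (X ^ 3 + C W.b₂ * X ^ 2 + C (8 * W.b₄) * X + C (16 * W.b₆) : ℤ[X]).map
      (Int.castRingHom ℚbar) := by
    simp [hcoef, map_ofNat]
  refine Gal.apply_eq_of_simple_root hu (p := P) (fun j => ?_) (fun j => ?_) (hint i) ?_ ?_
  · rw [hmap, coeff_map, eq_intCast]; exact intCast_mem A _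
  · rw [hmap, coeff_map, eq_intCast, map_intCast]
  · rw [Polynomial.IsRoot, hP]
    fin_cases i <;> simp
  · intro hnu
    have h256 : ((256 * W.Δ : ℤ) : ℚbar) ∈ A.nonunits := by
      obtain ⟨t, htA, ht⟩ : ∃ t ∈ A, R.diffProd = P.derivative.eval (R.e i) * t := by
        fin_cases i
        · refine ⟨R.e 2 - R.e 1, sub_mem (hint 2) (hint 1), ?_⟩
          simp [hP, diffProd, Matrix.det_fin_three, Matrix.vandermonde_apply]; ring
        · refine ⟨-(R.e 2 - R.e 0), neg_mem (sub_mem (hint 2) (hint 0)), ?_⟩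
          simp [hP, diffProd, Matrix.det_fin_three, Matrix.vandermonde_apply]; ring
        · refine ⟨R.e 1 - R.e 0, sub_mem (hint 1) (hint 0), ?_⟩
          simp [hP, diffProd, Matrix.det_fin_three, Matrix.vandermonde_apply]; ring
      have hmem : R.diffProd ∈ A.nonunits := by
        rw [ht]; exact Gal.mul_mem_nonunits_left A hnu htA
      rw [Int.cast_mul, Int.cast_ofNat, ← R.diffProd_sq]
      exact Gal.pow_mem_nonunits A two_ne_zero hmem
    rw [Gal.intCast_mem_nonunits_iff A hℓp hA] at h256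
    refine hgood ?_
    rcases (Nat.prime_iff_prime_int.mp hℓp).dvd_mul.mp h256 with h | h
    · exact dvd_mul_of_dvd_left ((Nat.prime_iff_prime_int.mp hℓp).dvd_of_dvd_pow
        (n := 8) (show (ℓ : ℤ) ∣ 2 ^ 8 by simpa using h)) _
    · exact dvd_mul_of_dvd_right h _

end Frame

end Fermat.Agent.Root.Selmer
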