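import Fermat.Agent.Root.Selmer.Group
import Fermat.Agent.Root.Selmer.Local

/-!
# The places of the cubic field

The embeddings of the cubic field, and evenness of valuations of elements whose square roots are
fixed by inertia.
-/

set_option autoImplicit false

noncomputable section

namespace Fermat.Agent.Root.Selmer

open IsDedekindDomain NumberField WithZero
open Fermat.Agent.Duality Fermat.Agent.Duality.Places
open Fermat.Agent.Duality.Global.Two (ordPar)
open scoped Pointwise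

local notation "ℚbar" => AlgebraicClosure ℚ
local notation "Γ" => AlgebraicClosure ℚ ≃ₐ[ℚ] AlgebraicClosure ℚ

namespace Frame

variable {W : WeierstrassCurve ℤ} (R : Frame W)

section

variable {ℓ : ℕ} [Fact ℓ.Prime]

local notation "Ω" => PadicAlgCl ℓ
local notation "ι" => padicEmbedding ℓ

/-- The embedding of the cubic field attached to an element of the Galois group. -/
def embAt (g : Γ) : R.fld →ₐ[ℚ] Ω := ((padicEmbedding ℓ).comp g.toAlgHom).comp R.fld.val

theorem embAt_apply (g : Γ) (x : R.fld) : R.embAt (ℓ := ℓ) g x = ι (g (x : ℚbar)) := rfl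

/-- Every embedding of the cubic field comes from the Galois group. -/
theorem exists_embAt (T : R.Rot) (τ : R.fld →ₐ[ℚ] Ω) : ∃ g : Γ, τ = R.embAt g := by
  have hroot : R.fld.val ⟨R.e 0, R.e_mem_fld⟩ = R.e 0 := rfl
  set t := τ ⟨R.e 0, R.e_mem_fld⟩ with ht
  have h1 := congrArg (padicEmbedding ℓ) R.sum_eq
  have h2 := congrArg (padicEmbedding ℓ) R.pair_eq
  have h3 := congrArg (padicEmbedding ℓ) R.prod_eq
  simp only [map_add, map_mul, map_neg, map_intCast, map_ofNat] at h1 h2 h3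
  have hr : (⟨R.e 0, R.e_mem_fld⟩ : R.fld) ^ 3 + (W.b₂ : R.fld) * ⟨R.e 0, R.e_mem_fld⟩ ^ 2 +
      8 * (W.b₄ : R.fld) * ⟨R.e 0, R.e_mem_fld⟩ + 16 * (W.b₆ : R.fld) = 0 := by
    apply R.fld.val.toRingHom.injective
    simp only [AlgHom.toRingHom_eq_coe, RingHom.coe_coe, map_add, map_mul, map_pow, map_intCast,
      map_ofNat, map_zero, hroot]
    exact R.isRootOf_e 0
  have hr' := congrArg τ hr
  simp only [map_add, map_mul, map_pow, map_intCast, map_ofNat, map_zero, ← ht] at hr'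
  have hz : (t - ι (R.e 0)) * ((t - ι (R.e 1)) * (t - ι (R.e 2))) = 0 := by
    linear_combination hr' - t ^ 2 * h1 + t * h2 - h3
  obtain ⟨i, hi⟩ : ∃ i, t = ι (R.e i) := by
    simpa [mul_eq_zero, sub_eq_zero, Fin.exists_fin_succ] using hz
  obtain ⟨g, -, hg⟩ := R.exists_move T i
  refine ⟨g, ?_⟩
  have hint : IsIntegral ℚ (R.e 0) := (Algebra.IsAlgebraic.isAlgebraic _).isIntegral
  refine (IntermediateField.adjoin.powerBasis hint).algHom_ext ?_
  show τ _ = ι (g _)
  rw [IntermediateField.adjoin.powerBasis_gen]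
  change τ ⟨R.e 0, R.e_mem_fld⟩ = ι (g (R.e 0))
  rw [hg, ← hi]

theorem exists_embAt_of_mem (T : R.Rot) (v : HeightOneSpectrum (𝓞 R.fld))
    (hv : (ℓ : 𝓞 R.fld) ∈ v.asIdeal) : ∃ g : Γ, placeOf ℓ (R.embAt g) = v := by
  obtain ⟨τ, rfl⟩ := exists_placeOf_eq ℓ v hv
  obtain ⟨g, rfl⟩ := R.exists_embAt T τ
  exact ⟨g, rfl⟩

/-- The valuations of an element whose square root is fixed by inertia are even. -/
theorem ordPar_embAt_eq_zero (hgood : ¬ (ℓ : ℤ) ∣ 2 * W.Δ) (x : R.fldˣ) {s : ℚbar}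
    (hs : s ^ 2 = (x : R.fld))
    (hfix : ∀ A : ValuationSubring ℚbar, A.LiesOverPrime ℓ → ∀ u ∈ A.inertiaSubgroupIn ℚ, u s = s)
    (g : Γ) : ordPar (placeOf ℓ (R.embAt g)) x = 0 := by
  have hℓ : ℓ.Prime := Fact.out
  let E : IntermediateField ℚ ℚbar := IntermediateField.adjoin ℚ {g s, g (R.e 0)}
  have hEfin : FiniteDimensional ℚ E :=
    IntermediateField.finiteDimensional_adjoin fun y _ =>
      (Algebra.IsAlgebraic.isAlgebraic y).isIntegral
  let N := IntermediateField.normalClosure ℚ E ℚbar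
  have : FiniteDimensional ℚ N := normalClosure.is_finiteDimensional ℚ _ _
  have : Normal ℚ N := normalClosure.normal ℚ _ _
  have : IsGalois ℚ N := ⟨⟩
  have : NumberField N := ⟨⟩
  have hN : ∀ u ∈ (padicPlace ℓ).inertiaSubgroupIn ℚ, ∀ y ∈ N, u y = y := by
    intro u hu y hy
    have hle : N ≤ IntermediateField.fixedField (Subgroup.zpowers u) := by
      rw [show N = ⨆ g : Γ, E.map g.toAlgHom from IntermediateField.normalClosure_def'' _]
      refine iSup_le fun h => ?_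
      rw [IntermediateField.adjoin_map, IntermediateField.adjoin_le_iff]
      have key : ∀ z : ℚbar, (∀ A : ValuationSubring ℚbar, A.LiesOverPrime ℓ →
          ∀ u ∈ A.inertiaSubgroupIn ℚ, u z = z) → ∀ h : Γ, u (h z) = h z := by
        intro z hz h
        have hA := Gal.liesOverPrime_smul h⁻¹ (liesOverPrime_padicPlace ℓ)
        have := congrArg h (hz _ hA _ (Gal.conj_mem_inertia hu h⁻¹))
        rwa [inv_inv, AlgEquiv.mul_apply, AlgEquiv.mul_apply, AlgEquiv.aut_inv,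
          AlgEquiv.apply_symm_apply] at this
      rintro z ⟨w, hw, rfl⟩ ⟨u', hu'⟩
      obtain ⟨j, rfl⟩ := Subgroup.mem_zpowers_iff.mp hu'
      show (u ^ j) (h w) = h w
      have huw : u (h w) = h w := by
        rcases hw with rfl | rfl
        · exact (AlgEquiv.mul_apply h g s).symm ▸ key s hfix (h * g)
        · exact (AlgEquiv.mul_apply h g (R.e 0)).symm ▸
            key _ (fun A hA v hv => R.inertia_apply_e hℓ hgood hA hv 0) (h * g)
      exact (MulAction.mem_stabilizer_iff (a := h w)).1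
        (zpow_mem (show u ∈ MulAction.stabilizer Γ (h w) from huw) j)
    exact hle hy ⟨u, Subgroup.mem_zpowers u⟩
  have hle : E ≤ N := E.le_normalClosure
  have hpow : ∀ y ∈ N, y ≠ 0 → ∃ m : ℤ, ‖ι y‖ = (ℓ : ℝ) ^ m := fun y hy hy0 =>
    exists_norm_embedding_eq_zpow ℓ N hN hy hy0
  have hmem : ∀ y : R.fld, g (y : ℚbar) ∈ N := by
    intro y
    have h : R.fld ≤ N.comap g.toAlgHom := IntermediateField.adjoin_le_iff.mpr (by
      rintro _ ⟨rfl⟩
      exact hle (IntermediateField.subset_adjoin ℚ _ (Or.inr rfl)))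
    exact h y.2
  set τ := R.embAt (ℓ := ℓ) g
  obtain ⟨r, hr0, hr1, hr⟩ := exists_norm_apply_eq ℓ τ
  set v := placeOf ℓ τ
  have hlog : ∀ y : R.fld, y ≠ 0 → ‖τ y‖ = r ^ (-log (v.valuation R.fld y)) := fun y hy =>
    hr y _ (by rw [neg_neg, exp_log (by simpa using hy)])
  obtain ⟨π, hπ⟩ := v.valuation_exists_uniformizer R.fld
  have hπ0 : π ≠ 0 := fun h => by rw [h, map_zero] at hπ; exact exp_ne_zero hπ.symm
  obtain ⟨j, hj⟩ := hpow _ (hmem π) (by simpa using hπ0)
  rw [← R.embAt_apply, hr π 1 hπ, zpow_one] at hj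
  have hs0 : s ≠ 0 := fun h => x.ne_zero (Subtype.ext (by rw [← hs, h]; simp))
  obtain ⟨m, hm⟩ := hpow (g s) (hle (IntermediateField.subset_adjoin ℚ _ (Or.inl rfl)))
    (by simpa using hs0)
  have hlR : (1 : ℝ) < ℓ := by exact_mod_cast hℓ.one_lt
  have hzpow : ∀ a b : ℤ, (ℓ : ℝ) ^ a = (ℓ : ℝ) ^ b → a = b := fun a b h =>
    zpow_right_injective₀ (by linarith) hlR.ne' h
  have hℓR : (ℓ : R.fld) ≠ 0 := by exact_mod_cast hℓ.ne_zero
  have hℓn := hlog _ hℓR
  rw [map_natCast, norm_natCast_self, hj, ← zpow_mul, ← zpow_neg_one] at hℓn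
  have hjk := hzpow _ _ hℓn
  have hxn := hlog _ x.ne_zero
  rw [R.embAt_apply, ← hs, map_pow, map_pow, norm_pow, hm, hj, ← zpow_natCast, ← zpow_mul,
    ← zpow_mul] at hxn
  have hxk := hzpow _ _ hxn
  have hj1 : j = 1 ∨ j = -1 := by
    rcases Int.eq_one_or_neg_one_of_mul_eq_neg_one hjk.symm with h | h <;> simp [h]
  rw [ordPar, ZMod.intCast_zmod_eq_zero_iff_dvd]
  rcases hj1 with rfl | rfl <;> omega

end

/-- Even valuations at the places over a good prime. -/
theorem ordPar_eq_zero_of_inertia (T : R.Rot) {ℓ : ℕ} (hℓ : ℓ.Prime)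
    (hgood : ¬ (ℓ : ℤ) ∣ 2 * W.Δ) (x : R.fldˣ) {s : ℚbar} (hs : s ^ 2 = (x : R.fld))
    (hfix : ∀ A : ValuationSubring ℚbar, A.LiesOverPrime ℓ → ∀ u ∈ A.inertiaSubgroupIn ℚ, u s = s)
    (v : HeightOneSpectrum (𝓞 R.fld)) (hv : (ℓ : 𝓞 R.fld) ∈ v.asIdeal) : ordPar v x = 0 := by
  have : Fact ℓ.Prime := ⟨hℓ⟩
  obtain ⟨g, rfl⟩ := R.exists_embAt_of_mem T v hv
  exact R.ordPar_embAt_eq_zero hgood x hs hfix g

end Frame

end Fermat.Agent.Root.Selmer
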