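import Fermat.Agent.Root.Selmer.Cubic
import Fermat.Agent.Duality.Global.Two.Bridge

/-!
# The classes of squares cut out by the local conditions

The cubic field of a frame and the group `sel` of its square classes with the local conditions at
`Q` and the bad primes.
-/

set_option autoImplicit false

noncomputable section

namespace Fermat.Agent.Root.Selmer

open IsDedekindDomain NumberField
open Fermat.Agent.Duality.Global.Two (ordPar ordPar_mul)

local notation "ℚbar" => AlgebraicClosure ℚ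
local notation "Γ" => AlgebraicClosure ℚ ≃ₐ[ℚ] AlgebraicClosure ℚ

namespace Frame

variable {W : WeierstrassCurve ℤ} (R : Frame W)

/-- The cubic field of the frame. -/
def fld : IntermediateField ℚ ℚbar := IntermediateField.adjoin ℚ {R.e 0}

theorem e_mem_fld : R.e 0 ∈ R.fld := IntermediateField.subset_adjoin ℚ _ rfl

instance : FiniteDimensional ℚ R.fld :=
  IntermediateField.adjoin.finiteDimensional (Algebra.IsAlgebraic.isAlgebraic (R.e 0)).isIntegral

instance : NumberField R.fld where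

/-- The stabiliser of the distinguished root. -/
def stab : Subgroup Γ := R.fld.fixingSubgroup

theorem mem_stab {g : Γ} : g ∈ R.stab ↔ g (R.e 0) = R.e 0 := by
  refine ⟨fun h => (IntermediateField.mem_fixingSubgroup_iff _ _).mp h _ R.e_mem_fld, fun h => ?_⟩
  rw [stab, IntermediateField.mem_fixingSubgroup_iff]
  intro x hx
  induction hx using IntermediateField.adjoin_induction with
  | mem y hy => rw [Set.mem_singleton_iff] at hy; rw [hy]; exact h
  | algebraMap r => exact g.commutes r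
  | add a b _ _ ha hb => rw [map_add, ha, hb]
  | inv a _ ha => rw [map_inv₀, ha]
  | mul a b _ _ ha hb => rw [map_mul, ha, hb]

theorem mem_stab_iff_perm {g : Γ} : g ∈ R.stab ↔ R.perm g 0 = 0 :=
  R.mem_stab.trans R.perm_eq_iff.symm

theorem conj_mem_stab : complexConjugation ∈ R.stab := R.mem_stab.mpr R.conj_fix

theorem apply_eq_self {g : Γ} (hg : g ∈ R.stab) (x : R.fld) : g (x : ℚbar) = x :=
  (IntermediateField.mem_fixingSubgroup_iff _ _).mp hg _ x.2

theorem apply_eq_apply {g g' : Γ} (h : g (R.e 0) = g' (R.e 0)) (x : R.fld) :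
    g (x : ℚbar) = g' (x : ℚbar) := by
  have hm : g'⁻¹ * g ∈ R.stab := R.mem_stab.mpr (by
    rw [AlgEquiv.mul_apply, h, AlgEquiv.aut_inv, AlgEquiv.symm_apply_apply])
  have := congrArg g' (R.apply_eq_self hm x)
  rwa [AlgEquiv.mul_apply, AlgEquiv.aut_inv, AlgEquiv.apply_symm_apply] at this

theorem mem_fld_of_fixed {y : ℚbar} (h : ∀ g ∈ R.stab, g y = y) : y ∈ R.fld := by
  rw [← InfiniteGalois.fixedField_fixingSubgroup R.fld]
  exact fun g => h g g.2

/-! ### Transitivity -/

include R in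
theorem no_fixed_root (hirr : W.ModRepIsIrreducible 2) (i : Fin 3) :
    ∃ g : Γ, g (R.e i) ≠ R.e i := by
  by_contra h
  push Not at h
  obtain ⟨r, hr⟩ := (InfiniteGalois.mem_range_algebraMap_iff_fixed (R.e i)).mpr h
  refine DihedralTwo.no_rat_root_of_irreducible W R.ne hirr (r / 4) ?_
  refine (algebraMap ℚ ℚbar).injective ?_
  have := R.isRootOf_e i
  rw [IsRootOf, ← hr] at this
  simp only [map_add, map_mul, map_pow, map_div₀, map_ofNat, map_intCast, map_zero]
  linear_combination (1 / 16 : ℚbar) * this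

include R in
theorem exists_rot (hirr : W.ModRepIsIrreducible 2) :
    ∃ σ ∈ discGroup W, σ (R.e 0) = R.e 1 := by
  obtain ⟨g, hg⟩ := R.no_fixed_root hirr 0
  have hsign : ∀ p : Equiv.Perm (Fin 3), p 0 ≠ 0 → ∃ q : Equiv.Perm (Fin 3),
      (q = p ∨ q = Equiv.swap 1 2 * p ∨ q = p * Equiv.swap 1 2 ∨
        q = Equiv.swap 1 2 * p * Equiv.swap 1 2) ∧ Equiv.Perm.sign q = 1 ∧ q 0 = 1 := by decide
  obtain ⟨q, hq, hs, h1⟩ := hsign (R.perm g) fun h => hg (R.perm_eq_iff.mp h)
  obtain ⟨σ, rfl⟩ : ∃ σ, R.perm σ = q := by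
    rcases hq with e | e | e | e
    · exact ⟨g, e.symm⟩
    · exact ⟨complexConjugation * g, by rw [map_mul, R.perm_conj, e]⟩
    · exact ⟨g * complexConjugation, by rw [map_mul, R.perm_conj, e]⟩
    · exact ⟨complexConjugation * g * complexConjugation, by
        rw [map_mul, map_mul, R.perm_conj, e]⟩
  exact ⟨σ, (R.mem_disc_iff σ).mpr hs, R.perm_eq_iff.mp h1⟩

theorem perm_rot {σ : Γ} (hσ : σ ∈ discGroup W) (h : σ (R.e 0) = R.e 1) :
    R.perm σ = Equiv.swap 0 1 * Equiv.swap 1 2 := by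
  have hs := (R.mem_disc_iff σ).mp hσ
  have h1 := R.perm_eq_iff.mpr h
  revert hs h1
  generalize R.perm σ = p
  revert p
  decide

/-- A frame together with an element of `G_K` cycling the roots. -/
structure Rot where
  /-- The rotation. -/
  σ : Γ
  mem : σ ∈ discGroup W
  map_zero : σ (R.e 0) = R.e 1

theorem exists_move (T : R.Rot) (i : Fin 3) : ∃ g ∈ discGroup W, g (R.e 0) = R.e i := by
  have h := R.perm_rot T.mem T.map_zero
  have key : ∀ i : Fin 3, i = 0 ∨ i = 1 ∨ i = 2 := by decide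
  rcases key i with rfl | rfl | rfl
  · exact ⟨1, one_mem _, rfl⟩
  · exact ⟨T.σ, T.mem, T.map_zero⟩
  · refine ⟨T.σ * T.σ, mul_mem T.mem T.mem, R.perm_eq_iff.mp ?_⟩
    rw [map_mul, h]
    decide

variable {R} (T : R.Rot)

/-- The conjugate of an element of the cubic field at the root `i`. -/
def _root_.Fermat.Agent.Root.Selmer.cel (i : Fin 3) (x : R.fld) : ℚbar :=
  (R.exists_move T i).choose (x : ℚbar)

theorem cel_eq {g : Γ} {i : Fin 3} (h : g (R.e 0) = R.e i) (x : R.fld) :
    cel T i x = g (x : ℚbar) :=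
  R.apply_eq_apply ((R.exists_move T i).choose_spec.2.trans h.symm) x

theorem cel_zero (x : R.fld) : cel T 0 x = x := cel_eq T (g := 1) rfl x

theorem apply_cel (g : Γ) (i : Fin 3) (x : R.fld) : g (cel T i x) = cel T (R.perm g i) x := by
  rw [cel_eq T (g := g * (R.exists_move T i).choose) (i := R.perm g i)]
  · rfl
  · rw [AlgEquiv.mul_apply, (R.exists_move T i).choose_spec.2, R.apply_e]

theorem cel_mul (i : Fin 3) (x y : R.fld) : cel T i (x * y) = cel T i x * cel T i y := by
  simp [cel]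

theorem cel_ne_zero (i : Fin 3) {x : R.fld} (hx : x ≠ 0) : cel T i x ≠ 0 := by
  rw [cel, _root_.map_ne_zero]
  exact fun e => hx (Subtype.ext e)

theorem exists_rat_prod (x : R.fld) : ∃ r : ℚ, ∏ i, cel T i x = algebraMap ℚ ℚbar r := by
  obtain ⟨r, hr⟩ := (InfiniteGalois.mem_range_algebraMap_iff_fixed (∏ i, cel T i x)).mpr fun g => by
    rw [map_prod]
    rw [Finset.prod_congr rfl fun i _ => apply_cel T g i x]
    exact Equiv.prod_comp (R.perm g) fun i => cel T i x
  exact ⟨r, hr.symm⟩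

/-- The norm of the element is a rational square. -/
def NormSq (x : R.fld) : Prop := ∃ r : ℚ, ∏ i, cel T i x = algebraMap ℚ ℚbar r ^ 2

variable (R) in
/-- The element is positive at the real place. -/
def RealSq (x : R.fld) : Prop :=
  ∀ c : Γ, c * c = 1 → c ∉ discGroup W → c ∈ R.stab → ∀ s : ℚbar, s ^ 2 = x → c s = s

variable (R) in
/-- The element is a square at the places of `ℓ` whose decomposition group fixes the root. -/
def LocSq (ℓ : ℕ) (x : R.fld) : Prop :=
  ∀ A : ValuationSubring ℚbar, A.LiesOverPrime ℓ → A.decompositionSubgroup ℚ ≤ R.stab →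
    ∀ s : ℚbar, s ^ 2 = x → ∀ g ∈ A.decompositionSubgroup ℚ, g s = s

theorem fix_of_sq {g : Γ} {s : ℚbar} {z : R.fld} (hg : g ∈ R.stab)
    (h : s ^ 2 = ((z ^ 2 : R.fld) : ℚbar)) : g s = s := by
  rw [IntermediateField.coe_pow] at h
  rcases sq_eq_sq_iff_eq_or_eq_neg.mp h with e | e <;>
    simp [e, R.apply_eq_self hg]

theorem fix_mul {g : Γ} {s : ℚbar} {x y : R.fld} (hx : x ≠ 0)
    (hs : s ^ 2 = ((x * y : R.fld) : ℚbar)) (h1 : ∀ t : ℚbar, t ^ 2 = x → g t = t)
    (h2 : ∀ t : ℚbar, t ^ 2 = y → g t = t) : g s = s := by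
  obtain ⟨t, ht⟩ := IsAlgClosed.exists_pow_nat_eq (x : ℚbar) (n := 2) two_pos
  have ht0 : t ≠ 0 := fun e => hx (Subtype.ext (by rw [← ht, e]; simp))
  have hu : (s / t) ^ 2 = y := by
    rw [div_pow, hs, ht, IntermediateField.coe_mul, mul_div_cancel_left₀]
    exact fun e => hx (Subtype.ext e)
  have h := h2 _ hu
  rw [map_div₀, h1 t ht, div_left_inj' ht0] at h
  exact h

/-- The conditions: at `Q` and the bad primes squares at the split places, even valuation elsewhere,
square norm, positive. -/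
structure IsSel (Q : Finset ℕ) (x : R.fldˣ) : Prop where
  norm : NormSq T (x : R.fld)
  real : RealSq R (x : R.fld)
  even : ∀ ℓ : ℕ, ℓ.Prime → ℓ ∉ Q → ¬ (ℓ : ℤ) ∣ W.Δ → ∀ v : HeightOneSpectrum (𝓞 R.fld),
    (ℓ : 𝓞 R.fld) ∈ v.asIdeal → ordPar v x = 0
  loc : ∀ ℓ : ℕ, ℓ.Prime → (ℓ ∈ Q ∨ (ℓ : ℤ) ∣ W.Δ) → LocSq R ℓ (x : R.fld)

theorem IsSel.sq {Q : Finset ℕ} (z : R.fldˣ) : IsSel T Q (z ^ 2) where
  norm := by
    obtain ⟨r, hr⟩ := exists_rat_prod T (z : R.fld)
    refine ⟨r, ?_⟩
    rw [Units.val_pow_eq_pow_val, pow_two]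
    simp only [cel_mul, Finset.prod_mul_distrib, hr, pow_two]
  real c _ _ hc s hs := fix_of_sq hc (by simpa using hs)
  even ℓ _ _ _ v _ := by
    rw [pow_two, ordPar_mul]
    exact CharTwo.add_self_eq_zero _
  loc ℓ _ _ A _ hA s hs g hg := fix_of_sq (hA hg) (by simpa using hs)

theorem IsSel.mul {Q : Finset ℕ} {x y : R.fldˣ} (hx : IsSel T Q x) (hy : IsSel T Q y) :
    IsSel T Q (x * y) where
  norm := by
    obtain ⟨r, hr⟩ := hx.norm
    obtain ⟨r', hr'⟩ := hy.norm
    refine ⟨r * r', ?_⟩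
    simp only [Units.val_mul, cel_mul, Finset.prod_mul_distrib, hr, hr', map_mul, mul_pow]
  real c h1 h2 h3 s hs := fix_mul x.ne_zero (by simpa using hs) (hx.real c h1 h2 h3)
    (hy.real c h1 h2 h3)
  even ℓ h1 h2 h3 v hv := by
    rw [ordPar_mul, hx.even ℓ h1 h2 h3 v hv, hy.even ℓ h1 h2 h3 v hv, add_zero]
  loc ℓ h1 h2 A hA hD s hs g hg := fix_mul x.ne_zero (by simpa using hs)
    (fun t ht => hx.loc ℓ h1 h2 A hA hD t ht g hg) (fun t ht => hy.loc ℓ h1 h2 A hA hD t ht g hg)

/-- The group of classes with the local conditions. -/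
def sel (Q : Finset ℕ) : Subgroup R.fldˣ where
  carrier := {x | IsSel T Q x}
  one_mem' := by
    show IsSel T Q 1
    simpa using IsSel.sq T (1 : R.fldˣ)
  mul_mem' := IsSel.mul T
  inv_mem' {x} hx := by
    show IsSel T Q x⁻¹
    rw [show x⁻¹ = x * x⁻¹ ^ 2 by rw [sq, mul_inv_cancel_left]]
    exact IsSel.mul T hx (IsSel.sq T x⁻¹)

/-- The subgroup of squares of the cubic field. -/
abbrev squares (R : Frame W) : Subgroup R.fldˣ := (powMonoidHom 2 : R.fldˣ →* R.fldˣ).range

theorem squares_le_sel (Q : Finset ℕ) : R.squares ≤ sel T Q := by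
  rintro _ ⟨z, rfl⟩
  exact IsSel.sq T z

/-- A class whose square root is fixed by the stabiliser is trivial. -/
theorem mem_squares_of_fixed {x : R.fldˣ} {s : ℚbar} (hs : s ^ 2 = (x : R.fld))
    (h : ∀ g ∈ R.stab, g s = s) : x ∈ R.squares := by
  have hm := R.mem_fld_of_fixed h
  have hs0 : (⟨s, hm⟩ : R.fld) ≠ 0 := fun e => x.ne_zero (Subtype.ext (by
    rw [← hs, show s = 0 from congrArg Subtype.val e]; simp))
  exact ⟨Units.mk0 _ hs0, Units.ext (Subtype.ext (by simp [powMonoidHom_apply, hs]))⟩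

end Frame

end Fermat.Agent.Root.Selmer
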