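import Fermat.Agent.Root.Selmer.Cubic
import Fermat.Agent.EC.Reducible.Tower

/-!
# Two opposite unipotents generate the special linear group of `E[2ⁿ]`

Unipotents fixing different lines modulo two generate all elements of determinant one
(`exists_closure_eq`).
-/

set_option autoImplicit false

noncomputable section

namespace Fermat.Agent.Root.Selmer

open WeierstrassCurve WeierstrassCurve.Affine.Point
open scoped WeierstrassCurve.Affine

local notation "ℚbar" => AlgebraicClosure ℚ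
local notation "Γ" => AlgebraicClosure ℚ ≃ₐ[ℚ] AlgebraicClosure ℚ

section matrices

variable {R : Type*} [CommRing R]

/-- Upper unipotent matrix. -/
def upperUni (t : R) : Matrix (Fin 2) (Fin 2) R := !![1, t; 0, 1]

/-- Lower unipotent matrix. -/
def lowerUni (t : R) : Matrix (Fin 2) (Fin 2) R := !![1, 0; t, 1]

theorem upperUni_mul (s t : R) : upperUni s * upperUni t = upperUni (s + t) := by
  simp [upperUni, add_comm]

theorem lowerUni_mul (s t : R) : lowerUni s * lowerUni t = lowerUni (s + t) := by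
  simp [lowerUni]

theorem upperUni_pow (t : R) (m : ℕ) : upperUni t ^ m = upperUni ((m : R) * t) := by
  induction m with
  | zero => simp [upperUni, Matrix.one_fin_two]
  | succ m ih => rw [pow_succ, ih, upperUni_mul]; push_cast; ring_nf

theorem lowerUni_pow (t : R) (m : ℕ) : lowerUni t ^ m = lowerUni ((m : R) * t) := by
  induction m with
  | zero => simp [lowerUni, Matrix.one_fin_two]
  | succ m ih => rw [pow_succ, ih, lowerUni_mul]; push_cast; ring_nf

/-- Factorisation when the lower left entry is a unit. -/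
theorem eq_uni_product {a b c d : R} {e : R} (he : e * c = 1) (h : a * d - b * c = 1) :
    !![a, b; c, d] = upperUni ((a - 1) * e) * lowerUni c * upperUni ((d - 1) * e) := by
  simp only [upperUni, lowerUni, Matrix.mul_fin_two]
  ext i j
  fin_cases i <;> fin_cases j <;> simp
  · linear_combination -(a - 1) * he
  · linear_combination (-b) * he - e * h + (-(a - 1) * (d - 1) * e) * he
  · linear_combination -(d - 1) * he

end matrices

theorem isUnit_of_cast_eq_one {n : ℕ} (hn : 1 ≤ n) {a : ZMod (2 ^ n)}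
    (h : ZMod.castHom (dvd_pow_self 2 (by omega : n ≠ 0)) (ZMod 2) a = 1) : IsUnit a := by
  have : NeZero (2 ^ n) := ⟨pow_ne_zero n two_ne_zero⟩
  rw [← ZMod.natCast_zmod_val a, map_natCast] at h
  rw [← ZMod.natCast_zmod_val a, ZMod.isUnit_iff_coprime]
  refine Nat.Coprime.pow_right n (Nat.coprime_two_right.mpr (Nat.odd_iff.mpr ?_))
  have := congrArg ZMod.val h
  rwa [ZMod.val_natCast, ZMod.val_one] at this

namespace Frame

variable {W : WeierstrassCurve ℤ} (R : Frame W)

theorem exists_halves (i : Fin 3) (m : ℕ) :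
    ∃ P : ((W.map (Int.castRingHom ℚ))⁄ℚbar).Point,
      2 ^ m • P = R.point i ∧ 2 ^ (m + 1) • P = 0 := by
  have : Fact (Nat.Prime 2) := ⟨Nat.prime_two⟩
  induction m with
  | zero => exact ⟨R.point i, by simp, by simpa using R.two_nsmul_point i⟩
  | succ m ih =>
    obtain ⟨P, h1, h2⟩ := ih
    obtain ⟨P', hP'⟩ := EC.Reducible.exists_nsmul_eq (p := 2) R.ne h2
    exact ⟨P', by rw [pow_succ, mul_nsmul', hP', h1],
      by rw [pow_succ _ (m + 1), mul_nsmul', hP', h2]⟩

theorem smul_nsmul_point (g : Γ) (m : ℕ) (P : ((W.map (Int.castRingHom ℚ))⁄ℚbar).Point) :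
    m • (g • P) = g • (m • P) :=
  ((Affine.Point.map g.toAlgHom).map_nsmul m P).symm

theorem sum_eq_zero_even {i j : Fin 3} (hij : i ≠ j) {a b : ℕ}
    (h : a • R.point i + b • R.point j = 0) : 2 ∣ a ∧ 2 ∣ b := by
  have hred : ∀ (m : ℕ) (l : Fin 3), m • R.point l = (m % 2) • R.point l := fun m l => by
    conv_lhs => rw [← Nat.mod_add_div m 2, add_nsmul, mul_nsmul, R.two_nsmul_point, nsmul_zero,
      add_zero]
  rw [hred a, hred b] at h
  rcases Nat.mod_two_eq_zero_or_one a with ha | ha <;>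
    rcases Nat.mod_two_eq_zero_or_one b with hb | hb <;> rw [ha, hb] at h
  · exact ⟨Nat.dvd_of_mod_eq_zero ha, Nat.dvd_of_mod_eq_zero hb⟩
  · exact absurd (by simpa using h) (R.point_ne j)
  · exact absurd (by simpa using h) (R.point_ne i)
  · rw [one_nsmul, one_nsmul, add_eq_zero_iff_eq_neg] at h
    refine absurd (R.point_injective ?_) hij
    rw [h, eq_comm, ← add_eq_zero_iff_eq_neg, ← two_nsmul]
    exact R.two_nsmul_point j

/-- Two unipotents with different fixed lines modulo two generate everything of determinant one. -/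
theorem exists_closure_eq {n : ℕ} (hn : 1 ≤ n) {u u' : Γ} {i j k : Fin 3}
    (hij : i ≠ j) (hik : i ≠ k) (hjk : j ≠ k)
    (hu : R.perm u = Equiv.swap i k) (hu' : R.perm u' = Equiv.swap j k)
    (huni : ∀ P : ((W.map (Int.castRingHom ℚ))⁄ℚbar).Point, 2 ^ n • P = 0 →
      u • (u • P - P) = u • P - P)
    (huni' : ∀ P : ((W.map (Int.castRingHom ℚ))⁄ℚbar).Point, 2 ^ n • P = 0 →
      u' • (u' • P - P) = u' • P - P) :
    LinearMap.det (galoisRepModuleEnd (K := ℚbar) ℚ (W.map (Int.castRingHom ℚ)).toAffine (2 ^ n) u)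
      = 1 ∧
    LinearMap.det (galoisRepModuleEnd (K := ℚbar) ℚ (W.map (Int.castRingHom ℚ)).toAffine (2 ^ n) u')
      = 1 ∧
    ∀ g : Γ,
      LinearMap.det (galoisRepModuleEnd (K := ℚbar) ℚ
        (W.map (Int.castRingHom ℚ)).toAffine (2 ^ n) g)
        = 1 → ∃ w ∈ Subgroup.closure {u, u'},
      galoisRepModuleEnd (K := ℚbar) ℚ (W.map (Int.castRingHom ℚ)).toAffine (2 ^ n) g =
        galoisRepModuleEnd (K := ℚbar) ℚ (W.map (Int.castRingHom ℚ)).toAffine (2 ^ n) w := by
  have : NeZero (2 ^ n) := ⟨pow_ne_zero n two_ne_zero⟩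
  set E := (W.map (Int.castRingHom ℚ)).toAffine
  set T := Submodule.torsionBy ℤ (E⁄ℚbar).Point ((2 ^ n : ℕ) : ℤ)
  set ρ := galoisRepModuleEnd (K := ℚbar) ℚ E (2 ^ n)
  have hmem : ∀ {P : (E⁄ℚbar).Point}, P ∈ T ↔ 2 ^ n • P = 0 := fun {P} =>
    EC.Torsion.mem_torsionBy_iff_nsmul E ℚbar P
  obtain ⟨m, rfl⟩ : ∃ m, n = m + 1 := ⟨n - 1, by omega⟩
  obtain ⟨X, hX, hX2⟩ := R.exists_halves j m
  let X' : T := ⟨X, hmem.mpr hX2⟩
  let Q : T := ρ u' X' - X'
  let P : T := ρ u Q - Q
  have hN : ∀ Y : T, ρ u (ρ u Y - Y) = ρ u Y - Y := fun Y => Subtype.ext (huni _ (hmem.mp Y.2))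
  have hN' : ∀ Y : T, ρ u' (ρ u' Y - Y) = ρ u' Y - Y := fun Y => Subtype.ext (huni' _ (hmem.mp Y.2))
  have hsub : ∀ (g : Γ) (Y : T) (a : Fin 3), 2 ^ m • (Y : (E⁄ℚbar).Point) = R.point a →
      2 ^ m • ((ρ g Y - Y : T) : (E⁄ℚbar).Point) = R.point (R.perm g a) + R.point a := by
    intro g Y a hY
    show 2 ^ m • (g • (Y : (E⁄ℚbar).Point) - Y) = _
    rw [nsmul_sub, smul_nsmul_point, hY, R.smul_point, sub_eq_add_neg,
      neg_eq_of_add_eq_zero_left (a := R.point a) (by rw [← two_nsmul]; exact R.two_nsmul_point a)]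
  have hQ : 2 ^ m • (Q : (E⁄ℚbar).Point) = R.point i := by
    rw [hsub u' X' j hX, hu', Equiv.swap_apply_left]
    exact R.point_add hjk.symm hik.symm hij.symm
  have hP : 2 ^ m • (P : (E⁄ℚbar).Point) = R.point j := by
    rw [hsub u Q i hQ, hu, Equiv.swap_apply_left]
    exact R.point_add hik.symm hjk.symm hij
  have hsmul : ∀ (c : ZMod (2 ^ (m + 1))) (Y : T), c • Y = c.val • Y := fun c Y => by
    rw [← Nat.cast_smul_eq_nsmul (ZMod (2 ^ (m + 1))), ZMod.natCast_zmod_val]
  -- the basis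
  let Φ : (Fin 2 → ZMod (2 ^ (m + 1))) →ₗ[ZMod (2 ^ (m + 1))] T :=
    Fintype.linearCombination (ZMod (2 ^ (m + 1))) ![P, Q]
  have hΦ : ∀ v, Φ v = v 0 • P + v 1 • Q := fun v => by
    simp [Φ, Fintype.linearCombination_apply]
  have hinj : Function.Injective Φ := by
    rw [← LinearMap.ker_eq_bot, LinearMap.ker_eq_bot']
    intro v hv
    rw [hΦ, hsmul, hsmul] at hv
    have hv' : (v 0).val • (P : (E⁄ℚbar).Point) + (v 1).val • (Q : (E⁄ℚbar).Point) = 0 :=
      congrArg Subtype.val hv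
    have key : ∀ l ≤ m + 1, 2 ^ l ∣ (v 0).val ∧ 2 ^ l ∣ (v 1).val := by
      intro l
      induction l with
      | zero => exact fun _ => ⟨one_dvd _, one_dvd _⟩
      | succ l ih =>
        intro hl
        obtain ⟨⟨a, ha⟩, ⟨b, hb⟩⟩ := ih (by omega)
        have h0 := congrArg (fun Y => 2 ^ (m - l) • Y) hv'
        simp only [nsmul_add, nsmul_zero, ← mul_nsmul'] at h0
        have e : ∀ z, 2 ^ (m - l) * (2 ^ l * z) = z * 2 ^ m := fun z => by
          rw [← mul_assoc, ← pow_add, show m - l + l = m by omega, mul_comm]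
        rw [ha, hb, e, e, mul_nsmul', mul_nsmul', hP, hQ] at h0
        obtain ⟨⟨a', rfl⟩, ⟨b', rfl⟩⟩ := R.sum_eq_zero_even hij.symm h0
        exact ⟨⟨a', by rw [ha, pow_succ]; ring⟩, ⟨b', by rw [hb, pow_succ]; ring⟩⟩
    obtain ⟨h0, h1⟩ := key (m + 1) le_rfl
    funext l
    fin_cases l
    · exact (ZMod.val_eq_zero _).mp (Nat.eq_zero_of_dvd_of_lt h0 (ZMod.val_lt _))
    · exact (ZMod.val_eq_zero _).mp (Nat.eq_zero_of_dvd_of_lt h1 (ZMod.val_lt _))
  have hcard : Nat.card T = (2 ^ (m + 1)) ^ 2 :=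
    EC.Torsion.natCard_torsionBy_int W R.ne (pow_ne_zero _ two_ne_zero)
  have : Finite T := Nat.finite_of_card_ne_zero (by rw [hcard]; positivity)
  have hbij : Function.Bijective Φ := (Nat.bijective_iff_injective_and_card Φ).mpr
    ⟨hinj, by rw [hcard, Nat.card_fun, Nat.card_zmod]; simp⟩
  let b : Module.Basis (Fin 2) (ZMod (2 ^ (m + 1))) T :=
    Module.Basis.ofEquivFun (LinearEquiv.ofBijective Φ hbij).symm
  have hb : ∀ v, b.equivFun.symm v = v 0 • P + v 1 • Q := fun v => by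
    rw [Module.Basis.equivFun_ofEquivFun, LinearEquiv.symm_symm]
    exact hΦ v
  have hb0 : b 0 = P := by
    rw [← b.equivFun.symm_apply_apply (b 0), hb]; simp
  have hb1 : b 1 = Q := by
    rw [← b.equivFun.symm_apply_apply (b 1), hb]; simp
  let M := LinearMap.toMatrixAlgEquiv b
  -- the two matrices
  have huP : ρ u P = P := hN Q
  have huQ : ρ u Q = Q + P := (add_sub_cancel Q (ρ u Q)).symm
  have hu'Q : ρ u' Q = Q := hN' X'
  obtain ⟨x, hx⟩ := b.equivFun.symm.surjective (ρ u' P - P)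
  rw [hb] at hx
  have hy : IsUnit (x 1) ∧ x 0 = 0 := by
    have h1 := congrArg (fun Y : T => 2 ^ m • (Y : (E⁄ℚbar).Point)) hx
    simp only [Submodule.coe_add, hsmul, AddSubmonoidClass.coe_nsmul] at h1
    rw [hsub u' P j hP, hu', Equiv.swap_apply_left, R.point_add hjk.symm hik.symm hij.symm,
      nsmul_add, ← mul_nsmul', ← mul_nsmul', mul_comm, mul_comm (2 ^ m) (x 1).val, mul_nsmul',
      mul_nsmul', hP, hQ] at h1
    have h2 : (x 0).val • R.point j + ((x 1).val + 1) • R.point i = 0 := by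
      rw [add_nsmul, one_nsmul, ← add_assoc, h1, ← two_nsmul]; exact R.two_nsmul_point i
    obtain ⟨-, h1odd⟩ := R.sum_eq_zero_even hij.symm h2
    have hunit : IsUnit (x 1) := by
      refine isUnit_of_cast_eq_one (by omega) ?_
      rw [← ZMod.natCast_zmod_val (x 1), map_natCast,
        show (1 : ZMod 2) = ((1 : ℕ) : ZMod 2) from Nat.cast_one.symm, ZMod.natCast_eq_natCast_iff']
      omega
    refine ⟨hunit, ?_⟩
    have h3 := hN' P
    rw [← hx, map_add, map_smul, map_smul, hu'Q,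
      show ρ u' P = P + (x 0 • P + x 1 • Q) by rw [hx, add_sub_cancel]] at h3
    have h4 : (x 0 * x 0) • P + (x 0 * x 1) • Q = 0 := by
      rw [smul_add, smul_add, smul_smul, smul_smul] at h3
      calc (x 0 * x 0) • P + (x 0 * x 1) • Q
          = (x 0 • P + ((x 0 * x 0) • P + (x 0 * x 1) • Q) + x 1 • Q) -
            (x 0 • P + x 1 • Q) := by abel
        _ = 0 := by rw [h3, sub_self]
    have h5 : Φ ![x 0 * x 0, x 0 * x 1] = Φ 0 := by
      rw [hΦ, _root_.map_zero]; simpa using h4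
    have h6 := congrFun (hinj h5) 1
    simp only [Matrix.cons_val_one, Matrix.cons_val_fin_one, Pi.zero_apply] at h6
    exact (hunit.mul_left_eq_zero).mp h6
  obtain ⟨⟨y, hy1⟩, hx0⟩ := hy
  have hu'P : ρ u' P = P + (y : ZMod (2 ^ (m + 1))) • Q := by
    rw [hx0, zero_smul, zero_add, ← hy1] at hx
    rw [hx, add_sub_cancel]
  have hP' : b.repr P = Finsupp.single 0 1 := by rw [← hb0, Module.Basis.repr_self]
  have hQ' : b.repr Q = Finsupp.single 1 1 := by rw [← hb1, Module.Basis.repr_self]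
  have hMu : M (ρ u) = upperUni 1 := by
    ext r c
    rw [LinearMap.toMatrixAlgEquiv_apply]
    fin_cases c <;> fin_cases r <;>
      simp [upperUni, hb0, hb1, huP, huQ, hP', hQ']
  have hMu' : M (ρ u') = lowerUni (y : ZMod (2 ^ (m + 1))) := by
    ext r c
    rw [LinearMap.toMatrixAlgEquiv_apply]
    fin_cases c <;> fin_cases r <;>
      simp [lowerUni, hb0, hb1, hu'P, hu'Q, hP', hQ']
  have hdet : ∀ g : Γ, LinearMap.det (ρ g) = (M (ρ g)).det := fun g =>
    (LinearMap.det_toMatrix b (ρ g)).symm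
  refine ⟨?_, ?_, fun g hg => ?_⟩
  · rw [hdet, hMu, upperUni, Matrix.det_fin_two_of]; ring
  · rw [hdet, hMu', lowerUni, Matrix.det_fin_two_of]; ring
  let Good := fun A => ∃ w ∈ Subgroup.closure {u, u'}, M (ρ w) = A
  have hGmul : ∀ {A B}, Good A → Good B → Good (A * B) := by
    rintro _ _ ⟨w, hw, rfl⟩ ⟨w', hw', rfl⟩
    exact ⟨w * w', mul_mem hw hw', by rw [map_mul, map_mul]⟩
  have hGu : ∀ t, Good (upperUni t) := fun t => ⟨u ^ t.val,
    pow_mem (show u ∈ Subgroup.closure ({u, u'} : Set Γ) from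
      Subgroup.subset_closure (Or.inl rfl)) _, by
      rw [map_pow, map_pow, hMu, upperUni_pow, mul_one, ZMod.natCast_zmod_val]⟩
  have hGl : ∀ t, Good (lowerUni t) := fun t => ⟨u' ^ (t * (↑y⁻¹ : ZMod (2 ^ (m + 1)))).val,
    pow_mem (show u' ∈ Subgroup.closure ({u, u'} : Set Γ) from
      Subgroup.subset_closure (Or.inr rfl)) _, by
      rw [map_pow, map_pow, hMu', lowerUni_pow, ZMod.natCast_zmod_val, mul_assoc, Units.inv_mul,
        mul_one]⟩
  have hG : ∀ a b c d : ZMod (2 ^ (m + 1)), a * d - b * c = 1 → IsUnit c → Good !![a, b; c, d] := by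
    intro a b c d h hc
    obtain ⟨e, he⟩ := hc.exists_left_inv
    rw [eq_uni_product he h]
    exact hGmul (hGmul (hGu _) (hGl _)) (hGu _)
  set A := M (ρ g)
  rw [hdet, Matrix.det_fin_two] at hg
  obtain ⟨w, hw, hwA⟩ : Good A := by
    rw [A.eta_fin_two]
    set π := ZMod.castHom (dvd_pow_self 2 m.succ_ne_zero) (ZMod 2)
    have key : ∀ z : ZMod 2, z = 0 ∨ z = 1 := by decide
    rcases key (π (A 1 0)) with h0 | h0
    swap
    · exact hG _ _ _ _ hg (isUnit_of_cast_eq_one (by omega) h0)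
    have e : !![A 0 0, A 0 1; A 1 0, A 1 1] =
        lowerUni (-1) * !![A 0 0, A 0 1; A 1 0 + A 0 0, A 1 1 + A 0 1] := by
      simp [lowerUni]
    rw [e]
    refine hGmul (hGl _) (hG _ _ _ _ (by linear_combination hg)
      (isUnit_of_cast_eq_one (by omega) ?_))
    have := congrArg π hg
    rw [map_sub, map_mul, map_mul, h0, mul_zero, sub_zero, map_one] at this
    change π (A 1 0 + A 0 0) = 1
    rw [map_add, h0, zero_add]
    rcases key (π (A 0 0)) with e | e
    · rw [e, zero_mul] at this; exact absurd this zero_ne_one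
    · exact e
  exact ⟨w, hw, M.injective hwA.symm⟩

end Frame

end Fermat.Agent.Root.Selmer
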