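import Fermat.Agent.Root.Selmer.Group
import Fermat.Agent.Root.Selmer.Local
import Fermat.Agent.Root.Selmer.Unipotent
import Fermat.Agent.Multiplicative.Inertia
import Fermat.Agent.Gal.Tame

/-!
# Nontrivial classes survive in `ℚ(E[2ⁿ], μ_{2ⁿ})`

For a nontrivial class some element fixing `E[2ⁿ]` and `μ_{2ⁿ}` negates a square root
(`exists_moving`).
-/

set_option autoImplicit false

noncomputable section

namespace Fermat.Agent.Root.Selmer

open WeierstrassCurve WeierstrassCurve.Affine.Point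
open Fermat.Agent.Duality Fermat.Agent.Duality.Places
open scoped WeierstrassCurve.Affine Pointwise

local notation "ℚbar" => AlgebraicClosure ℚ
local notation "Γ" => AlgebraicClosure ℚ ≃ₐ[ℚ] AlgebraicClosure ℚ

/-- Inertia fixes roots of unity of order prime to the residue characteristic. -/
theorem inertia_apply_rootOfUnity {ℓ : ℕ} (hℓ : ℓ.Prime) {A : ValuationSubring ℚbar}
    (hA : A.LiesOverPrime ℓ) {l : ℕ} (hl : ¬ ℓ ∣ l) {u : Γ} (hu : u ∈ A.inertiaSubgroupIn ℚ)
    {ζ : ℚbar} (hζ : ζ ^ l = 1) : u ζ = ζ := by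
  have hl0 : 0 < l := Nat.pos_of_ne_zero fun h => hl (h ▸ dvd_zero ℓ)
  have hne : ζ ≠ 0 := fun h => by simp [h, zero_pow hl0.ne'] at hζ
  have hint : IsIntegral ℤ ζ := IsIntegral.of_pow hl0 (by rw [hζ]; exact isIntegral_one)
  have hint' : IsIntegral ℤ ζ⁻¹ :=
    IsIntegral.of_pow hl0 (by rw [inv_pow, hζ, inv_one]; exact isIntegral_one)
  have hmem : u ζ / ζ - 1 ∈ A.nonunits := by
    rw [div_sub_one hne, div_eq_mul_inv]
    exact Gal.mul_mem_nonunits_left A ((Gal.mem_inertia_iff A u).1 hu |>.2 _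
      (Gal.mem_of_isIntegral A hint)) (Gal.mem_of_isIntegral A hint')
  have h := Gal.Tame.eq_one_of_pow_eq_one hℓ hA hl (z := u ζ / ζ)
    (by rw [div_pow, ← map_pow, hζ, map_one, div_one]) hmem
  rwa [div_eq_one_iff_eq hne] at h

/-- At an odd prime of odd valuation inertia moves the square root of the discriminant. -/
theorem exists_inertia_notMem {W : WeierstrassCurve ℤ} (hne : W.Δ ≠ 0) {ℓ : ℕ} [Fact ℓ.Prime]
    (hodd : Odd (padicValInt ℓ W.Δ)) :
    ∃ u ∈ (padicPlace ℓ).inertiaSubgroupIn ℚ, u ∉ discGroup W := by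
  by_contra h
  push Not at h
  let N := IntermediateField.normalClosure ℚ (discField W) ℚbar
  have : FiniteDimensional ℚ N := normalClosure.is_finiteDimensional ℚ _ _
  have : Normal ℚ N := normalClosure.normal ℚ _ _
  have : IsGalois ℚ N := ⟨⟩
  have : NumberField N := ⟨⟩
  have hN : ∀ u ∈ (padicPlace ℓ).inertiaSubgroupIn ℚ, ∀ y ∈ N, u y = y := by
    intro u hu y hy
    have hle : N ≤ IntermediateField.fixedField (Subgroup.zpowers u) := by
      rw [show N = ⨆ g : Γ, (discField W).map g.toAlgHom from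
        IntermediateField.normalClosure_def'' _]
      refine iSup_le fun g => ?_
      rw [discField, IntermediateField.adjoin_map, Set.image_singleton,
        IntermediateField.adjoin_simple_le_iff]
      rintro ⟨u', hu'⟩
      obtain ⟨j, rfl⟩ := Subgroup.mem_zpowers_iff.mp hu'
      show (u ^ j) (g (sqrtDisc W)) = g (sqrtDisc W)
      have hs : u (sqrtDisc W) = sqrtDisc W :=
        (IntermediateField.mem_fixingSubgroup_iff _ _).mp (h u hu) _
          (IntermediateField.subset_adjoin ℚ _ rfl)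
      have huw : u (g (sqrtDisc W)) = g (sqrtDisc W) := by
        have hsq : g (sqrtDisc W) ^ 2 = sqrtDisc W ^ 2 := by
          rw [← map_pow, sqrtDisc_sq, map_intCast]
        rcases sq_eq_sq_iff_eq_or_eq_neg.mp hsq with e | e <;> rw [e] <;> simp [hs]
      exact (MulAction.mem_stabilizer_iff (a := g (sqrtDisc W))).1
        (zpow_mem (show u ∈ MulAction.stabilizer Γ (g (sqrtDisc W)) from huw) j)
    exact hle hy ⟨u, Subgroup.mem_zpowers u⟩
  obtain ⟨m, hm⟩ := exists_norm_embedding_eq_zpow ℓ N hN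
    ((discField W).le_normalClosure (IntermediateField.subset_adjoin ℚ _ rfl))
    (x := sqrtDisc W) (fun h0 => hne (by
      have := sqrtDisc_sq W
      rw [h0, zero_pow two_ne_zero, eq_comm] at this
      exact_mod_cast this))
  have h2 : ‖padicEmbedding ℓ (sqrtDisc W)‖ ^ 2 = ‖((W.Δ : ℤ) : ℚ_[ℓ])‖ := by
    rw [← norm_pow, ← map_pow, sqrtDisc_sq, map_intCast,
      ← map_intCast (algebraMap ℚ_[ℓ] (PadicAlgCl ℓ)),
      PadicAlgCl.norm_extends]
  rw [hm, Padic.norm_eq_zpow_neg_valuation (by exact_mod_cast hne), Padic.valuation_intCast,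
    ← zpow_natCast, ← zpow_mul] at h2
  have hℓ1 : (1 : ℝ) < ℓ := by exact_mod_cast (Fact.out : ℓ.Prime).one_lt
  have h3 := zpow_right_injective₀ (by linarith) hℓ1.ne' h2
  obtain ⟨j, hj⟩ := hodd
  omega

theorem exists_swap_of_fix : ∀ (p : Equiv.Perm (Fin 3)) (j : Fin 3), p j = j →
    Equiv.Perm.sign p ≠ 1 → ∃ k i, i ≠ j ∧ i ≠ k ∧ j ≠ k ∧ p = Equiv.swap i k := by decide

theorem eq_swap_of_fix : ∀ (i j k : Fin 3), i ≠ j → i ≠ k → j ≠ k → ∀ (p : Equiv.Perm (Fin 3)),
    p i = i → Equiv.Perm.sign p ≠ 1 → p = Equiv.swap j k := by decide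

theorem three_cases : ∀ (i j k : Fin 3), i ≠ j → i ≠ k → j ≠ k →
    (∀ a, a = i ∨ a = j ∨ a = k) ∧ (Finset.univ : Finset (Fin 3)) = {i, j, k} ∧
      ∀ a : Fin 3, a = 0 ∨ (Equiv.swap i k * Equiv.swap j k) 0 = a ∨
        (Equiv.swap i k * Equiv.swap j k * (Equiv.swap i k * Equiv.swap j k)) 0 = a := by decide

namespace Frame

variable {W : WeierstrassCurve ℤ} {R : Frame W}

/-- The transported local condition: the decomposition group at `A` fixes the square roots of the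
conjugate at its fixed root. -/
theorem loc_transport (T : R.Rot) {ℓ : ℕ} {x : R.fld} (hx : LocSq R ℓ x)
    {A : ValuationSubring ℚbar} (hA : A.LiesOverPrime ℓ) {j : Fin 3}
    (hj : ∀ g ∈ A.decompositionSubgroup ℚ, g (R.e j) = R.e j) {t : ℚbar} (ht : t ^ 2 = cel T j x)
    {d : Γ} (hd : d ∈ A.decompositionSubgroup ℚ) : d t = t := by
  obtain ⟨g, -, hg⟩ := R.exists_move T j
  have hD : (g⁻¹ • A).decompositionSubgroup ℚ ≤ R.stab := by
    intro e he
    rw [mem_decomposition_smul_iff, inv_inv] at he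
    refine R.mem_stab.mpr (g.injective ?_)
    have := hj _ he
    rw [← hg, AlgEquiv.mul_apply, AlgEquiv.mul_apply, AlgEquiv.aut_inv,
      AlgEquiv.symm_apply_apply] at this
    exact this
  have hs : (g.symm t) ^ 2 = (x : ℚbar) := by
    rw [← map_pow, ht, cel_eq T hg, AlgEquiv.symm_apply_apply]
  have hd' : g⁻¹ * d * g ∈ (g⁻¹ • A).decompositionSubgroup ℚ := by
    rw [mem_decomposition_smul_iff, inv_inv]
    simpa [mul_assoc] using hd
  have := congrArg g (hx _ (Gal.liesOverPrime_smul g⁻¹ hA) hD _ hs _ hd')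
  rwa [AlgEquiv.mul_apply, AlgEquiv.mul_apply, AlgEquiv.aut_inv, AlgEquiv.apply_symm_apply,
    AlgEquiv.apply_symm_apply] at this

/-- An element moving the square root and fixing `E[2ⁿ]` and the roots of unity. -/
theorem exists_moving (hW : GenusCurve W) (T : R.Rot) {Q : Finset ℕ} {x : R.fldˣ}
    (hx : x ∈ sel T Q) (hx' : x ∉ R.squares) {n : ℕ} (hn : 1 ≤ n) {s : ℚbar}
    (hs : s ^ 2 = (x : R.fld)) :
    ∃ m : Γ, (∀ P : ((W.map (Int.castRingHom ℚ))⁄ℚbar).Point, 2 ^ n • P = 0 → m • P = P) ∧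
      (∀ ζ : ℚbar, ζ ^ (2 ^ n) = 1 → m ζ = ζ) ∧ m s = -s := by
  by_contra hcon
  push Not at hcon
  set E := (W.map (Int.castRingHom ℚ)).toAffine
  set ρ := galoisRepModuleEnd (K := ℚbar) ℚ E (2 ^ n)
  have hρfix : ∀ g : Γ, ρ g = 1 → ∀ P : (E⁄ℚbar).Point, 2 ^ n • P = 0 → g • P = P :=
    fun g hg P hP =>
    congrArg Subtype.val (LinearMap.congr_fun hg
      ⟨P, (EC.Torsion.mem_torsionBy_iff_nsmul E ℚbar P).mpr hP⟩)
  -- elements fixing torsion and roots of unity fix all the square roots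
  let Gn : Γ → Prop := fun m => ρ m = 1 ∧ ∀ ζ : ℚbar, ζ ^ (2 ^ n) = 1 → m ζ = ζ
  have hGnperm : ∀ m, Gn m → R.perm m = 1 := fun m hm => Equiv.ext fun i => by
    have h := hρfix m hm.1 (R.point i) (by
      obtain ⟨m', rfl⟩ : ∃ m', n = m' + 1 := ⟨n - 1, by omega⟩
      rw [pow_succ', mul_nsmul, R.two_nsmul_point, nsmul_zero])
    rw [R.smul_point] at h
    exact R.point_injective h
  have hGnconj : ∀ (g : Γ) m, Gn m → Gn (g⁻¹ * m * g) := fun g m hm =>
    ⟨by rw [map_mul, map_mul, hm.1, mul_one, ← map_mul, inv_mul_cancel, map_one], fun ζ hζ => by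
      rw [AlgEquiv.mul_apply, AlgEquiv.mul_apply, hm.2 _ (by rw [← map_pow, hζ, map_one]),
        AlgEquiv.aut_inv, AlgEquiv.symm_apply_apply]⟩
  have hGns : ∀ m, Gn m → m s = s := fun m hm => by
    have hst : m ∈ R.stab := R.mem_stab_iff_perm.mpr (by rw [hGnperm m hm]; rfl)
    have hsq : m s ^ 2 = s ^ 2 := by rw [← map_pow, hs, R.apply_eq_self hst]
    exact (sq_eq_sq_iff_eq_or_eq_neg.mp hsq).resolve_right (hcon m (hρfix m hm.1) hm.2)
  have hGnt : ∀ m, Gn m → ∀ (a : Fin 3) (t : ℚbar), t ^ 2 = cel T a (x : R.fld) → m t = t := by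
    intro m hm a t ht
    obtain ⟨g, -, hg⟩ := R.exists_move T a
    have h := congrArg g (hGns _ (hGnconj g m hm))
    rw [AlgEquiv.mul_apply, AlgEquiv.mul_apply, AlgEquiv.aut_inv, AlgEquiv.apply_symm_apply] at h
    rw [cel_eq T hg, ← hs, map_pow] at ht
    rcases sq_eq_sq_iff_eq_or_eq_neg.mp ht with rfl | rfl
    · exact h
    · rw [map_neg, h]
  -- the prime
  obtain ⟨q, -, hq, -, -, hq12, -, hqΔ, -⟩ := hW.split_bad
  have : Fact q.Prime := ⟨hq⟩
  have hq2 : q ≠ 2 := by omega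
  have hodd := hW.odd_val q hq hqΔ
  set A := padicPlace q
  have hA : A.LiesOverPrime q := liesOverPrime_padicPlace q
  obtain ⟨u, huI, hud⟩ := exists_inertia_notMem hW.neg.ne hodd
  have huD : u ∈ A.decompositionSubgroup ℚ := ((Gal.mem_inertia_iff A u).1 huI).1
  obtain ⟨j, hj⟩ := R.exists_padic_root hW.ss hqΔ
  -- a second element
  obtain ⟨k, i, hij, hik, hjk, hu⟩ : ∃ k i, i ≠ j ∧ i ≠ k ∧ j ≠ k ∧ R.perm u = Equiv.swap i k := by
    have h1 : R.perm u j = j := R.perm_eq_iff.mpr (hj u huD)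
    have h2 : Equiv.Perm.sign (R.perm u) ≠ 1 := fun h => hud ((R.mem_disc_iff u).mpr h)
    exact exists_swap_of_fix _ _ h1 h2
  obtain ⟨v, hvd, hv⟩ : ∃ v : Γ, v ∈ discGroup W ∧ R.perm v j = i := by
    have key : ∀ a b : Fin 3, ∃ l : Fin 3,
        ((Equiv.swap 0 1 * Equiv.swap 1 2) ^ (l : ℕ) : Equiv.Perm (Fin 3)) a = b := by decide
    obtain ⟨l, hl⟩ := key j i
    exact ⟨T.σ ^ (l : ℕ), pow_mem T.mem _, by
      rw [map_pow, R.perm_rot T.mem T.map_zero, hl]⟩
  set u' := v * u * v⁻¹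
  set A' := v • A
  have hA' : A'.LiesOverPrime q := Gal.liesOverPrime_smul v hA
  have hu'I : u' ∈ A'.inertiaSubgroupIn ℚ := Gal.conj_mem_inertia huI v
  have hj' : ∀ g ∈ A'.decompositionSubgroup ℚ, g (R.e i) = R.e i := fun g hg => by
    have := congrArg v (hj _ (mem_decomposition_smul_iff.mp hg))
    rwa [AlgEquiv.mul_apply, AlgEquiv.mul_apply, AlgEquiv.aut_inv, AlgEquiv.apply_symm_apply,
      R.apply_e v j, hv] at this
  have hu' : R.perm u' = Equiv.swap j k := by
    have h1 : R.perm u' i = i :=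
      R.perm_eq_iff.mpr (hj' u' ((Gal.mem_inertia_iff A' u').1 hu'I).1)
    have h2 : Equiv.Perm.sign (R.perm u') ≠ 1 := by
      rw [show R.perm u' = R.perm v * R.perm u * (R.perm v)⁻¹ by simp [u', map_mul, map_inv],
        map_mul, map_mul, map_inv, mul_inv_cancel_comm, hu, Equiv.Perm.sign_swap hik]
      decide
    exact eq_swap_of_fix i j k hij hik hjk _ h1 h2
  have hn2 : ¬ q ∣ 2 ^ n := fun h =>
    hq2 ((Nat.prime_dvd_prime_iff_eq hq Nat.prime_two).1 (hq.dvd_of_dvd_pow h))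
  have hmult : ∀ B : ValuationSubring ℚbar, B.LiesOverPrime q → Multiplicative.MultAt W B q :=
    fun B hB => ⟨hq, hB, hqΔ, hW.ss q hq hqΔ, hW.neg.ne⟩
  have huni := fun P hP => (hmult A hA).smul_smul_sub hn2 huI (P := P) hP
  have huni' := fun P hP => (hmult A' hA').smul_smul_sub hn2 hu'I (P := P) hP
  obtain ⟨hdu, hdu', hgen⟩ := R.exists_closure_eq hn hij hik hjk hu hu' huni huni'
  -- signed square roots
  obtain ⟨rj, hrj⟩ := IsAlgClosed.exists_pow_nat_eq (cel T j (x : R.fld)) (n := 2) two_pos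
  obtain ⟨ri, hri⟩ : ∃ ri, ri = u (u' rj) := ⟨_, rfl⟩
  set rk := u' rj with hrk
  have hrk2 : rk ^ 2 = cel T k (x : R.fld) := by
    rw [hrk, ← map_pow, hrj, apply_cel, hu', Equiv.swap_apply_left]
  have hri2 : ri ^ 2 = cel T i (x : R.fld) := by
    rw [hri, ← map_pow, hrk2, apply_cel, hu, Equiv.swap_apply_right]
  have hurj : u rj = rj := loc_transport T (hx.loc q hq (Or.inr hqΔ)) hA hj hrj huD
  have hu'ri : u' ri = ri := loc_transport T (hx.loc q hq (Or.inr hqΔ)) hA' hj' hri2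
    ((Gal.mem_inertia_iff A' u').1 hu'I).1
  obtain ⟨c, hc⟩ := hx.norm
  let r : Fin 3 → ℚbar := fun a => if a = j then rj else if a = k then rk else ri
  have hrj' : r j = rj := if_pos rfl
  have hrk' : r k = rk := by simp [r, hjk.symm]
  have hri' : r i = ri := by simp [r, hij, hik]
  obtain ⟨hall, huniv, hcyc⟩ := three_cases i j k hij hik hjk
  have hr2 : ∀ a, r a ^ 2 = cel T a (x : R.fld) := fun a => by
    rcases hall a with rfl | rfl | rfl
    · rw [hri', hri2]
    · rw [hrj', hrj]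
    · rw [hrk', hrk2]
  have hr0 : ∀ a, r a ≠ 0 := fun a h => cel_ne_zero T a x.ne_zero (by rw [← hr2, h]; simp)
  have hprod : ∏ a, r a = ri * rj * rk := by
    rw [huniv, Finset.prod_insert (by simp [hij, hik]), Finset.prod_pair hjk, hri', hrj',
      hrk', mul_assoc]
  have hP : ∀ g : Γ, g (∏ a, r a) = ∏ a, r a := by
    intro g
    have hsq : (∏ a, r a) ^ 2 = algebraMap ℚ ℚbar c ^ 2 := by
      rw [← Finset.prod_pow, Finset.prod_congr rfl fun a _ => hr2 a, hc]
    rcases sq_eq_sq_iff_eq_or_eq_neg.mp hsq with e | e <;> rw [e] <;> simp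
  have hnz : ∀ {a b : Fin 3}, r a * r b ≠ 0 := fun {a b} => mul_ne_zero (hr0 a) (hr0 b)
  let S : Subgroup Γ :=
    { carrier := {g | ∀ a, g (r a) = r (R.perm g a)}
      one_mem' := fun a => by simp
      mul_mem' := fun {g h} hg hh a => by
        rw [AlgEquiv.mul_apply, hh a, hg, map_mul, Equiv.Perm.mul_apply]
      inv_mem' := fun {g} hg a => by
        apply g.injective
        rw [hg, ← Equiv.Perm.mul_apply, ← map_mul, mul_inv_cancel, map_one, Equiv.Perm.one_apply]
        exact g.apply_symm_apply _ }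
  have hu'rk : u' rk = rj := by
    have h := hP u'
    rw [hprod, map_mul, map_mul, hu'ri, ← hrk] at h
    have h0 : ri * rk ≠ 0 := by rw [← hri', ← hrk']; exact hnz
    exact mul_left_cancel₀ h0 (by linear_combination h)
  have huri : u ri = rk := by
    have h := hP u
    rw [hprod, map_mul, map_mul, hurj, ← hri] at h
    have h0 : ri * rj ≠ 0 := by rw [← hri', ← hrj']; exact hnz
    exact mul_left_cancel₀ h0 (by linear_combination h)
  have huS : u ∈ S := fun a => by
    rcases hall a with rfl | rfl | rfl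
    · rw [hu, Equiv.swap_apply_left, hri', hrk', huri]
    · rw [hu, Equiv.swap_apply_of_ne_of_ne hij.symm hjk, hrj', hurj]
    · rw [hu, Equiv.swap_apply_right, hri', hrk', hri]
  have hu'S : u' ∈ S := fun a => by
    rcases hall a with rfl | rfl | rfl
    · rw [hu', Equiv.swap_apply_of_ne_of_ne hij hik, hri', hu'ri]
    · rw [hu', Equiv.swap_apply_left, hrj', hrk']
    · rw [hu', Equiv.swap_apply_right, hrj', hrk', hu'rk]
  have huμ : ∀ ζ : ℚbar, ζ ^ (2 ^ n) = 1 → u ζ = ζ := fun ζ hζ =>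
    inertia_apply_rootOfUnity hq hA hn2 huI hζ
  have hu'μ : ∀ ζ : ℚbar, ζ ^ (2 ^ n) = 1 → u' ζ = ζ := fun ζ hζ =>
    inertia_apply_rootOfUnity hq hA' hn2 hu'I hζ
  -- the normal subgroup
  let N : Γ → Prop := fun g => LinearMap.det (ρ g) = 1 ∧ ∀ ζ : ℚbar, ζ ^ (2 ^ n) = 1 → g ζ = ζ
  have hNS : ∀ g, N g → g ∈ S := by
    intro g hg
    obtain ⟨w, hw, hwg⟩ := hgen g hg.1
    have hwS : w ∈ S := (Subgroup.closure_le S).mpr
      (Set.insert_subset huS (Set.singleton_subset_iff.mpr hu'S)) hw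
    have hwμ : ∀ ζ : ℚbar, ζ ^ (2 ^ n) = 1 → w ζ = ζ := fun ζ hζ =>
      ((Subgroup.closure_le (MulAction.stabilizer Γ ζ)).mpr
        (Set.insert_subset (huμ ζ hζ) (Set.singleton_subset_iff.mpr (hu'μ ζ hζ))) hw : _)
    have hm : Gn (w⁻¹ * g) :=
      ⟨by rw [map_mul, hwg, ← map_mul, inv_mul_cancel, map_one], fun ζ hζ => by
      apply w.injective
      rw [AlgEquiv.mul_apply, AlgEquiv.aut_inv, AlgEquiv.apply_symm_apply, hg.2 ζ hζ, hwμ ζ hζ]⟩
    have hmS : w⁻¹ * g ∈ S := fun a => by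
      rw [hGnperm _ hm, Equiv.Perm.one_apply]
      exact hGnt _ hm a _ (hr2 a)
    simpa using mul_mem hwS hmS
  have hNconj : ∀ g m, N m → N (g * m * g⁻¹) := fun g m hm => by
    refine ⟨?_, fun ζ hζ => ?_⟩
    · rw [map_mul, map_mul, map_mul, map_mul, hm.1, mul_one, ← map_mul, ← map_mul, mul_inv_cancel,
        map_one, map_one]
    · rw [AlgEquiv.mul_apply, AlgEquiv.mul_apply, hm.2 _ (by rw [← map_pow, hζ, map_one]),
        AlgEquiv.aut_inv, AlgEquiv.apply_symm_apply]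
  have hNmul : ∀ {g h}, N g → N h → N (g * h) := fun {g h} hg hh => by
    refine ⟨by rw [map_mul, map_mul, hg.1, hh.1, one_mul], fun ζ hζ => ?_⟩
    rw [AlgEquiv.mul_apply, hh.2 ζ hζ, hg.2 ζ hζ]
  have hNu : N (u * u') := hNmul ⟨hdu, huμ⟩ ⟨hdu', hu'μ⟩
  have hN1 : N 1 := ⟨by rw [map_one, map_one], fun ζ _ => rfl⟩
  have htrans : ∀ a, ∃ m, N m ∧ R.perm m 0 = a := by
    intro a
    have h3 : ∀ a : Fin 3, a = 0 ∨ R.perm (u * u') 0 = a ∨ R.perm (u * u' * (u * u')) 0 = a := by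
      simpa only [map_mul, hu, hu'] using hcyc
    rcases h3 a with rfl | h | h
    · exact ⟨1, hN1, by simp⟩
    · exact ⟨_, hNu, h⟩
    · exact ⟨_, hNmul hNu hNu, h⟩
  -- every element permutes the signed roots
  have hS : ∀ g, g ∈ S := by
    intro g
    obtain ⟨ε, hε, hεg⟩ : ∃ ε : ℚbar, (ε = 1 ∨ ε = -1) ∧ g (r 0) = ε * r (R.perm g 0) := by
      have hsq : g (r 0) ^ 2 = r (R.perm g 0) ^ 2 := by rw [← map_pow, hr2, hr2, apply_cel]
      rcases sq_eq_sq_iff_eq_or_eq_neg.mp hsq with e | e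
      · exact ⟨1, Or.inl rfl, by rw [e, one_mul]⟩
      · exact ⟨-1, Or.inr rfl, by rw [e, neg_one_mul]⟩
    have hεall : ∀ a, g (r a) = ε * r (R.perm g a) := by
      intro a
      obtain ⟨m, hm, rfl⟩ := htrans a
      have h1 := hNS _ (hNconj g m hm) (R.perm g 0)
      have h2 := hNS m hm 0
      calc g (r (R.perm m 0)) = g (m (r 0)) := by rw [h2]
        _ = (g * m * g⁻¹) (g (r 0)) := by
            rw [AlgEquiv.mul_apply, AlgEquiv.mul_apply, AlgEquiv.aut_inv, AlgEquiv.symm_apply_apply]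
        _ = ε * r (R.perm g (R.perm m 0)) := by
            rw [hεg, map_mul (g * m * g⁻¹) ε, h1]
            congr 1
            · rcases hε with rfl | rfl <;> simp
            · simp [map_mul, map_inv, Equiv.Perm.mul_apply]
    have hε1 : ε = 1 := by
      have h := hP g
      rw [map_prod, Finset.prod_congr rfl fun a _ => hεall a, Finset.prod_mul_distrib,
        Equiv.prod_comp (R.perm g) r, Finset.prod_const, Finset.card_univ, Fintype.card_fin,
        mul_eq_right₀ (Finset.prod_ne_zero_iff.mpr fun a _ => hr0 a)] at h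
      rcases hε with e | e
      · exact e
      · rw [e] at h; norm_num at h
    intro a
    rw [hεall a, hε1, one_mul]
  refine hx' (mem_squares_of_fixed (s := r 0) (by rw [hr2, cel_zero]) fun g hg => ?_)
  rw [hS g 0, R.mem_stab_iff_perm.mp hg]

end Frame

end Fermat.Agent.Root.Selmer
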