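import Fermat.Agent.Root.Selmer.Even
import Fermat.Agent.Root.Selmer.Inflate
import Fermat.Agent.Duality.Global.Two.Reciprocity

/-!
# The local conditions are isotropic

The Hilbert symbols of two elements with the local conditions vanish at every place with such a
condition and at the real places.
-/

set_option autoImplicit false

noncomputable section

namespace Fermat.Agent.Root.Selmer

open IsDedekindDomain NumberField WithZero IntermediateField
open Fermat.Agent.Duality Fermat.Agent.Duality.Places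
open Fermat.Agent.Duality.Global (localPow unitsAt congrOne)
open Fermat.Agent.Duality.Global.Two (hil hilb hilbInf ordPar sqLoc)
open scoped Pointwise

local notation "ℚbar" => AlgebraicClosure ℚ
local notation "Γ" => AlgebraicClosure ℚ ≃ₐ[ℚ] AlgebraicClosure ℚ

section symbols

variable {F : Type} [Field F] [NumberField F]

theorem ordPar_eq_zero_of_localPow {v : HeightOneSpectrum (𝓞 F)} {y : Fˣ}
    (h : y ∈ localPow v 2) : ordPar v y = 0 := by
  rw [localPow, Subgroup.mem_iInf] at h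
  obtain ⟨_, ⟨z, rfl⟩, c, hc, rfl⟩ := Subgroup.mem_sup.1 (h 1)
  rw [powMonoidHom_apply, Global.Two.ordPar_mul, pow_two, Global.Two.ordPar_mul,
    Global.Two.ordPar_eq_zero_of_unit (Global.congrOne_le_unitsAt v 1 hc), add_zero]
  exact CharTwo.add_self_eq_zero _

open Classical in
/-- The symbol with an argument of even valuation, prime to two. -/
theorem hil_of_even {v : HeightOneSpectrum (𝓞 F)} (h2 : v.valuation F (2 : F) = 1) (a : Fˣ)
    {b : Fˣ} (hb : ordPar v b = 0) :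
    hil (.inl v) a b = if b ∈ localPow v 2 then 0 else ordPar v a := by
  obtain ⟨π, hπ⟩ := v.valuation_exists_uniformizer F
  have hπ0 : π ≠ 0 := fun h => by rw [h, map_zero] at hπ; exact exp_ne_zero hπ.symm
  rw [Global.Two.ordPar, ZMod.intCast_zmod_eq_zero_iff_dvd] at hb
  obtain ⟨k, hk⟩ := hb
  set w : Fˣ := (Units.mk0 π hπ0) ^ k
  have hu : b * w ^ 2 ∈ unitsAt v := by
    rw [Global.mem_unitsAt, Units.val_mul, Units.val_pow_eq_pow_val, Units.val_zpow_eq_zpow_val,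
      Units.val_mk0, map_mul, map_pow, map_zpow₀, hπ, ← exp_zsmul, ← exp_nsmul,
      ← exp_log (show v.valuation F (b : F) ≠ 0 by simp), ← exp_add, ← exp_zero, hk]
    congr 1
    simp
  have hw : w ^ 2 ∈ localPow v 2 := Global.range_pow_le_localPow v 2 ⟨w, rfl⟩
  have h := Global.Two.hil_eq_ordPar h2 a hu
  rw [Global.Two.hil_mul_right, Global.Two.hil_eq_zero_of_right (p := .inl v) a hw, add_zero,
    Subgroup.mul_mem_cancel_right _ hw] at h
  exact h

theorem hil_even_even {v : HeightOneSpectrum (𝓞 F)} (h2 : v.valuation F (2 : F) = 1) {a b : Fˣ}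
    (ha : ordPar v a = 0) (hb : ordPar v b = 0) : hil (.inl v) a b = 0 := by
  rw [hil_of_even h2 a hb]
  split_ifs <;> first | rfl | exact ha

end symbols

theorem valuation_two_eq_one {F : Type} [Field F] [NumberField F] {ℓ : ℕ} (hℓ : ℓ.Prime)
    (hℓ2 : ℓ ≠ 2) (v : HeightOneSpectrum (𝓞 F)) (hv : (ℓ : 𝓞 F) ∈ v.asIdeal) :
    v.valuation F (2 : F) = 1 := by
  refine le_antisymm ?_ (not_lt.mp fun h => ?_)
  · rw [← map_ofNat (algebraMap (𝓞 F) F) 2]
    exact v.valuation_le_one _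
  · rw [← map_ofNat (algebraMap (𝓞 F) F) 2, v.valuation_lt_one_iff_mem] at h
    obtain ⟨k, hk⟩ := hℓ.odd_of_ne_two hℓ2
    refine v.isPrime.ne_top ((Ideal.eq_top_iff_one _).mpr ?_)
    have h1 := sub_mem hv (v.asIdeal.mul_mem_right (k : 𝓞 F) h)
    rwa [hk, show ((2 * k + 1 : ℕ) : 𝓞 F) - 2 * (k : 𝓞 F) = 1 by push_cast; ring] at h1

namespace Frame

variable {W : WeierstrassCurve ℤ} {R : Frame W}

theorem unique_fixed {A : ValuationSubring ℚbar}
    (hn : ∃ g ∈ A.decompositionSubgroup ℚ, g ∉ discGroup W)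
    {a b : Fin 3} (ha : ∀ g ∈ A.decompositionSubgroup ℚ, g (R.e a) = R.e a)
    (hb : ∀ g ∈ A.decompositionSubgroup ℚ, g (R.e b) = R.e b) : a = b := by
  obtain ⟨g, hg, hg'⟩ := hn
  obtain ⟨i, -, hu⟩ := existsUnique_fix (p := R.perm g) fun h => hg' ((R.mem_disc_iff g).mpr h)
  rw [hu a (R.perm_eq_iff.mpr (ha g hg)), hu b (R.perm_eq_iff.mpr (hb g hg))]

section

variable {ℓ : ℕ} [Fact ℓ.Prime]

local notation "Ω" => PadicAlgCl ℓ
local notation "ι" => padicEmbedding ℓ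
local notation "D₀" => ValuationSubring.decompositionSubgroup ℚ (padicPlace ℓ)

theorem embAt_eq_cel (T : R.Rot) {g : Γ} {a : Fin 3} (hg : g (R.e 0) = R.e a) (x : R.fld) :
    R.embAt (ℓ := ℓ) g x = ι (cel T a x) := by rw [R.embAt_apply, cel_eq T hg]

/-- Degree one: local squares. -/
theorem exists_sq_of_locSq (T : R.Rot) {g : Γ} (hfix : ∀ d ∈ D₀, d (g (R.e 0)) = g (R.e 0))
    {x : R.fld} (hx : LocSq R ℓ x) :
    ∃ z ∈ locField ℓ (R.embAt g), z ^ 2 = R.embAt (ℓ := ℓ) g x := by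
  obtain ⟨a, ha⟩ := R.exists_apply g 0
  obtain ⟨t, ht⟩ := IsAlgClosed.exists_pow_nat_eq (cel T a x) (n := 2) two_pos
  rw [ha] at hfix
  have hD : ∀ d ∈ D₀, d t = t := fun d hd =>
    loc_transport T hx (liesOverPrime_padicPlace ℓ) hfix ht hd
  obtain ⟨z, hz⟩ := (fixed_iff_mem_range ℓ t).mp hD
  refine ⟨ι t, ?_, by rw [embAt_eq_cel T ha, ← ht, map_pow]⟩
  rw [← hz]
  exact IntermediateField.algebraMap_mem _ z

/-- Degree one: a local square gives the condition. -/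
theorem locSq_of_sq {g : Γ} (hn : ∃ d ∈ D₀, d ∉ discGroup W)
    (hfix : ∀ d ∈ D₀, d (g (R.e 0)) = g (R.e 0)) {x : R.fld} {z : Ω}
    (hz : z ∈ locField ℓ (R.embAt g)) (hzx : z ^ 2 = R.embAt (ℓ := ℓ) g x) : LocSq R ℓ x := by
  intro A hA hD s hs d hd
  obtain ⟨h, rfl⟩ := exists_smul_padicPlace_eq ℓ hA
  have hbot : locField ℓ (R.embAt (ℓ := ℓ) g) ≤ ⊥ := by
    refine IntermediateField.adjoin_le_iff.mpr ?_
    rintro _ ⟨y, rfl⟩
    refine IntermediateField.mem_bot.mpr ((fixed_iff_mem_range ℓ (g (y : ℚbar))).mp fun d hd => ?_)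
    exact R.apply_eq_apply (g := d * g) (g' := g) (hfix d hd) y
  obtain ⟨z', rfl⟩ := IntermediateField.mem_bot.mp (hbot hz)
  set t := h⁻¹ s
  obtain ⟨a, ha⟩ := R.exists_apply g 0
  obtain ⟨b, hb⟩ := R.exists_apply h⁻¹ 0
  have hab : b = a := by
    refine unique_fixed hn (fun e he => ?_) (by rw [← ha]; exact hfix)
    have := R.mem_stab.mp (hD (conj_mem_decomposition he h))
    rw [AlgEquiv.mul_apply, AlgEquiv.mul_apply] at this
    rw [← hb]
    calc e (h⁻¹ (R.e 0)) = h⁻¹ (h (e (h⁻¹ (R.e 0)))) := by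
          rw [AlgEquiv.aut_inv, AlgEquiv.symm_apply_apply]
      _ = h⁻¹ (R.e 0) := by rw [this]
  have ht : t ^ 2 = g (x : ℚbar) := by
    rw [← map_pow, hs, R.apply_eq_apply (g := h⁻¹) (g' := g) (by rw [hb, ha, hab]) x]
  have hmem : ι t ∈ Set.range (algebraMap ℚ_[ℓ] Ω) := by
    have h2 : ι t ^ 2 = algebraMap ℚ_[ℓ] Ω z' ^ 2 := by
      rw [hzx, R.embAt_apply, ← ht, map_pow]
    rcases sq_eq_sq_iff_eq_or_eq_neg.mp h2 with e | e
    · exact ⟨z', e.symm⟩
    · exact ⟨-z', by rw [map_neg, e]⟩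
  have := congrArg h ((fixed_iff_mem_range ℓ t).mpr hmem _ (mem_decomposition_smul_iff.mp hd))
  simpa [t, AlgEquiv.aut_inv] using this

/-- The facts at a quadratic place. -/
structure QuadPlace (g : Γ) where
  j : Fin 3
  a : Fin 3
  b : Fin 3
  d : Γ
  hja : j ≠ a
  hjb : j ≠ b
  hab : a ≠ b
  ha : g (R.e 0) = R.e a
  hj : ∀ e ∈ D₀, e (R.e j) = R.e j
  hd : d ∈ D₀
  hswap : R.perm d = Equiv.swap a b

theorem exists_quadPlace (hS : R.Splits ℓ) {g : Γ}
    (hfix : ¬ ∀ d ∈ D₀, d (g (R.e 0)) = g (R.e 0)) : Nonempty (QuadPlace (R := R) (ℓ := ℓ) g) := by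
  obtain ⟨j, hj⟩ := hS.fixedRoot _ (liesOverPrime_padicPlace ℓ)
  obtain ⟨d, hd, hd'⟩ := hS.notMem _ (liesOverPrime_padicPlace ℓ)
  obtain ⟨a, ha⟩ := R.exists_apply g 0
  have hja : j ≠ a := by
    rintro rfl
    exact hfix (by rw [ha]; exact hj)
  have key : ∀ (p : Equiv.Perm (Fin 3)) (j a : Fin 3), j ≠ a → p j = j → Equiv.Perm.sign p ≠ 1 →
      ∃ b, j ≠ b ∧ a ≠ b ∧ p = Equiv.swap a b := by decide
  obtain ⟨b, hjb, hab, hswap⟩ := key (R.perm d) j a hja (R.perm_eq_iff.mpr (hj d hd))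
    fun h => hd' ((R.mem_disc_iff d).mpr h)
  exact ⟨⟨j, a, b, d, hja, hjb, hab, ha, hj, hd, hswap⟩⟩

namespace QuadPlace

variable {g : Γ} (P : QuadPlace (R := R) (ℓ := ℓ) g)

include P

theorem perm_cases {e : Γ} (he : e ∈ D₀) : R.perm e = 1 ∨ R.perm e = Equiv.swap P.a P.b := by
  have key : ∀ (p : Equiv.Perm (Fin 3)) (j a b : Fin 3), j ≠ a → j ≠ b → a ≠ b → p j = j →
      p = 1 ∨ p = Equiv.swap a b := by decide
  exact key _ _ _ _ P.hja P.hjb P.hab (R.perm_eq_iff.mpr (P.hj e he))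

theorem mem_range_sym (T : R.Rot) (x : R.fld) :
    ι (cel T P.a x) + ι (cel T P.b x) ∈ Set.range (algebraMap ℚ_[ℓ] Ω) ∧
      ι (cel T P.a x) * ι (cel T P.b x) ∈ Set.range (algebraMap ℚ_[ℓ] Ω) := by
  rw [← map_add, ← map_mul]
  constructor <;> refine (fixed_iff_mem_range ℓ _).mp fun e he => ?_
  · rw [map_add, apply_cel, apply_cel]
    rcases P.perm_cases he with h | h <;> simp [h, add_comm]
  · rw [map_mul, apply_cel, apply_cel]
    rcases P.perm_cases he with h | h <;> simp [h, mul_comm]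

theorem locField_eq (_T : R.Rot) :
    locField ℓ (R.embAt (ℓ := ℓ) g) = IntermediateField.adjoin ℚ_[ℓ] {ι (R.e P.a)} := by
  refine le_antisymm (IntermediateField.adjoin_le_iff.mpr ?_) ?_
  · rintro _ ⟨y, rfl⟩
    have h : R.fld ≤ ((IntermediateField.adjoin ℚ_[ℓ] {ι (R.e P.a)}).restrictScalars ℚ).comap
        ((padicEmbedding ℓ).comp g.toAlgHom) := IntermediateField.adjoin_le_iff.mpr (by
      rintro _ ⟨rfl⟩
      show ι (g (R.e 0)) ∈ IntermediateField.adjoin ℚ_[ℓ] {ι (R.e P.a)}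
      rw [P.ha]
      exact IntermediateField.subset_adjoin _ _ rfl)
    exact h y.2
  · rw [IntermediateField.adjoin_simple_le_iff, ← P.ha]
    exact mem_locField ℓ (R.embAt (ℓ := ℓ) g) ⟨R.e 0, R.e_mem_fld⟩

theorem finrank_eq (T : R.Rot) : Module.finrank ℚ_[ℓ] (locField ℓ (R.embAt (ℓ := ℓ) g)) = 2 := by
  have hint : IsIntegral ℚ_[ℓ] (ι (R.e P.a)) := isIntegral_embedding ℓ _
  rw [P.locField_eq T, IntermediateField.adjoin.finrank hint]
  refine le_antisymm ?_ ((minpoly.two_le_natDegree_iff hint).mpr ?_)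
  · obtain ⟨⟨p, hp⟩, ⟨q, hq⟩⟩ := P.mem_range_sym T ⟨R.e 0, R.e_mem_fld⟩
    have hca : ∀ i, cel T i ⟨R.e 0, R.e_mem_fld⟩ = R.e i := fun i => by
      obtain ⟨h, -, hh⟩ := R.exists_move T i
      rw [cel_eq T hh, hh]
    rw [hca, hca] at hp hq
    refine le_trans (Polynomial.natDegree_le_of_dvd (minpoly.dvd ℚ_[ℓ] _
      (p := Polynomial.X ^ 2 - Polynomial.C p * Polynomial.X + Polynomial.C q) ?_) ?_) ?_
    · simp [hp, hq]; ring
    · exact (Polynomial.Monic.ne_zero (by monicity!))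
    · compute_degree
  · intro h
    refine R.e_injective.ne P.hab ?_
    have := (fixed_iff_mem_range ℓ _).mpr h _ P.hd
    rw [R.apply_e, P.hswap, Equiv.swap_apply_left] at this
    exact this.symm

theorem mul_conj_mem_range (T : R.Rot) {z : Ω} (hz : z ∈ locField ℓ (R.embAt (ℓ := ℓ) g)) :
    ∃ τ : Ω ≃ₐ[ℚ_[ℓ]] Ω, (∀ y : ℚbar, τ (ι y) = ι (P.d y)) ∧
      z * τ z ∈ Set.range (algebraMap ℚ_[ℓ] Ω) := by
  have hd := P.hd
  rw [← range_localGaloisToGlobal] at hd
  obtain ⟨τ, hτ⟩ := hd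
  have hτι : ∀ y : ℚbar, τ (ι y) = ι (P.d y) := fun y => by
    rw [← hτ, padicEmbedding_localGaloisToGlobal]
  refine ⟨τ, hτι, mem_range_of_local_fixed ℓ fun ρ => ?_⟩
  rw [P.locField_eq T] at hz
  have hagree : ∀ ρ ρ' : Ω ≃ₐ[ℚ_[ℓ]] Ω, ρ (ι (R.e P.a)) = ρ' (ι (R.e P.a)) → ρ z = ρ' z := by
    intro ρ ρ' h
    induction hz using IntermediateField.adjoin_induction with
    | mem y hy => rw [Set.mem_singleton_iff] at hy; rw [hy]; exact h
    | algebraMap r => rw [AlgEquiv.commutes, AlgEquiv.commutes]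
    | add u v _ _ hu hv => rw [map_add, map_add, hu, hv]
    | inv u _ hu => rw [map_inv₀, map_inv₀, hu]
    | mul u v _ _ hu hv => rw [map_mul, map_mul, hu, hv]
  have hperm : ∀ (ρ : Ω ≃ₐ[ℚ_[ℓ]] Ω) (i : Fin 3),
      ρ (ι (R.e i)) = ι (R.e (R.perm (localGaloisToGlobal ℓ ρ) i)) := fun ρ i => by
    rw [← R.apply_e, padicEmbedding_localGaloisToGlobal]
  have hτa : τ (ι (R.e P.a)) = ι (R.e P.b) := by
    rw [hτι, R.apply_e, P.hswap, Equiv.swap_apply_left]
  rw [map_mul]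
  rcases P.perm_cases (localGaloisToGlobal_mem_decompositionSubgroup ℓ ρ) with h | h
  · rw [hagree ρ AlgEquiv.refl (by rw [hperm, h]; rfl),
      show ρ (τ z) = τ z from hagree (τ.trans ρ) τ (by
        show ρ (τ (ι (R.e P.a))) = _
        rw [hτa, hperm, h]; rfl)]
    rfl
  · rw [hagree ρ τ (by rw [hperm, h, Equiv.swap_apply_left, hτa]),
      show ρ (τ z) = z from hagree (τ.trans ρ) AlgEquiv.refl (by
        show ρ (τ (ι (R.e P.a))) = _
        rw [hτa, hperm, h, Equiv.swap_apply_right]; rfl), mul_comm]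

/-- At a quadratic place the local condition puts the element in `ℚ_ℓ L²`. -/
theorem exists_base_mul_sq (T : R.Rot) {x : R.fld} (hx0 : x ≠ 0) (hx : LocSq R ℓ x)
    (hN : NormSq T x) :
    ∃ (c : ℚ_[ℓ]) (z : Ω), z ∈ locField ℓ (R.embAt (ℓ := ℓ) g) ∧
      R.embAt (ℓ := ℓ) g x = algebraMap ℚ_[ℓ] Ω c * z ^ 2 := by
  obtain ⟨tj, htj⟩ := IsAlgClosed.exists_pow_nat_eq (cel T P.j x) (n := 2) two_pos
  have hfix : ∀ e ∈ D₀, e tj = tj := fun e he =>
    loc_transport T hx (liesOverPrime_padicPlace ℓ) P.hj htj he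
  obtain ⟨r, hr⟩ := hN
  have key : ∀ (j a b : Fin 3), j ≠ a → j ≠ b → a ≠ b →
      (Finset.univ : Finset (Fin 3)) = {j, a, b} :=
    by decide
  rw [key _ _ _ P.hja P.hjb P.hab, Finset.prod_insert (by simp [P.hja, P.hjb]),
    Finset.prod_pair P.hab, ← htj] at hr
  have htj0 : tj ≠ 0 := fun h => cel_ne_zero T P.j hx0 (by rw [← htj, h]; simp)
  obtain ⟨C, hC⟩ := (fixed_iff_mem_range ℓ (algebraMap ℚ ℚbar r / tj)).mp fun e he => by
    rw [map_div₀, AlgEquiv.commutes, hfix e he]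
  set X := ι (cel T P.a x)
  set Y := ι (cel T P.b x)
  have hXY : X * Y = algebraMap ℚ_[ℓ] Ω C ^ 2 := by
    rw [hC, ← map_pow, ← map_mul]
    congr 1
    rw [div_pow, ← hr, mul_div_cancel_left₀ _ (pow_ne_zero 2 htj0)]
  have hX0 : X ≠ 0 := by simp [X, cel_ne_zero T P.a hx0]
  have hC0 : algebraMap ℚ_[ℓ] Ω C ≠ 0 := fun h => by
    rw [h, zero_pow two_ne_zero, mul_eq_zero] at hXY
    exact hXY.elim hX0 (by simp [Y, cel_ne_zero T P.b hx0])
  rw [embAt_eq_cel T P.ha]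
  change ∃ c z, z ∈ _ ∧ X = _
  set L := locField ℓ (R.embAt (ℓ := ℓ) g)
  have hXL : X ∈ L := by
    rw [show X = R.embAt (ℓ := ℓ) g x from (embAt_eq_cel T P.ha x).symm]
    exact mem_locField ℓ _ x
  by_cases hz : algebraMap ℚ_[ℓ] Ω C + X = 0
  · exact ⟨-C, 1, one_mem _, by rw [map_neg, one_pow, mul_one]; linear_combination hz⟩
  obtain ⟨w, hw⟩ : (algebraMap ℚ_[ℓ] Ω C + X) * (algebraMap ℚ_[ℓ] Ω C + Y) ∈
      Set.range (algebraMap ℚ_[ℓ] Ω) := by
    obtain ⟨⟨p, hp⟩, ⟨q, hq⟩⟩ := P.mem_range_sym T x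
    exact ⟨C ^ 2 + C * p + q, by rw [map_add, map_add, map_mul, map_pow, hp, hq]; ring⟩
  have hY : algebraMap ℚ_[ℓ] Ω C + Y ≠ 0 := fun h => hz <| by
    refine mul_left_cancel₀ hC0 ?_
    linear_combination X * h - hXY
  refine ⟨C / w, algebraMap ℚ_[ℓ] Ω C + X, add_mem (IntermediateField.algebraMap_mem _ _) hXL, ?_⟩
  rw [map_div₀, hw, div_mul_eq_mul_div, eq_div_iff (mul_ne_zero hz hY)]
  linear_combination (algebraMap ℚ_[ℓ] Ω C + X) * hXY

end QuadPlace

/-- Any two quadratic embeddings give the same place. -/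
theorem placeOf_eq_of_quad {g g' : Γ} (P : QuadPlace (R := R) (ℓ := ℓ) g)
    (P' : QuadPlace (R := R) (ℓ := ℓ) g') (hS : R.Splits ℓ) :
    placeOf ℓ (R.embAt g) = placeOf ℓ (R.embAt g') := by
  have hj : P'.j = P.j := unique_fixed (hS.notMem _ (liesOverPrime_padicPlace ℓ)) P'.hj P.hj
  have key : ∀ (j a b c : Fin 3), j ≠ a → j ≠ b → a ≠ b → j ≠ c → c = a ∨ c = b := by decide
  rcases key P.j P.a P.b P'.a P.hja P.hjb P.hab (hj ▸ P'.hja) with h | h
  · refine congrArg _ (AlgHom.ext fun x => ?_)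
    rw [R.embAt_apply, R.embAt_apply, R.apply_eq_apply (g := g) (g' := g') (by rw [P.ha, P'.ha, h])]
  · have hd := P.hd
    rw [← range_localGaloisToGlobal] at hd
    obtain ⟨τ, hτ⟩ := hd
    refine placeOf_eq_of_comp_eq ℓ τ fun x => ?_
    rw [R.embAt_apply, R.embAt_apply, ← padicEmbedding_localGaloisToGlobal, hτ]
    congr 1
    exact R.apply_eq_apply (g := P.d * g) (g' := g')
      (by rw [AlgEquiv.mul_apply, P.ha, R.apply_e, P.hswap, Equiv.swap_apply_left, P'.ha, h]) x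

/-- **Isotropy** at a place over a prime with local conditions. -/
theorem hil_eq_zero_of_locSq (T : R.Rot) (hS : R.Splits ℓ) {x y : R.fldˣ}
    (hx : LocSq R ℓ (x : R.fld)) (hxN : NormSq T (x : R.fld))
    (hy : LocSq R ℓ (y : R.fld)) (hyN : NormSq T (y : R.fld)) (g : Γ) :
    hil (.inl (placeOf ℓ (R.embAt (ℓ := ℓ) g))) x y = 0 := by
  by_cases hfix : ∀ d ∈ D₀, d (g (R.e 0)) = g (R.e 0)
  · exact Global.Two.hil_eq_zero_of_right (p := .inl _) x
      ((mem_localPow_placeOf_iff ℓ Nat.prime_two _ y).mpr (exists_sq_of_locSq T hfix hy))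
  · obtain ⟨P⟩ := exists_quadPlace hS hfix
    obtain ⟨c, z, hz, hc⟩ := P.exists_base_mul_sq T x.ne_zero hx hxN
    obtain ⟨d, w, hw, hd⟩ := P.exists_base_mul_sq T y.ne_zero hy hyN
    exact Global.Two.hil_eq_zero_of_quadratic _ (P.finrank_eq T) hz hw hc hd

end

/-- At the real places. -/
theorem hilbInf_eq_zero (_hW : GenusCurve W) (T : R.Rot) (x : R.fldˣ) {y : R.fldˣ}
    (hy : RealSq R (y : R.fld)) (w : InfinitePlace R.fld) : hilbInf w x y = 0 := by
  rw [Global.Two.hilbInf_eq, if_neg]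
  rintro ⟨hw, -, hneg⟩
  set φ := w.embedding
  set t := φ ⟨R.e 0, R.e_mem_fld⟩ with ht
  have h1 := congrArg complexEmbedding R.sum_eq
  have h2 := congrArg complexEmbedding R.pair_eq
  have h3 := congrArg complexEmbedding R.prod_eq
  simp only [map_add, map_mul, map_neg, map_intCast, map_ofNat] at h1 h2 h3
  have hr : (⟨R.e 0, R.e_mem_fld⟩ : R.fld) ^ 3 + (W.b₂ : R.fld) * ⟨R.e 0, R.e_mem_fld⟩ ^ 2 +
      8 * (W.b₄ : R.fld) * ⟨R.e 0, R.e_mem_fld⟩ + 16 * (W.b₆ : R.fld) = 0 := by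
    apply R.fld.val.toRingHom.injective
    simp only [AlgHom.toRingHom_eq_coe, RingHom.coe_coe, map_add, map_mul, map_pow, map_intCast,
      map_ofNat, map_zero]
    exact R.isRootOf_e 0
  have hr' := congrArg φ hr
  simp only [map_add, map_mul, map_pow, map_intCast, map_ofNat, map_zero, ← ht] at hr'
  have hz : (t - complexEmbedding (R.e 0)) *
      ((t - complexEmbedding (R.e 1)) * (t - complexEmbedding (R.e 2))) = 0 := by
    linear_combination hr' - t ^ 2 * h1 + t * h2 - h3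
  obtain ⟨i, hi⟩ : ∃ i, t = complexEmbedding (R.e i) := by
    simpa [mul_eq_zero, sub_eq_zero, Fin.exists_fin_succ] using hz
  obtain ⟨g, -, hg⟩ := R.exists_move T i
  have hφ : ∀ z : R.fld, φ z = complexEmbedding (g (z : ℚbar)) := by
    intro z
    have hint : IsIntegral ℚ (R.e 0) := (Algebra.IsAlgebraic.isAlgebraic _).isIntegral
    have e : φ.toRatAlgHom = ((complexEmbedding.comp g.toAlgHom).comp R.fld.val) := by
      refine (IntermediateField.adjoin.powerBasis hint).algHom_ext ?_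
      rw [IntermediateField.adjoin.powerBasis_gen]
      change φ ⟨R.e 0, R.e_mem_fld⟩ = complexEmbedding (g (R.e 0))
      rw [hg, ← hi]
    exact DFunLike.congr_fun e z
  have hreal : ∀ z : R.fld, complexConjugation (g (z : ℚbar)) = g (z : ℚbar) := fun z => by
    refine complexEmbedding.toRingHom.injective ?_
    show complexEmbedding _ = complexEmbedding _
    rw [complexEmbedding_complexConjugation, ← hφ]
    exact RingHom.congr_fun (InfinitePlace.isReal_iff.mp hw) z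
  set c := g⁻¹ * complexConjugation * g
  obtain ⟨s, hs⟩ := IsAlgClosed.exists_pow_nat_eq ((y : R.fld) : ℚbar) (n := 2) two_pos
  have hc2 : c * c = 1 := by
    rw [show c * c = g⁻¹ * (complexConjugation * complexConjugation) * g by simp only [c]; group,
      complexConjugation_mul_self, mul_one, inv_mul_cancel]
  have hcd : c ∉ discGroup W := fun h => R.conj_notMem ((R.mem_disc_iff _).mpr (by
    have := (R.mem_disc_iff _).mp h
    rwa [map_mul, map_mul, map_mul, map_mul, map_inv, map_inv, inv_mul_cancel_comm] at this))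
  have hcs : c ∈ R.stab := R.mem_stab.mpr (by
    simp only [c, AlgEquiv.mul_apply]
    rw [hreal ⟨R.e 0, R.e_mem_fld⟩, AlgEquiv.aut_inv, AlgEquiv.symm_apply_apply])
  have h := congrArg g (hy c hc2 hcd hcs s hs)
  simp only [c, AlgEquiv.mul_apply, AlgEquiv.aut_inv, AlgEquiv.apply_symm_apply] at h
  have hre := congrArg complexEmbedding h
  rw [complexEmbedding_complexConjugation, Complex.conj_eq_iff_im] at hre
  rw [hφ, ← hs, map_pow, map_pow, pow_two, Complex.mul_re, hre, mul_zero, sub_zero] at hneg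
  exact absurd hneg (not_lt.mpr (mul_self_nonneg _))

end Frame

end Fermat.Agent.Root.Selmer
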