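import Fermat.Agent.Root.Selmer.Even
import Fermat.Agent.Root.Selmer.Cocycle

/-!
# Selmer cocycles give square classes of the cubic field

If every class with the local conditions is a square, every cocycle with them is a coboundary
(`exists_const`).
-/

set_option autoImplicit false

noncomputable section

namespace Fermat.Agent.Root.Selmer

open IsDedekindDomain NumberField
open scoped Pointwise

local notation "ℚbar" => AlgebraicClosure ℚ
local notation "Γ" => AlgebraicClosure ℚ ≃ₐ[ℚ] AlgebraicClosure ℚ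
local notation "c₀" => complexConjugation

/-- The sign attached to an element of `ZMod 2`. -/
def sgn (a : ZMod 2) : ℚbar := if a = 0 then 1 else -1

theorem sgn_add (a b : ZMod 2) : sgn (a + b) = sgn a * sgn b := by
  have key : ∀ x : ZMod 2, x = 0 ∨ x = 1 := by decide
  rcases key a with rfl | rfl <;> rcases key b with rfl | rfl <;>
    simp [sgn, show (1 : ZMod 2) + 1 = 0 from rfl]

theorem conj_conj (g : Γ) : c₀ * (c₀ * g) = g := by
  rw [← mul_assoc, complexConjugation_mul_self, one_mul]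

theorem conj_inv : (c₀)⁻¹ = c₀ := complexConjugation_inv

namespace Frame

variable {W : WeierstrassCurve ℤ} {R : Frame W} {k : Type} [Field k] [CharP k 2]
  {C : DiscChar W k} {Q : Finset ℕ} {f : discGroup W → k}

open Classical in
/-- The cocycle extended by zero. -/
def fE (f : discGroup W → k) (g : Γ) : k := if h : g ∈ discGroup W then f ⟨g, h⟩ else 0

omit [CharP k 2] in
theorem fE_eq (f : discGroup W → k) (g : discGroup W) : fE f (g : Γ) = f g := by
  rw [fE, dif_pos g.2]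

section cocycle

variable (hf : SelmerCocycle C Q f)

include hf

theorem cocycle_one : f 1 = 0 := by
  have h := hf.cocycle 1 1
  rwa [mul_one, map_one, one_pow, one_mul, left_eq_add] at h

theorem fE_one : fE f (1 : Γ) = 0 := by
  rw [show (1 : Γ) = ((1 : discGroup W) : Γ) from rfl, fE_eq, cocycle_one hf]

variable (R)

theorem fE_mul {g h : Γ} (hg : R.perm g = 1) (hh : R.perm h = 1) :
    fE f (g * h) = fE f g + fE f h := by
  set g' : discGroup W := ⟨g, R.mem_disc_of_perm_eq_one hg⟩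
  set h' : discGroup W := ⟨h, R.mem_disc_of_perm_eq_one hh⟩
  show fE f ((g' * h' : discGroup W) : Γ) = fE f (g' : Γ) + fE f (h' : Γ)
  rw [fE_eq, fE_eq, fE_eq, hf.cocycle, (R.chi_eq_one_iff C g').mpr hg, one_pow, one_mul]

theorem fE_conj (g : discGroup W) {m : Γ} (hm : R.perm m = 1) :
    fE f ((g : Γ) * m * (g : Γ)⁻¹) = C.χ g ^ 2 * fE f m := by
  set m' : discGroup W := ⟨m, R.mem_disc_of_perm_eq_one hm⟩
  show fE f ((g * m' * g⁻¹ : discGroup W) : Γ) = C.χ g ^ 2 * fE f (m' : Γ)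
  rw [fE_eq, fE_eq, hf.cocycle, hf.cocycle, map_mul, (R.chi_eq_one_iff C m').mpr hm, mul_one]
  have h1 := hf.cocycle g g⁻¹
  rw [mul_inv_cancel, cocycle_one hf] at h1
  linear_combination -h1

end cocycle

variable (R)

/-- `f` plus its conjugate. -/
def sym (f : discGroup W → k) (m : Γ) : k := fE f m + fE f (c₀ * m * c₀)

open Classical in
/-- The extension of `sym` to the stabiliser of the root. -/
def psi (f : discGroup W → k) (g : Γ) : k :=
  if R.perm g = 1 then sym f g else sym f (c₀ * g)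

theorem perm_of_mem_stab {g : Γ} (hg : g ∈ R.stab) :
    R.perm g = 1 ∨ (R.perm g = Equiv.swap 1 2 ∧ R.perm g ≠ 1) := by
  have h := R.mem_stab_iff_perm.mp hg
  revert h
  generalize R.perm g = p
  revert p
  decide

theorem perm_conj_mul {g : Γ} (hg : g ∈ R.stab) (h : R.perm g ≠ 1) : R.perm (c₀ * g) = 1 := by
  rw [map_mul, R.perm_conj, ((R.perm_of_mem_stab hg).resolve_left h).1, Equiv.swap_mul_self]

theorem perm_mul_conj {g : Γ} (hg : g ∈ R.stab) (h : R.perm g ≠ 1) : R.perm (g * c₀) = 1 := by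
  rw [map_mul, R.perm_conj, ((R.perm_of_mem_stab hg).resolve_left h).1, Equiv.swap_mul_self]

theorem perm_conj_conj {g : Γ} (h : R.perm g = 1) : R.perm (c₀ * g * c₀) = 1 := by
  rw [map_mul, map_mul, h, mul_one, R.perm_conj, Equiv.swap_mul_self]

variable (hf : SelmerCocycle C Q f)

include hf

theorem sym_mul {g h : Γ} (hg : R.perm g = 1) (hh : R.perm h = 1) :
    sym f (g * h) = sym f g + sym f h := by
  rw [sym, sym, sym, fE_mul R hf hg hh,
    show c₀ * (g * h) * c₀ = (c₀ * g * c₀) * (c₀ * h * c₀) by simp only [mul_assoc, conj_conj],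
    fE_mul R hf (R.perm_conj_conj hg) (R.perm_conj_conj hh)]
  ring

omit hf [CharP k 2] in
theorem sym_conj (g : Γ) : sym f (c₀ * g * c₀) = sym f g := by
  rw [sym, sym, add_comm]
  simp only [mul_assoc, conj_conj, complexConjugation_mul_self, mul_one]

theorem psi_mul {g h : Γ} (hg : g ∈ R.stab) (hh : h ∈ R.stab) :
    R.psi f (g * h) = R.psi f g + R.psi f h := by
  simp only [psi]
  by_cases h1 : R.perm g = 1 <;> by_cases h2 : R.perm h = 1
  · rw [if_pos h1, if_pos h2, if_pos (by rw [map_mul, h1, h2, one_mul]), R.sym_mul hf h1 h2]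
  · rw [if_pos h1, if_neg h2, if_neg (by rw [map_mul, h1, one_mul]; exact h2),
      show c₀ * (g * h) = (c₀ * g * c₀) * (c₀ * h) by simp only [mul_assoc, conj_conj],
      R.sym_mul hf (R.perm_conj_conj h1) (R.perm_conj_mul hh h2), sym_conj]
  · rw [if_neg h1, if_pos h2, if_neg (by rw [map_mul, h2, mul_one]; exact h1), ← mul_assoc,
      R.sym_mul hf (R.perm_conj_mul hg h1) h2]
  · have hp : R.perm (g * h) = 1 := by
      rw [map_mul, ((R.perm_of_mem_stab hg).resolve_left h1).1,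
        ((R.perm_of_mem_stab hh).resolve_left h2).1, Equiv.swap_mul_self]
    rw [if_neg h1, if_neg h2, if_pos hp,
      show g * h = (g * c₀) * (c₀ * h) by simp only [mul_assoc, conj_conj],
      R.sym_mul hf (R.perm_mul_conj hg h1) (R.perm_conj_mul hh h2),
      ← sym_conj (f := f) (g * c₀)]
    simp only [mul_assoc, complexConjugation_mul_self, mul_one]

theorem psi_eq_of_notMem {g : Γ} (hg : g ∈ R.stab) (hg' : g ∉ discGroup W) :
    R.psi f g = fE f (g * g) := by
  have h1 : R.perm g ≠ 1 := fun e => hg' (R.mem_disc_of_perm_eq_one e)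
  rw [psi, if_neg h1, sym]
  simp only [conj_conj]
  rw [add_comm,
    ← fE_mul R hf (R.perm_mul_conj hg h1) (R.perm_conj_mul hg h1)]
  simp only [mul_assoc, conj_conj]

theorem psi_involution {g : Γ} (hg : g ∈ R.stab) (hg' : g ∉ discGroup W) (h2 : g * g = 1) :
    R.psi f g = 0 := by
  rw [R.psi_eq_of_notMem hf hg hg', h2, fE_one hf]

theorem psi_decomposition (hS : ∀ ℓ : ℕ, ℓ.Prime → (ℓ ∈ Q ∨ (ℓ : ℤ) ∣ W.Δ) → R.Splits ℓ)
    {ℓ : ℕ} (hℓ : ℓ.Prime) (hT : ℓ ∈ Q ∨ (ℓ : ℤ) ∣ W.Δ) {A : ValuationSubring ℚbar}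
    (hA : A.LiesOverPrime ℓ) (hD : A.decompositionSubgroup ℚ ≤ R.stab) {g : Γ}
    (hg : g ∈ A.decompositionSubgroup ℚ) : R.psi f g = 0 := by
  by_cases hgd : g ∈ discGroup W
  · have hp : R.perm g = 1 := R.perm_eq_one_of_fix hgd (R.mem_stab.mp (hD hg))
    obtain ⟨u, hu, hu'⟩ := (hS ℓ hℓ hT).notMem A hA
    have hu1 : R.perm u ≠ 1 := fun e => hu' (R.mem_disc_of_perm_eq_one e)
    have hconj : R.perm (u * g * u⁻¹) = 1 := by
      rw [map_mul, map_mul, hp, mul_one, map_inv, mul_inv_cancel]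
    have h0 := hf.transfer_mul ℓ hℓ hT A hA u hu hu' ⟨g, hgd⟩
      ⟨g * (u * g * u⁻¹), R.mem_disc_of_perm_eq_one (by rw [map_mul, hp, hconj, one_mul])⟩ hg rfl
    rw [← fE_eq f] at h0
    change fE f (g * (u * g * u⁻¹)) = 0 at h0
    rw [fE_mul R hf hp hconj] at h0
    have he : u * g * u⁻¹ = (u * c₀) * (c₀ * g * c₀) * (u * c₀)⁻¹ := by
      rw [mul_inv_rev, conj_inv]; simp only [mul_assoc, conj_conj]
    have hcomm := fE_conj R hf ⟨u * c₀, R.mem_disc_of_perm_eq_one (R.perm_mul_conj (hD hu) hu1)⟩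
      (R.perm_conj_conj hp)
    change fE f ((u * c₀) * (c₀ * g * c₀) * (u * c₀)⁻¹) = _ at hcomm
    rw [(R.chi_eq_one_iff C _).mpr (R.perm_mul_conj (hD hu) hu1), one_pow, one_mul, ← he] at hcomm
    rw [psi, if_pos hp, sym, ← hcomm]
    exact h0
  · rw [R.psi_eq_of_notMem hf (hD hg) hgd]
    have hd : g * g ∈ discGroup W := (R.mem_disc_iff _).mpr (by
      rw [map_mul, map_mul, Int.units_mul_self])
    rw [show g * g = ((⟨g * g, hd⟩ : discGroup W) : Γ) from rfl, fE_eq]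
    exact hf.transfer_sq ℓ hℓ hT A hA g hg hgd _ rfl

theorem psi_inertia (hW : GenusCurve W) {ℓ : ℕ} (hℓ : ℓ.Prime) (hQ : ℓ ∉ Q)
    (hgood : ¬ (ℓ : ℤ) ∣ W.Δ) {A : ValuationSubring ℚbar} (hA : A.LiesOverPrime ℓ) {u : Γ}
    (hu : u ∈ A.inertiaSubgroupIn ℚ) : R.psi f u = 0 ∧ R.perm u = 1 := by
  have hg2 : ¬ (ℓ : ℤ) ∣ 2 * W.Δ := fun h => by
    rcases (Nat.prime_iff_prime_int.mp hℓ).dvd_mul.mp h with e | e
    · rw [(Nat.prime_dvd_prime_iff_eq hℓ Nat.prime_two).mp (by exact_mod_cast e)] at hgood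
      exact hgood (by exact_mod_cast hW.two_dvd)
    · exact hgood e
  have key : ∀ {B : ValuationSubring ℚbar}, B.LiesOverPrime ℓ → ∀ {v : Γ},
      v ∈ B.inertiaSubgroupIn ℚ → R.perm v = 1 ∧ fE f v = 0 := by
    intro B hB v hv
    have hp : R.perm v = 1 := Equiv.ext fun i =>
      R.perm_eq_iff.mpr (R.inertia_apply_e hℓ hg2 hB hv i)
    refine ⟨hp, ?_⟩
    rw [show v = ((⟨v, R.mem_disc_of_perm_eq_one hp⟩ : discGroup W) : Γ) from rfl, fE_eq]
    exact hf.unramified ℓ hℓ hQ hgood B hB _ hv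
  obtain ⟨hp, h1⟩ := key hA hu
  have h2 := Gal.conj_mem_inertia hu c₀
  rw [conj_inv] at h2
  refine ⟨?_, hp⟩
  rw [psi, if_pos hp, sym, h1, (key (Gal.liesOverPrime_smul c₀ hA) h2).2, add_zero]

omit hf in
theorem chi_conj (T : R.Rot) (ρ : discGroup W) (hρ : (ρ : Γ) = c₀ * T.σ * c₀) :
    C.χ ρ * C.χ ⟨T.σ, T.mem⟩ = 1 := by
  rw [← map_mul]
  refine (R.chi_eq_one_iff C _).mpr ?_
  rw [Subgroup.coe_mul, hρ, map_mul, map_mul, map_mul, R.perm_conj, R.perm_rot T.mem T.map_zero]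
  decide

omit hf in
theorem chi_rot (T : R.Rot) :
    C.χ ⟨T.σ, T.mem⟩ ^ 3 = 1 ∧ C.χ ⟨T.σ, T.mem⟩ ^ 2 ≠ 1 ∧
      1 + C.χ ⟨T.σ, T.mem⟩ + C.χ ⟨T.σ, T.mem⟩ ^ 2 = 0 := by
  set w := C.χ ⟨T.σ, T.mem⟩
  have h3 : w ^ 3 = 1 := by
    rw [← map_pow]
    refine (R.chi_eq_one_iff C _).mpr ?_
    rw [Subgroup.coe_pow, map_pow, R.perm_rot T.mem T.map_zero]
    decide
  have h1 : w ≠ 1 := fun e => by
    have := (R.chi_eq_one_iff C _).mp e
    rw [R.perm_rot T.mem T.map_zero] at this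
    revert this
    decide
  refine ⟨h3, fun e => h1 ?_, ?_⟩
  · rwa [pow_succ, e, one_mul] at h3
  · exact (mul_eq_zero.mp
      (show (w - 1) * (1 + w + w ^ 2) = 0 by linear_combination h3)).resolve_left
      (sub_ne_zero.mpr h1)

open Classical in
theorem psi_eq_zero_of_trivial_sel (hW : GenusCurve W) (T : R.Rot) [Algebra (ZMod 2) k]
    (hS : ∀ ℓ : ℕ, ℓ.Prime → (ℓ ∈ Q ∨ (ℓ : ℤ) ∣ W.Δ) → R.Splits ℓ)
    (htriv : sel T Q ≤ R.squares) (l : Module.Dual (ZMod 2) k) :
    ∀ g ∈ R.stab, l (R.psi f g) = 0 := by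
  by_contra hne
  push Not at hne
  obtain ⟨g₁, hg₁, hl₁⟩ := hne
  obtain ⟨L, hL, hloc⟩ := hf.locConst
  let H : Subgroup Γ :=
    { carrier := {g | g ∈ R.stab ∧ l (R.psi f g) = 0}
      one_mem' := ⟨one_mem _, by
        rw [psi, if_pos (map_one _), sym, mul_one, complexConjugation_mul_self, fE_one hf,
          add_zero, map_zero]⟩
      mul_mem' := fun {a b} ha hb => ⟨mul_mem ha.1 hb.1, by
        rw [R.psi_mul hf ha.1 hb.1, map_add, ha.2, hb.2, add_zero]⟩
      inv_mem' := fun {a} ha => ⟨inv_mem ha.1, by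
        have h := congrArg l (R.psi_mul hf ha.1 (inv_mem ha.1))
        rw [mul_inv_cancel, map_add, ha.2, zero_add] at h
        rw [← h, psi, if_pos (map_one _), sym, mul_one, complexConjugation_mul_self, fE_one hf,
          add_zero, map_zero]⟩ }
  let L' : IntermediateField ℚ ℚbar :=
    L ⊔ L.map (c₀ : Γ).toAlgHom ⊔ IntermediateField.adjoin ℚ (Set.range R.e)
  have hfinR : FiniteDimensional ℚ (IntermediateField.adjoin ℚ (Set.range R.e)) :=
    IntermediateField.finiteDimensional_adjoin fun y _ =>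
      (Algebra.IsAlgebraic.isAlgebraic y).isIntegral
  have hfin : FiniteDimensional ℚ L' := inferInstance
  have hsub : L'.fixingSubgroup ≤ H := by
    intro g hg
    have hfix := (IntermediateField.mem_fixingSubgroup_iff _ _).mp hg
    have hp : R.perm g = 1 := Equiv.ext fun i => R.perm_eq_iff.mpr (hfix _
      (le_sup_right (a := L ⊔ L.map (c₀ : Γ).toAlgHom)
        (IntermediateField.subset_adjoin ℚ _ ⟨i, rfl⟩)))
    refine ⟨R.mem_stab_iff_perm.mpr (by rw [hp]; rfl), ?_⟩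
    have hz : ∀ x : discGroup W, (∀ y ∈ L, (x : Γ) y = y) → fE f (x : Γ) = 0 := fun x hx => by
      rw [fE_eq, ← cocycle_one hf]
      have := hloc 1 x hx
      rwa [one_mul] at this
    have h1 := hz ⟨g, R.mem_disc_of_perm_eq_one hp⟩ fun y hy => hfix _
      (le_sup_left (b := IntermediateField.adjoin ℚ (Set.range R.e))
        (le_sup_left (b := L.map _) hy))
    have h2 := hz ⟨c₀ * g * c₀, R.mem_disc_of_perm_eq_one (R.perm_conj_conj hp)⟩ fun y hy => by
      show c₀ (g (c₀ y)) = y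
      rw [hfix (c₀ y) (le_sup_left (b := IntermediateField.adjoin ℚ (Set.range R.e))
        (le_sup_right (a := L) ⟨y, hy, rfl⟩)), ← AlgEquiv.mul_apply, complexConjugation_mul_self]
      rfl
    rw [psi, if_pos hp, sym]
    simp only at h1 h2
    rw [h1, h2, add_zero, map_zero]
  have hopen : IsOpen (H : Set Γ) :=
    Subgroup.isOpen_mono hsub (IntermediateField.fixingSubgroup_isOpen L')
  have hHfix := InfiniteGalois.fixingSubgroup_fixedField
    (⟨H, Subgroup.isClosed_of_isOpen H hopen⟩ : ClosedSubgroup Γ)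
  obtain ⟨y, hy, hgy⟩ : ∃ y ∈ IntermediateField.fixedField H, g₁ y ≠ y := by
    by_contra h
    push Not at h
    have : g₁ ∈ (IntermediateField.fixedField H).fixingSubgroup :=
      (IntermediateField.mem_fixingSubgroup_iff _ _).mpr h
    rw [show (IntermediateField.fixedField H).fixingSubgroup = H from hHfix] at this
    exact hl₁ this.2
  set s := y - g₁ y with hs
  have key : ∀ x : ZMod 2, x = 0 ∨ x = 1 := by decide
  have hHy : ∀ m ∈ R.stab, l (R.psi f m) = 0 → m y = y := fun m h1 h2 => hy ⟨m, h1, h2⟩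
  have hl1 : l (R.psi f g₁) = 1 := (key _).resolve_left hl₁
  have hsign : ∀ g ∈ R.stab, g s = sgn (l (R.psi f g)) * s := by
    intro g hg
    rcases key (l (R.psi f g)) with h | h
    · rw [sgn, if_pos h, one_mul]
      have h' : g (g₁ y) = g₁ y := by
        have hm : g₁⁻¹ * g * g₁ ∈ R.stab := mul_mem (mul_mem (inv_mem hg₁) hg) hg₁
        have e : l (R.psi f (g₁⁻¹ * g * g₁)) = 0 := by
          have h1 : l (R.psi f (g₁ * (g₁⁻¹ * g * g₁))) = l (R.psi f (g * g₁)) := by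
            rw [mul_assoc, mul_inv_cancel_left]
          rw [R.psi_mul hf hg₁ hm, R.psi_mul hf hg hg₁, map_add, map_add, h, hl1, zero_add,
            add_eq_left] at h1
          exact h1
        have := congrArg g₁ (hHy _ hm e)
        rwa [AlgEquiv.mul_apply, AlgEquiv.mul_apply, AlgEquiv.aut_inv,
          AlgEquiv.apply_symm_apply] at this
      rw [hs, map_sub, hHy g hg h, h']
    · rw [sgn, if_neg (by rw [h]; decide), neg_one_mul, hs, map_sub, neg_sub]
      have h1 : g₁⁻¹ * g ∈ R.stab := mul_mem (inv_mem hg₁) hg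
      have e : l (R.psi f (g₁⁻¹ * g)) = 0 := by
        have h2 : l (R.psi f (g₁ * (g₁⁻¹ * g))) = l (R.psi f g) := by rw [mul_inv_cancel_left]
        rw [R.psi_mul hf hg₁ h1, map_add, h, hl1, add_eq_left] at h2
        exact h2
      have ha := congrArg g₁ (hHy _ h1 e)
      rw [AlgEquiv.mul_apply, AlgEquiv.aut_inv, AlgEquiv.apply_symm_apply] at ha
      have hb : g (g₁ y) = y := by
        have h2 : g * g₁ ∈ R.stab := mul_mem hg hg₁
        have := hHy _ h2 (by rw [R.psi_mul hf hg hg₁, map_add, h, hl1]; decide)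
        rwa [AlgEquiv.mul_apply] at this
      rw [ha, hb]
  have hs0 : s ≠ 0 := sub_ne_zero.mpr (Ne.symm hgy)
  have hx : s ^ 2 ∈ R.fld := R.mem_fld_of_fixed fun g hg => by
    rw [map_pow, hsign g hg, mul_pow]
    rcases key (l (R.psi f g)) with h | h <;> simp [sgn, h]
  have hx0 : (⟨s ^ 2, hx⟩ : R.fld) ≠ 0 := fun e =>
    pow_ne_zero 2 hs0 (congrArg Subtype.val e)
  set x : R.fldˣ := Units.mk0 _ hx0
  have hxv : ((x : R.fld) : ℚbar) = s ^ 2 := rfl
  have hfixs : ∀ g ∈ R.stab, R.psi f g = 0 → ∀ t : ℚbar, t ^ 2 = (x : R.fld) → g t = t := by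
    intro g hg h0 t ht
    rcases sq_eq_sq_iff_eq_or_eq_neg.mp (ht.trans hxv) with rfl | rfl <;>
      simp [hsign g hg, h0, sgn]
  suffices hmem : x ∈ sel T Q by
    obtain ⟨z, hz⟩ := htriv hmem
    have hfx := fix_of_sq (z := (z : R.fld)) hg₁ (s := s) (by
      rw [← hxv, ← hz]; simp [powMonoidHom_apply])
    have e := hsign g₁ hg₁
    rw [hfx, hl1, sgn, if_neg (by decide), neg_one_mul, eq_neg_iff_add_eq_zero] at e
    exact hs0 (by linear_combination e / 2)
  refine ⟨?_, fun c hc hcd hcs t ht => hfixs c hcs (R.psi_involution hf hcs hcd hc) t ht,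
    fun ℓ hℓ hQ hgood v hv => R.ordPar_eq_zero_of_inertia T hℓ (fun h => ?_) x (s := s) hxv.symm
      (fun A hA u hu => ?_) v hv,
    fun ℓ hℓ hT A hA hD t ht g hg =>
      hfixs g (hD hg) (R.psi_decomposition hf hS hℓ hT hA hD hg) t ht⟩
  rotate_left
  · rcases (Nat.prime_iff_prime_int.mp hℓ).dvd_mul.mp h with e | e
    · rw [(Nat.prime_dvd_prime_iff_eq hℓ Nat.prime_two).mp (by exact_mod_cast e)] at hgood
      exact hgood (by exact_mod_cast hW.two_dvd)
    · exact hgood e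
  · obtain ⟨h0, hp⟩ := R.psi_inertia hf hW hℓ hQ hgood hA hu
    exact hfixs u (R.mem_stab_iff_perm.mpr (by rw [hp]; rfl)) h0 s hxv.symm
  -- the norm
  obtain ⟨hw3, hw2, hw⟩ := R.chi_rot (C := C) T
  set σ' : discGroup W := ⟨T.σ, T.mem⟩
  set ρ : Γ := c₀ * T.σ * c₀
  have hρperm : R.perm ρ = (Equiv.swap 0 1 * Equiv.swap 1 2)⁻¹ := by
    simp only [ρ, map_mul, R.perm_conj, R.perm_rot T.mem T.map_zero]; decide
  have hρd : ρ ∈ discGroup W := (R.mem_disc_iff _).mpr (by rw [hρperm]; decide)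
  have hρ0 : ρ (R.e 0) = R.e 2 := R.perm_eq_iff.mp (by rw [hρperm]; decide)
  have hwρ : C.χ ⟨ρ, hρd⟩ * C.χ σ' = 1 := R.chi_conj T _ rfl
  set P := s * T.σ s * ρ s
  have hP2 : P ^ 2 = ∏ i, cel T i (x : R.fld) := by
    rw [Fin.prod_univ_three, cel_zero, cel_eq T T.map_zero, cel_eq T hρ0, hxv, map_pow, map_pow]
    ring
  have hconjinv : ∀ (g : discGroup W) (m : Γ), R.perm m = 1 →
      R.perm ((g : Γ)⁻¹ * m * g) = 1 := fun g m hm => by
    rw [map_mul, map_mul, hm, mul_one, map_inv, inv_mul_cancel]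
  have hmoved : ∀ (g : Γ) (m : Γ), R.perm m = 1 → R.perm (g⁻¹ * m * g) = 1 →
      m (g s) = sgn (l (sym f (g⁻¹ * m * g))) * g s := by
    intro g m _ hp
    have h := hsign (g⁻¹ * m * g) (R.mem_stab_iff_perm.mpr (by rw [hp]; rfl))
    rw [psi, if_pos hp] at h
    calc m (g s) = g ((g⁻¹ * m * g) s) := by
          rw [AlgEquiv.mul_apply, AlgEquiv.mul_apply, AlgEquiv.aut_inv, AlgEquiv.apply_symm_apply]
      _ = g (sgn (l (sym f (g⁻¹ * m * g))) * s) := by rw [h]
      _ = _ := by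
          rcases key (l (sym f (g⁻¹ * m * g))) with e | e <;>
            simp [sgn, e]
  have htrip : ∀ m, R.perm m = 1 →
      sym f m + sym f (T.σ⁻¹ * m * T.σ) + sym f (ρ⁻¹ * m * ρ) = 0 := by
    intro m hm
    have hcm := R.perm_conj_conj hm
    have e : ∀ (g : discGroup W) (m : Γ), R.perm m = 1 →
        fE f ((g : Γ)⁻¹ * m * g) = C.χ g⁻¹ ^ 2 * fE f m := fun g m hm => by
      have := fE_conj R hf g⁻¹ hm
      rwa [Subgroup.coe_inv, inv_inv] at this
    have e1 := e σ' m hm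
    have e2 := e ⟨ρ, hρd⟩ m hm
    have e3 := e σ' _ hcm
    have e4 := e ⟨ρ, hρd⟩ _ hcm
    have f1 : T.σ⁻¹ * (c₀ * m * c₀) * T.σ = c₀ * (ρ⁻¹ * m * ρ) * c₀ := by
      simp only [ρ, mul_inv_rev, conj_inv, mul_assoc, conj_conj,
        complexConjugation_mul_self, mul_one]
    have f2 : ρ⁻¹ * (c₀ * m * c₀) * ρ = c₀ * (T.σ⁻¹ * m * T.σ) * c₀ := by
      simp only [ρ, mul_inv_rev, conj_inv, mul_assoc, conj_conj]
    simp only [σ'] at e1 e3
    change fE f (T.σ⁻¹ * m * T.σ) = _ at e1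
    change fE f (T.σ⁻¹ * (c₀ * m * c₀) * T.σ) = _ at e3
    change fE f (ρ⁻¹ * m * ρ) = _ at e2
    change fE f (ρ⁻¹ * (c₀ * m * c₀) * ρ) = _ at e4
    rw [f1] at e3
    rw [f2] at e4
    have i1 : C.χ σ'⁻¹ = C.χ σ' ^ 2 := by
      have h := map_mul C.χ σ' σ'⁻¹
      rw [mul_inv_cancel, map_one] at h
      linear_combination (-(C.χ σ'⁻¹)) * hw3 - (C.χ σ' ^ 2) * h
    have i2 : C.χ (⟨ρ, hρd⟩ : discGroup W)⁻¹ = C.χ σ' := by
      have h := map_mul C.χ (⟨ρ, hρd⟩ : discGroup W) (⟨ρ, hρd⟩)⁻¹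
      rw [mul_inv_cancel, map_one] at h
      linear_combination (-(C.χ (⟨ρ, hρd⟩ : discGroup W)⁻¹)) * hwρ - C.χ σ' * h
    rw [show C.χ ⟨T.σ, T.mem⟩⁻¹ = C.χ σ' ^ 2 from i1] at e1 e3
    rw [i2] at e2 e4
    simp only [sym]
    rw [e1, e2, e3, e4]
    linear_combination (fE f m + fE f (c₀ * m * c₀)) * hw +
      (fE f m + fE f (c₀ * m * c₀)) * C.χ σ' * hw3
  have hPm : ∀ m, R.perm m = 1 → m P = P := by
    intro m hm
    have h0 : m s = sgn (l (sym f m)) * s := by
      have := hsign m (R.mem_stab_iff_perm.mpr (by rw [hm]; rfl))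
      rwa [psi, if_pos hm] at this
    have h1 := hmoved T.σ m hm (hconjinv σ' m hm)
    have h2 := hmoved ρ m hm (hconjinv ⟨ρ, hρd⟩ m hm)
    simp only [P, map_mul]
    rw [h0, h1, h2]
    have h3 := congrArg (fun z => sgn (l z)) (htrip m hm)
    simp only [map_add, map_zero, sgn_add] at h3
    rw [show sgn (0 : ZMod 2) = 1 from if_pos rfl] at h3
    linear_combination (s * T.σ s * ρ s) * h3
  have hcP : c₀ P = P := by
    have hcs : c₀ s = s := hfixs c₀ R.conj_mem_stab (R.psi_involution hf R.conj_mem_stab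
      R.conj_notMem complexConjugation_mul_self) s hxv.symm
    have e1 : c₀ (T.σ s) = ρ s := by
      conv_lhs => rw [← hcs]
      rfl
    have e2 : c₀ (ρ s) = T.σ s := by
      rw [← e1, ← AlgEquiv.mul_apply, complexConjugation_mul_self]; rfl
    simp only [P, map_mul, hcs, e1, e2]
    ring
  have hσP : T.σ P = P := by
    have hsq : T.σ P ^ 2 = P ^ 2 := by
      obtain ⟨r, hr⟩ := exists_rat_prod T (x : R.fld)
      rw [← map_pow, hP2, hr, AlgEquiv.commutes]
    rcases sq_eq_sq_iff_eq_or_eq_neg.mp hsq with e | e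
    · exact e
    exfalso
    have h3 := hPm (T.σ * T.σ * T.σ)
      (by rw [map_mul, map_mul, R.perm_rot T.mem T.map_zero]; decide)
    simp only [AlgEquiv.mul_apply, e, map_neg, neg_neg] at h3
    have hP0 : P ≠ 0 := by simp [P, hs0]
    exact hP0 (by linear_combination (-1 / 2 : ℚbar) * h3)
  obtain ⟨r, hr⟩ := (InfiniteGalois.mem_range_algebraMap_iff_fixed P).mpr fun g => by
    have hdec : ∀ p : Equiv.Perm (Fin 3), ∃ a : Fin 2, ∃ b : Fin 3,
        (((Equiv.swap 1 2) ^ (a : ℕ) * (Equiv.swap 0 1 * Equiv.swap 1 2) ^ (b : ℕ))⁻¹ * p =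
          (1 : Equiv.Perm (Fin 3))) := by decide
    obtain ⟨a, b, hab⟩ := hdec (R.perm g)
    set u : Γ := c₀ ^ (a : ℕ) * T.σ ^ (b : ℕ)
    have hu : R.perm (u⁻¹ * g) = 1 := by
      rw [map_mul, map_inv]
      simp only [u, map_mul, map_pow, R.perm_conj, R.perm_rot T.mem T.map_zero]
      exact hab
    have h := hPm _ hu
    have hfixu : u P = P := by
      have hm : u ∈ MulAction.stabilizer Γ P :=
        mul_mem (pow_mem (show c₀ ∈ MulAction.stabilizer Γ P from hcP) _)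
          (pow_mem (show T.σ ∈ MulAction.stabilizer Γ P from hσP) _)
      exact hm
    calc g P = (u * (u⁻¹ * g)) P := by rw [mul_inv_cancel_left]
      _ = u ((u⁻¹ * g) P) := rfl
      _ = P := by rw [h, hfixu]
  exact ⟨r, by rw [hr, hP2]⟩

/-- **Without nontrivial classes every cocycle with the local conditions is a coboundary.** -/
theorem exists_const (hW : GenusCurve W) (T : R.Rot)
    (hS : ∀ ℓ : ℕ, ℓ.Prime → (ℓ ∈ Q ∨ (ℓ : ℤ) ∣ W.Δ) → R.Splits ℓ)
    (htriv : sel T Q ≤ R.squares) : ∃ a : k, ∀ h, f h = (C.χ h ^ 2 - 1) * a := by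
  let : Algebra (ZMod 2) k := ZMod.algebra k 2
  obtain ⟨hw3, hw2, hw⟩ := R.chi_rot (C := C) T
  set σ' : discGroup W := ⟨T.σ, T.mem⟩
  set w := C.χ σ'
  have hsym : ∀ m, R.perm m = 1 → fE f (c₀ * m * c₀) = fE f m := by
    intro m hm
    have h0 : R.psi f m = 0 := (Module.forall_dual_apply_eq_zero_iff (ZMod 2) _).mp fun l =>
      R.psi_eq_zero_of_trivial_sel hf hW T hS htriv l m (R.mem_stab_iff_perm.mpr (by rw [hm]; rfl))
    rw [psi, if_pos hm, sym, CharTwo.add_eq_zero] at h0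
    exact h0.symm
  set ρ : discGroup W := ⟨c₀ * T.σ * c₀, (R.mem_disc_iff _).mpr (by
    simp only [map_mul, R.perm_conj, R.perm_rot T.mem T.map_zero]; decide)⟩
  have hwρ : C.χ ρ * w = 1 := R.chi_conj T ρ rfl
  have hzero : ∀ m, R.perm m = 1 → fE f m = 0 := by
    intro m hm
    have hm' : R.perm (T.σ * m * T.σ⁻¹) = 1 := by
      rw [map_mul, map_mul, hm, mul_one, map_inv, mul_inv_cancel]
    have h1 := fE_conj R hf σ' hm
    have h2 := fE_conj R hf ρ (R.perm_conj_conj hm)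
    have e : c₀ * (T.σ * m * T.σ⁻¹) * c₀ =
        (ρ : Γ) * (c₀ * m * c₀) * (ρ : Γ)⁻¹ := by
      simp only [ρ, mul_inv_rev, conj_inv, mul_assoc, conj_conj]
    rw [← e, hsym _ hm', hsym _ hm] at h2
    change fE f (T.σ * m * T.σ⁻¹) = _ at h1
    rw [h1] at h2
    have h3 : (w ^ 2 - C.χ ρ ^ 2) * fE f m = 0 := by linear_combination h2
    refine (mul_eq_zero.mp h3).resolve_left fun e' => hw2 ?_
    linear_combination (w + 1) * (w ^ 2) * e' + (w + 1) * (C.χ ρ * w + 1) * hwρ - (w + 1) * w * hw3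
  refine ⟨f σ' / (w ^ 2 - 1), fun h => ?_⟩
  have hne : w ^ 2 - 1 ≠ 0 := sub_ne_zero.mpr hw2
  have hcomm : R.perm (((h * σ')⁻¹ * (σ' * h) : discGroup W) : Γ) = 1 := by
    simp only [Subgroup.coe_mul, Subgroup.coe_inv, mul_inv_rev, map_mul, map_inv]
    have h1 := (R.mem_disc_iff _).mp h.2
    have h2 := (R.mem_disc_iff _).mp σ'.2
    revert h1 h2
    generalize R.perm (h : Γ) = p
    generalize R.perm (σ' : Γ) = p'
    revert p p'
    decide
  have h0 := hzero _ hcomm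
  rw [fE_eq] at h0
  have h4 := hf.cocycle (h * σ') ((h * σ')⁻¹ * (σ' * h))
  rw [mul_inv_cancel_left, h0, mul_zero, add_zero, hf.cocycle, hf.cocycle] at h4
  rw [mul_div_assoc', eq_div_iff hne]
  linear_combination h4

end Frame

end Fermat.Agent.Root.Selmer
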